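/-
S55 / Tate toolbox: inflation-restriction in degree 2 for Mathlib `groupCohomology`.

For a group `G`, a normal subgroup `S`, and `A : Rep k G` with `H¹(S, A) = 0`, the sequence
`0 ⟶ H²(G ⧸ S, A^S) ⟶ H²(G, A) ⟶ H²(S, A)` is exact.  Direct cocycle proof (mirrors Mathlib's
`groupCohomology.H1InfRes`); `G` is arbitrary, no finiteness.  Mathlib only.
-/
import Mathlib

namespace Fermat.Agent.S55.Tate.InfRes2

open CategoryTheory groupCohomology Rep

universe u

section Raw

variable {k G : Type u} [CommRing k] [Group G] (A : Rep k G) (S : Subgroup G)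

/-- A set-theoretic section of `G → G ⧸ S`, as a function `G → G` constant on left cosets. -/
noncomputable def cosetRep (g : G) : G := (QuotientGroup.mk g : G ⧸ S).out

variable {S} in
lemma cosetRep_mul_of_mem (g : G) {s : G} (hs : s ∈ S) : cosetRep S (g * s) = cosetRep S g := by
  unfold cosetRep
  rw [QuotientGroup.mk_mul_of_mem g hs]

lemma exists_cosetRep_eq (g : G) : ∃ h ∈ S, cosetRep S g = g * h := by
  obtain ⟨h, hh⟩ := QuotientGroup.mk_out_eq_mul S g
  exact ⟨h.1, h.2, hh⟩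

lemma cosetRep_inv_mul_mem (g : G) : (cosetRep S g)⁻¹ * g ∈ S := by
  obtain ⟨h, hh, e⟩ := exists_cosetRep_eq S g
  rw [e, mul_inv_rev, inv_mul_cancel_right]
  exact S.inv_mem hh

lemma cosetRep_mem_of_mem {s : G} (hs : s ∈ S) : cosetRep S s ∈ S := by
  obtain ⟨h, hh, e⟩ := exists_cosetRep_eq S s
  rw [e]
  exact S.mul_mem hs hh

variable {S} in
lemma cosetRep_of_mem {s : G} (hs : s ∈ S) : cosetRep S s = cosetRep S 1 := by
  have := cosetRep_mul_of_mem (S := S) 1 hs
  rwa [one_mul] at this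

/-- `H¹(S, A) = 0`, in cocycle form. -/
def H1ResTrivial : Prop :=
  ∀ x : S → A, (∀ s t : S, x (s * t) = A.ρ s (x t) + x s) → ∃ a : A, ∀ s : S, x s = A.ρ s a - a

variable {A S} in
/-- Step A: a 2-cocycle vanishing on `S × S` is cohomologous to one vanishing on `G × S`. -/
theorem exists_add_d_vanish_right (f : G × G → A) (hf : f ∈ cocycles₂ A)
    (h0 : ∀ s ∈ S, ∀ t ∈ S, f (s, t) = 0) :
    ∃ c : G → A, ∀ g : G, ∀ s ∈ S, f (g, s) + (d₁₂ A).hom c (g, s) = 0 := by
  rw [mem_cocycles₂_iff] at hf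
  refine ⟨fun g => f (cosetRep S g, (cosetRep S g)⁻¹ * g), fun g s hs => ?_⟩
  have hc0 : f (cosetRep S s, (cosetRep S s)⁻¹ * s) = 0 :=
    h0 _ (cosetRep_mem_of_mem S hs) _ (cosetRep_inv_mul_mem S s)
  have key := hf (cosetRep S g) ((cosetRep S g)⁻¹ * g) s
  rw [mul_inv_cancel_left, h0 _ (cosetRep_inv_mul_mem S g) _ hs, map_zero, zero_add,
    mul_assoc] at key
  simp only [d₁₂_hom_apply, cosetRep_mul_of_mem g hs, hc0, map_zero]
  linear_combination (norm := abel) key

variable [S.Normal]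

omit [S.Normal] in
variable {A S} in
/-- a 2-cocycle vanishing on `G × S` is right-`S`-invariant in the second variable. -/
lemma snd_mul_of_vanish_right (f : G × G → A) (hf : f ∈ cocycles₂ A)
    (h1 : ∀ g : G, ∀ s ∈ S, f (g, s) = 0) (g h : G) {s : G} (hs : s ∈ S) :
    f (g, h * s) = f (g, h) := by
  rw [mem_cocycles₂_iff] at hf
  have key := hf g h s
  rw [h1 _ _ hs, h1 _ _ hs, map_zero, zero_add, zero_add] at key
  exact key.symm

variable {A S} in
/-- a 2-cocycle vanishing on `G × S` is left-`S`-invariant in the second variable. -/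
lemma snd_mul_of_vanish_right' (f : G × G → A) (hf : f ∈ cocycles₂ A)
    (h1 : ∀ g : G, ∀ s ∈ S, f (g, s) = 0) (g h : G) {s : G} (hs : s ∈ S) :
    f (g, s * h) = f (g, h) := by
  have : s * h = h * (h⁻¹ * s * h) := by group
  rw [this]
  exact snd_mul_of_vanish_right f hf h1 g h (Subgroup.Normal.conj_mem' ‹_› _ hs _)

variable {A S} in
/-- Step B: a 2-cocycle vanishing on `G × S` is cohomologous to one vanishing on `G × S` and
`S × G`, provided `H¹(S, A) = 0`. -/
theorem exists_sub_d_vanish_both (hS : H1ResTrivial A S) (f : G × G → A) (hf : f ∈ cocycles₂ A)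
    (h1 : ∀ g : G, ∀ s ∈ S, f (g, s) = 0) :
    ∃ c : G → A, (∀ g : G, ∀ s ∈ S, f (g, s) - (d₁₂ A).hom c (g, s) = 0) ∧
      (∀ g : G, ∀ s ∈ S, f (s, g) - (d₁₂ A).hom c (s, g) = 0) := by
  have hf' := (mem_cocycles₂_iff f).1 hf
  -- for every `g`, `s ↦ f (s, g)` is a 1-cocycle on `S`
  have hcoc : ∀ g : G, ∃ a : A, ∀ s : S, f (s.1, g) = A.ρ s a - a := by
    intro g
    refine hS (fun s => f (s.1, g)) (fun s t => ?_)
    have key := hf' s.1 t.1 g
    rw [h1 _ _ t.2, add_zero, snd_mul_of_vanish_right' f hf h1 _ _ t.2] at key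
    simpa using key
  choose b hb using hcoc
  -- `f (s, g)` only depends on the coset of `g`
  have hfr : ∀ (g : G) (s : S), f (s.1, g) = f (s.1, cosetRep S g) := by
    intro g s
    obtain ⟨h, hh, e⟩ := exists_cosetRep_eq S g
    rw [e, snd_mul_of_vanish_right f hf h1 _ _ hh]
  -- `b (cosetRep S 1)` is `S`-invariant
  have hb1 : ∀ s : S, A.ρ s (b (cosetRep S 1)) = b (cosetRep S 1) := by
    intro s
    have := hb (cosetRep S 1) s
    rw [h1 _ _ (cosetRep_mem_of_mem S S.one_mem)] at this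
    exact (sub_eq_zero.1 this.symm)
  let c : G → A := fun g => b (cosetRep S g) - b (cosetRep S 1)
  have hc1 : ∀ (g : G) (s : S), f (s.1, g) = A.ρ s (c g) - c g := by
    intro g s
    rw [hfr g s, hb (cosetRep S g) s]
    simp only [c, map_sub, hb1 s]
    abel
  have hc2 : ∀ (g : G) {s : G}, s ∈ S → c (g * s) = c g := by
    intro g s hs
    simp only [c, cosetRep_mul_of_mem g hs]
  have hc3 : ∀ {s : G}, s ∈ S → c s = 0 := by
    intro s hs
    simp only [c, cosetRep_of_mem hs, sub_self]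
  refine ⟨c, fun g s hs => ?_, fun g s hs => ?_⟩
  · simp only [d₁₂_hom_apply, h1 g s hs, hc2 g hs, hc3 hs, map_zero]
    abel
  · have e : s * g = g * (g⁻¹ * s * g) := by group
    have := hc1 g ⟨s, hs⟩
    simp only at this
    simp only [d₁₂_hom_apply, hc3 hs, this]
    rw [e, hc2 g (Subgroup.Normal.conj_mem' ‹_› _ hs _)]
    abel


variable {A S} in
lemma fst_mul_of_vanish_both (f : G × G → A) (hf : f ∈ cocycles₂ A)
    (h1 : ∀ g : G, ∀ s ∈ S, f (g, s) = 0) (h2 : ∀ g : G, ∀ s ∈ S, f (s, g) = 0)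
    (g h : G) {s : G} (hs : s ∈ S) : f (g * s, h) = f (g, h) := by
  have key := (mem_cocycles₂_iff f).1 hf g s h
  rw [h1 _ _ hs, h2 _ _ hs, map_zero, zero_add, add_zero,
    snd_mul_of_vanish_right' f hf h1 _ _ hs] at key
  exact key

variable {A S} in
lemma ρ_of_vanish_both (f : G × G → A) (hf : f ∈ cocycles₂ A)
    (h1 : ∀ g : G, ∀ s ∈ S, f (g, s) = 0) (h2 : ∀ g : G, ∀ s ∈ S, f (s, g) = 0)
    (g h : G) {s : G} (hs : s ∈ S) : A.ρ s (f (g, h)) = f (g, h) := by
  have key := (mem_cocycles₂_iff f).1 hf s g h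
  rw [h2 _ _ hs, h2 _ _ hs, add_zero, add_zero] at key
  rw [← key]
  have e : s * g = g * (g⁻¹ * s * g) := by group
  rw [e, fst_mul_of_vanish_both f hf h1 h2 _ _ (Subgroup.Normal.conj_mem' ‹_› _ hs _)]

variable {A S} in
/-- Step C: a 2-cocycle vanishing on `G × S` and `S × G` is inflated from `G ⧸ S`. -/
theorem exists_inf_eq_of_vanish_both (f : G × G → A) (hf : f ∈ cocycles₂ A)
    (h1 : ∀ g : G, ∀ s ∈ S, f (g, s) = 0) (h2 : ∀ g : G, ∀ s ∈ S, f (s, g) = 0) :
    ∃ fbar : cocycles₂ (A.quotientToInvariants S),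
      ∀ g h : G, ((fbar ((g : G ⧸ S), (h : G ⧸ S))).1 : A) = f (g, h) := by
  let fbar0 : (G ⧸ S) × (G ⧸ S) → (A.quotientToInvariants S) := fun p =>
    ⟨f (p.1.out, p.2.out), fun s => ρ_of_vanish_both f hf h1 h2 _ _ s.2⟩
  have hfbar0 : ∀ g h : G, ((fbar0 ((g : G ⧸ S), (h : G ⧸ S))).1 : A) = f (g, h) := by
    intro g h
    obtain ⟨s, hs⟩ := QuotientGroup.mk_out_eq_mul S g
    obtain ⟨t, ht⟩ := QuotientGroup.mk_out_eq_mul S h
    simp only [fbar0, hs, ht]
    rw [fst_mul_of_vanish_both f hf h1 h2 _ _ s.2, snd_mul_of_vanish_right f hf h1 _ _ t.2]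
  refine ⟨⟨fbar0, ?_⟩, hfbar0⟩
  rw [mem_cocycles₂_iff]
  intro x y z
  induction x using QuotientGroup.induction_on with | @H g =>
  induction y using QuotientGroup.induction_on with | @H h =>
  induction z using QuotientGroup.induction_on with | @H j =>
  apply Subtype.ext
  have := (mem_cocycles₂_iff f).1 hf g h j
  simpa [hfbar0, ← QuotientGroup.mk_mul] using this


variable {A S} in
open Classical in
/-- Exactness at `H²(G, A)`, cocycle form: a 2-cocycle of `G` whose restriction to `S` is a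
coboundary is cohomologous to an inflated cocycle, provided `H¹(S, A) = 0`. -/
theorem exists_inf_add_d (hS : H1ResTrivial A S) (f : G × G → A) (hf : f ∈ cocycles₂ A)
    (c₀ : S → A) (hres : ∀ s t : S, f (s.1, t.1) = A.ρ s (c₀ t) - c₀ (s * t) + c₀ s) :
    ∃ (fbar : cocycles₂ (A.quotientToInvariants S)) (c : G → A),
      ∀ g h : G, f (g, h) = ((fbar ((g : G ⧸ S), (h : G ⧸ S))).1 : A) + (d₁₂ A).hom c (g, h) := by
  -- step 1: make `f` vanish on `S × S`
  let c1 : G → A := fun g => if h : g ∈ S then c₀ ⟨g, h⟩ else 0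
  have hc1 : ∀ s : S, c1 s.1 = c₀ s := fun s => by simp [c1]
  let f1 : G × G → A := f - (d₁₂ A).hom c1
  have hf1 : f1 ∈ cocycles₂ A := Submodule.sub_mem _ hf (d₁₂_apply_mem_cocycles₂ c1)
  have h01 : ∀ s ∈ S, ∀ t ∈ S, f1 (s, t) = 0 := by
    intro s hs t ht
    have := hres ⟨s, hs⟩ ⟨t, ht⟩
    simp only [f1, Pi.sub_apply, d₁₂_hom_apply]
    have e1 := hc1 ⟨s, hs⟩
    have e2 := hc1 ⟨t, ht⟩
    have e3 := hc1 (⟨s, hs⟩ * ⟨t, ht⟩)
    simp only [Subgroup.coe_mul] at e1 e2 e3 this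
    rw [e1, e2, e3, this]
    abel
  -- step A
  obtain ⟨c2, hc2⟩ := exists_add_d_vanish_right f1 hf1 h01
  let f2 : G × G → A := f1 + (d₁₂ A).hom c2
  have hf2 : f2 ∈ cocycles₂ A := Submodule.add_mem _ hf1 (d₁₂_apply_mem_cocycles₂ c2)
  have h12 : ∀ g : G, ∀ s ∈ S, f2 (g, s) = 0 := hc2
  -- step B
  obtain ⟨c3, hc3, hc3'⟩ := exists_sub_d_vanish_both hS f2 hf2 h12
  let f3 : G × G → A := f2 - (d₁₂ A).hom c3
  have hf3 : f3 ∈ cocycles₂ A := Submodule.sub_mem _ hf2 (d₁₂_apply_mem_cocycles₂ c3)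
  -- step C
  obtain ⟨fbar, hfbar⟩ := exists_inf_eq_of_vanish_both f3 hf3 hc3 hc3'
  refine ⟨fbar, c1 - c2 + c3, fun g h => ?_⟩
  rw [hfbar g h, map_add, map_sub]
  simp only [f3, f2, f1, Pi.add_apply, Pi.sub_apply]
  abel


variable {A S} in
/-- Injectivity of inflation on `H²`, cocycle form: if the inflation of a 2-cocycle `fbar` of
`G ⧸ S` with values in `A^S` is a coboundary on `G`, then `fbar` is a coboundary, provided
`H¹(S, A) = 0`. -/
theorem mem_coboundaries₂_of_inf_eq_d (hS : H1ResTrivial A S)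
    (fbar : cocycles₂ (A.quotientToInvariants S)) (c : G → A)
    (hc : ∀ g h : G, ((fbar ((g : G ⧸ S), (h : G ⧸ S))).1 : A) = (d₁₂ A).hom c (g, h)) :
    ⇑fbar ∈ coboundaries₂ (A.quotientToInvariants S) := by
  -- the constant `a₀ = fbar (1, 1) ∈ A^S`
  set a₀ : A := (fbar (1, 1)).1 with ha₀
  have ha₀S : ∀ s : S, A.ρ s a₀ = a₀ := fun s => (fbar (1, 1)).2 s
  have hmk1 : ∀ {s : G}, s ∈ S → (s : G ⧸ S) = 1 := fun hs => (QuotientGroup.eq_one_iff _).2 hs
  -- values of `fbar` on `(g, s)` and `(s, g)`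
  have hfb1 : ∀ (g : G) {s : G}, s ∈ S → ((fbar ((g : G ⧸ S), (s : G ⧸ S))).1 : A) = A.ρ g a₀ := by
    intro g s hs
    rw [hmk1 hs, cocycles₂_map_one_snd]
    rfl
  have hfb2 : ∀ (g : G) {s : G}, s ∈ S → ((fbar ((s : G ⧸ S), (g : G ⧸ S))).1 : A) = a₀ := by
    intro g s hs
    rw [hmk1 hs, cocycles₂_map_one_fst]
  -- `s ↦ c s - a₀` is a 1-cocycle on `S`
  obtain ⟨b, hb⟩ := hS (fun s => c s.1 - a₀) (fun s t => by
    have h := hc s.1 t.1
    rw [hfb2 _ s.2, d₁₂_hom_apply] at h
    simp only [Subgroup.coe_mul, map_sub, ha₀S s]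
    linear_combination (norm := abel) h)
  -- modify `c` by the coboundary of `b`
  let c1 : G → A := fun g => c g - (A.ρ g b - b)
  have hdc1 : ∀ g h : G, (d₁₂ A).hom c1 (g, h) = (d₁₂ A).hom c (g, h) := by
    intro g h
    simp only [d₁₂_hom_apply, c1, map_sub, map_mul, Module.End.mul_apply]
    abel
  have hc1S : ∀ {s : G}, s ∈ S → c1 s = a₀ := by
    intro s hs
    have := hb ⟨s, hs⟩
    simp only at this
    simp only [c1]
    linear_combination (norm := abel) this
  have hc1r : ∀ (g : G) {s : G}, s ∈ S → c1 (g * s) = c1 g := by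
    intro g s hs
    have h := hc g s
    rw [hfb1 g hs, ← hdc1, d₁₂_hom_apply] at h
    simp only [hc1S hs] at h
    linear_combination (norm := abel) h
  have hc1inv : ∀ (g : G) (s : S), A.ρ s (c1 g) = c1 g := by
    intro g s
    have h := hc s.1 g
    rw [hfb2 g s.2, ← hdc1, d₁₂_hom_apply] at h
    have e : s.1 * g = g * (g⁻¹ * s.1 * g) := by group
    simp only [hc1S s.2] at h
    rw [e, hc1r g (Subgroup.Normal.conj_mem' ‹_› _ s.2 _)] at h
    linear_combination (norm := abel) -h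
  let cbar : G ⧸ S → (A.quotientToInvariants S) := fun x => ⟨c1 x.out, fun s => hc1inv _ s⟩
  have hcbar : ∀ g : G, ((cbar (g : G ⧸ S)).1 : A) = c1 g := by
    intro g
    obtain ⟨s, hs⟩ := QuotientGroup.mk_out_eq_mul S g
    simp only [cbar, hs]
    exact hc1r g s.2
  refine ⟨cbar, ?_⟩
  funext ⟨x, y⟩
  induction x using QuotientGroup.induction_on with | @H g =>
  induction y using QuotientGroup.induction_on with | @H h =>
  apply Subtype.ext
  have := hc g h
  rw [← hdc1, d₁₂_hom_apply] at this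
  simpa [hcbar, ← QuotientGroup.mk_mul] using this.symm


/-- The inflation map `H²(G ⧸ S, A^S) ⟶ H²(G, A)`. -/
noncomputable abbrev infl₂ : groupCohomology (A.quotientToInvariants S) 2 ⟶ groupCohomology A 2 :=
  map (QuotientGroup.mk' S) (ofHom <| A.ρ.quotientToInvariants_lift S) 2

/-- The restriction map `H²(G, A) ⟶ H²(S, A)`. -/
noncomputable abbrev rest₂ : groupCohomology A 2 ⟶ groupCohomology (res S.subtype A) 2 :=
  map S.subtype (𝟙 _) 2

lemma infl₂_H2π_apply (x : cocycles₂ (A.quotientToInvariants S)) (g h : G) :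
    (mapCocycles₂ (QuotientGroup.mk' S) (ofHom <| A.ρ.quotientToInvariants_lift S) x) (g, h)
      = ((x ((g : G ⧸ S), (h : G ⧸ S))).1 : A) := rfl

omit [S.Normal] in
lemma rest₂_H2π_apply (x : cocycles₂ A) (s t : S) :
    (mapCocycles₂ S.subtype (𝟙 (res S.subtype A)) x) (s, t) = x (s.1, t.1) := rfl

lemma infl₂_comp_rest₂ : infl₂ A S ≫ rest₂ A S = 0 := by
  rw [← cancel_epi (H2π _)]
  ext x
  simp only [ModuleCat.hom_comp, LinearMap.coe_comp, Function.comp_apply,
    H2π_comp_map_apply (QuotientGroup.mk' S), H2π_comp_map_apply S.subtype, Limits.comp_zero,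
    ModuleCat.hom_zero, LinearMap.zero_apply]
  rw [H2π_eq_zero_iff]
  refine ⟨fun _ => ((x (1, 1)).1 : A), ?_⟩
  funext ⟨s, t⟩
  have hs : ((s : G) : G ⧸ S) = 1 := (QuotientGroup.eq_one_iff _).2 s.2
  have ht : ((t : G) : G ⧸ S) = 1 := (QuotientGroup.eq_one_iff _).2 t.2
  have h1 : (res S.subtype A).ρ s ((x (1, 1)).1 : A) = ((x (1, 1)).1 : A) := (x (1, 1)).2 s
  rw [d₁₂_hom_apply, rest₂_H2π_apply, infl₂_H2π_apply, hs, ht]
  simp only [h1]
  abel

/-- The short complex `H²(G ⧸ S, A^S) ⟶ H²(G, A) ⟶ H²(S, A)`. -/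
@[simps X₁ X₂ X₃ f g]
noncomputable def H2InfRes : ShortComplex (ModuleCat k) where
  X₁ := groupCohomology (A.quotientToInvariants S) 2
  X₂ := groupCohomology A 2
  X₃ := groupCohomology (res S.subtype A) 2
  f := infl₂ A S
  g := rest₂ A S
  zero := infl₂_comp_rest₂ A S


variable {A S} in
/-- The inflation map `H²(G ⧸ S, A^S) ⟶ H²(G, A)` is injective when `H¹(S, A) = 0`. -/
theorem infl₂_injective (hS : H1ResTrivial A S) : Function.Injective (infl₂ A S).hom := by
  rw [injective_iff_map_eq_zero]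
  intro x hx
  induction x using H2_induction_on with | @h x =>
  erw [H2π_comp_map_apply (QuotientGroup.mk' S)] at hx
  rw [H2π_eq_zero_iff] at hx ⊢
  obtain ⟨c, hc⟩ := hx
  exact mem_coboundaries₂_of_inf_eq_d hS x c (fun g h => (congr_fun hc (g, h)).symm)

variable {A S} in
/-- Exactness at `H²(G, A)` of inflation-restriction when `H¹(S, A) = 0`. -/
theorem ker_rest₂_le_range_infl₂ (hS : H1ResTrivial A S) :
    LinearMap.ker (rest₂ A S).hom ≤ LinearMap.range (infl₂ A S).hom := by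
  intro x hx
  induction x using H2_induction_on with | @h x =>
  rw [LinearMap.mem_ker] at hx
  erw [H2π_comp_map_apply S.subtype] at hx
  rw [H2π_eq_zero_iff] at hx
  obtain ⟨c₀, hc₀⟩ := hx
  obtain ⟨fbar, c, hfc⟩ := exists_inf_add_d hS x.1 x.2 c₀ (fun s t => by
    have := congr_fun hc₀ (s, t)
    rw [d₁₂_hom_apply] at this
    exact this.symm)
  refine ⟨H2π _ fbar, ?_⟩
  erw [H2π_comp_map_apply (QuotientGroup.mk' S)]
  rw [H2π_eq_iff]
  refine ⟨-c, ?_⟩
  funext ⟨g, h⟩
  have := hfc g h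
  rw [cocycles₂.val_eq_coe] at this
  change (d₁₂ A).hom (-c) (g, h) = ((fbar ((g : G ⧸ S), (h : G ⧸ S))).1 : A) - x (g, h)
  rw [map_neg, Pi.neg_apply, this]
  abel

variable {A S} in
/-- The inflation map `H²(G ⧸ S, A^S) ⟶ H²(G, A)` is a monomorphism when `H¹(S, A) = 0`. -/
theorem H2InfRes_f_mono (hS : H1ResTrivial A S) : Mono (H2InfRes A S).f :=
  (ModuleCat.mono_iff_injective _).2 (infl₂_injective hS)

variable {A S} in
/-- The short complex `H²(G ⧸ S, A^S) ⟶ H²(G, A) ⟶ H²(S, A)` is exact when `H¹(S, A) = 0`. -/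
theorem H2InfRes_exact (hS : H1ResTrivial A S) : (H2InfRes A S).Exact := by
  rw [ShortComplex.moduleCat_exact_iff_ker_sub_range]
  exact ker_rest₂_le_range_infl₂ hS


omit [S.Normal] in
/-- `H1ResTrivial A S` is the statement `H¹(S, A) = 0`. -/
theorem h1ResTrivial_iff_subsingleton :
    H1ResTrivial A S ↔ Subsingleton (H1 (res S.subtype A)) := by
  constructor
  · intro h
    refine ⟨fun x y => ?_⟩
    induction x using H1_induction_on with | @h x =>
    induction y using H1_induction_on with | @h y =>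
    rw [H1π_eq_iff]
    obtain ⟨a, ha⟩ := h (fun s => x s - y s) (fun s t => by
      have hx := (mem_cocycles₁_iff (A := res S.subtype A) x).1 x.2 s t
      have hy := (mem_cocycles₁_iff (A := res S.subtype A) y).1 y.2 s t
      change x (s * t) - y (s * t) = A.ρ s (x t - y t) + (x s - y s)
      rw [hx, hy, map_sub]
      change (A.ρ s (x t) + x s) - (A.ρ s (y t) + y s) = _
      abel)
    refine ⟨a, ?_⟩
    funext s
    rw [d₀₁_hom_apply]
    exact (ha s).symm
  · intro h x hx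
    have hx' : x ∈ cocycles₁ (res S.subtype A) := (mem_cocycles₁_iff _).2 hx
    have h0 : H1π (res S.subtype A) ⟨x, hx'⟩ = 0 := Subsingleton.elim _ _
    rw [H1π_eq_zero_iff] at h0
    obtain ⟨a, ha⟩ := h0
    refine ⟨a, fun s => ?_⟩
    have := congr_fun ha s
    rw [d₀₁_hom_apply] at this
    exact this.symm

omit [S.Normal] in
theorem h1ResTrivial_of_isZero (h : Limits.IsZero (groupCohomology (res S.subtype A) 1)) :
    H1ResTrivial A S :=
  (h1ResTrivial_iff_subsingleton A S).2 (ModuleCat.subsingleton_of_isZero h)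

omit [S.Normal] in
theorem isZero_of_h1ResTrivial (h : H1ResTrivial A S) :
    Limits.IsZero (groupCohomology (res S.subtype A) 1) :=
  haveI := (h1ResTrivial_iff_subsingleton A S).1 h
  ModuleCat.isZero_of_subsingleton _

variable {A S} in
/-- Order bound from inflation-restriction: if `H¹(S, A) = 0` and `H²(G ⧸ S, A^S)`, `H²(S, A)`
are finite, then `H²(G, A)` is finite and its order divides the product of their orders. -/
theorem finite_and_card_H2_dvd (hS : H1ResTrivial A S)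
    [Finite (groupCohomology (A.quotientToInvariants S) 2)]
    [Finite (groupCohomology (res S.subtype A) 2)] :
    Finite (groupCohomology A 2) ∧
      Nat.card (groupCohomology A 2) ∣
        Nat.card (groupCohomology (A.quotientToInvariants S) 2) *
          Nat.card (groupCohomology (res S.subtype A) 2) := by
  set f := (infl₂ A S).hom with hf
  set g := (rest₂ A S).hom with hg
  have hinj : Function.Injective f := infl₂_injective hS
  have hker : LinearMap.ker g = LinearMap.range f := by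
    apply le_antisymm (ker_rest₂_le_range_infl₂ hS)
    rintro _ ⟨y, rfl⟩
    rw [LinearMap.mem_ker]
    have := infl₂_comp_rest₂ A S
    exact congr($this y)
  -- `H²(G, A) / ker g ≃ range g`
  have e1 : (groupCohomology A 2 ⧸ LinearMap.ker g) ≃ₗ[k] LinearMap.range g :=
    g.quotKerEquivRange
  have e2 : groupCohomology (A.quotientToInvariants S) 2 ≃ₗ[k] LinearMap.ker g :=
    (LinearEquiv.ofInjective f hinj).trans (LinearEquiv.ofEq _ _ hker.symm)
  have : Finite (LinearMap.ker g) := Finite.of_equiv _ e2.toEquiv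
  have : Finite (groupCohomology A 2 ⧸ LinearMap.ker g) := Finite.of_equiv _ e1.symm.toEquiv
  have hcard := Submodule.card_eq_card_quotient_mul_card (LinearMap.ker g)
  have hfin : Finite (groupCohomology A 2) := by
    apply Nat.finite_of_card_ne_zero
    rw [hcard]
    exact Nat.mul_ne_zero Nat.card_pos.ne' Nat.card_pos.ne'
  refine ⟨hfin, ?_⟩
  rw [hcard, ← Nat.card_congr e2.toEquiv, Nat.card_congr e1.toEquiv]
  exact Nat.mul_dvd_mul_left _ (AddSubgroup.card_addSubgroup_dvd_card (LinearMap.range g).toAddSubgroup)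


end Raw

end Fermat.Agent.S55.Tate.InfRes2
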