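/-
S55 / TATE block (owner helper35): interface file.

Language (B): Mathlib `groupCohomology` of `Rep ℤ G`, `G : Type` a finite group.

EXPORTS for the other S55 blocks (Local, Global):

* `NakayamaH3` : Nakayama's criterion in the one degree needed: if `H¹(H, A) = H²(H, A) = 0`
  for all subgroups `H ≤ G`, then `H³(G, A) = 0`.
* `TateH3` : Tate's theorem in the one degree needed: if `H¹(H, C) = 0` for all `H ≤ G`, and
  `u ∈ H²(G, C)` is a fundamental class (`H²(H, C)` has order `|H|` and is generated by `res u`
  for every `H ≤ G`), then `H³(G, C) = 0`.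

Everything else in this file is an INTERNAL row of the Tate block (closed `Prop`s, proved in
sibling files; `Tate/Reduction.lean` assembles them sorry-free).
-/
import Mathlib

set_option autoImplicit false

namespace Fermat.Agent.S55.Tate.Blocks

open CategoryTheory CategoryTheory.Limits groupCohomology Rep

/-- Restriction of a `G`-module to a subgroup. -/
noncomputable abbrev resSub {G : Type} [Group G] (H : Subgroup G) (A : Rep ℤ G) : Rep ℤ H :=
  Rep.res H.subtype A

/-- The restriction map `Hⁿ(G, A) ⟶ Hⁿ(H, A)`. -/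
noncomputable abbrev resMap {G : Type} [Group G] (H : Subgroup G) (A : Rep ℤ G) (n : ℕ) :
    groupCohomology A n ⟶ groupCohomology (resSub H A) n :=
  groupCohomology.map H.subtype (𝟙 (resSub H A)) n

/-- The inflation map `Hⁿ(G ⧸ H, A^H) ⟶ Hⁿ(G, A)` over a general coefficient ring (this is the
component of Mathlib's `groupCohomology.infNatTrans`; same shape as `H1InfRes`). -/
noncomputable abbrev infMapGen {k G : Type} [CommRing k] [Group G] (H : Subgroup G) [H.Normal]
    (A : Rep k G) (n : ℕ) :
    groupCohomology (A.quotientToInvariants H) n ⟶ groupCohomology A n :=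
  groupCohomology.map (QuotientGroup.mk' H) (Rep.ofHom <| A.ρ.quotientToInvariants_lift H) n

/-- The inflation map `Hⁿ(G ⧸ H, A^H) ⟶ Hⁿ(G, A)`. -/
noncomputable abbrev infMap {G : Type} [Group G] (H : Subgroup G) [H.Normal] (A : Rep ℤ G)
    (n : ℕ) : groupCohomology (A.quotientToInvariants H) n ⟶ groupCohomology A n :=
  infMapGen H A n

/-- `Hⁱ(H, A) = 0` for `i = 1, 2` and every subgroup `H ≤ G`. -/
def VanishH1H2 {G : Type} [Group G] (A : Rep ℤ G) : Prop :=
  ∀ H : Subgroup G, IsZero (groupCohomology (resSub H A) 1) ∧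
    IsZero (groupCohomology (resSub H A) 2)

/-! ## Exported block Props -/

/-- **Nakayama's criterion, degree 3.** -/
def NakayamaH3 : Prop :=
  ∀ (G : Type) [Group G] [Finite G] (A : Rep ℤ G), VanishH1H2 A →
    IsZero (groupCohomology A 3)

/-- **Tate's theorem, degree 3**: `H³(G, C) = 0` for a module with a fundamental class. -/
def TateH3 : Prop :=
  ∀ (G : Type) [Group G] [Finite G] (C : Rep ℤ G) (u : groupCohomology C 2),
    (∀ H : Subgroup G, IsZero (groupCohomology (resSub H C) 1)) →
    (∀ H : Subgroup G, Nat.card (groupCohomology (resSub H C) 2) = Nat.card H) →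
    (∀ H : Subgroup G, ∀ x : groupCohomology (resSub H C) 2, ∃ n : ℤ, x = n • resMap H C 2 u) →
    IsZero (groupCohomology C 3)

/-! ## Internal rows -/

/-- (T.transport) cohomology of `res f A` for an injective `f : H' →* G` vanishes as soon as it
vanishes for the subgroup `f.range`. -/
def Transport : Prop :=
  ∀ (G H' : Type) [Group G] [Group H'] (f : H' →* G), Function.Injective f →
    ∀ (A : Rep ℤ G) (n : ℕ), IsZero (groupCohomology (resSub f.range A) n) →
      IsZero (groupCohomology (Rep.res f A) n)

/-- (T.infRes2) inflation–restriction in degree 2, exactness in the middle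
(helper6 `Tate/InfRes2.lean`, helper60 `Coh/InfRes2.lean`). -/
def InfRes2 : Prop :=
  ∀ (G : Type) [Group G] (H : Subgroup G) [H.Normal] (A : Rep ℤ G),
    IsZero (groupCohomology (resSub H A) 1) →
    ∀ x : groupCohomology A 2, resMap H A 2 x = 0 → ∃ y, infMap H A 2 y = x

/-- (T.infRes3) inflation–restriction in degree 3, exactness in the middle. -/
def InfRes3 : Prop :=
  ∀ (G : Type) [Group G] (H : Subgroup G) [H.Normal] (A : Rep ℤ G),
    IsZero (groupCohomology (resSub H A) 1) → IsZero (groupCohomology (resSub H A) 2) →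
    ∀ x : groupCohomology A 3, resMap H A 3 x = 0 → ∃ y, infMap H A 3 y = x

/-- (T.coind) modules coinduced from the trivial subgroup are acyclic for EVERY subgroup `H ≤ G`
(Mackey: `Res_H Coind_1^G B ≅ Coind_1^H B'`, then Shapiro `groupCohomology.coindIso`). -/
def CoindAcyclic : Prop :=
  ∀ (G : Type) [Group G] (A : Rep ℤ G) (H : Subgroup G) (n : ℕ), 0 < n →
    IsZero (groupCohomology
      (resSub H (Rep.coind (⊥ : Subgroup G).subtype (resSub (⊥ : Subgroup G) A))) n)

/-- (T.shift) the dimension-shifting module: every `A : Rep ℤ G` embeds into `A*` which is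
acyclic for `G` and for every subgroup of `G` (take `A* = Coind_1^G A`). -/
def AcyclicEmbedding : Prop :=
  ∀ (G : Type) [Group G] (A : Rep ℤ G), ∃ (M Q : Rep ℤ G) (f : A ⟶ M) (g : M ⟶ Q)
    (w : f ≫ g = 0), (ShortComplex.mk f g w).ShortExact ∧
      (∀ n : ℕ, 0 < n → IsZero (groupCohomology M n)) ∧
      ∀ (H : Subgroup G) (n : ℕ), 0 < n → IsZero (groupCohomology (resSub H M) n)

/-- (T.cyc) periodicity for finite cyclic groups, in the one shape needed. -/
def CyclicH1H3 : Prop :=
  ∀ (G : Type) [Group G] [Finite G] [IsCyclic G] (A : Rep ℤ G),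
    IsZero (groupCohomology A 1) → IsZero (groupCohomology A 3)

/-- (T.pgroup) Nakayama's criterion in degree 3 for `p`-groups. -/
def NakayamaPGroupH3 : Prop :=
  ∀ (p : ℕ) [Fact p.Prime] (G : Type) [Group G] [Finite G], IsPGroup p G →
    ∀ A : Rep ℤ G, VanishH1H2 A → IsZero (groupCohomology A 3)

/-- (T.sylow) a class in `Hⁿ(G, A)`, `n > 0`, dies if it dies on all Sylow subgroups; vanishing
form. -/
def SylowReduction : Prop :=
  ∀ (G : Type) [Group G] [Finite G] (A : Rep ℤ G) (n : ℕ), 0 < n →
    (∀ (p : ℕ) [Fact p.Prime] (P : Sylow p G),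
      IsZero (groupCohomology (resSub (P : Subgroup G) A) n)) →
    IsZero (groupCohomology A n)

/-- (T.split) the splitting module of a class `u ∈ H²(G, C)` together with the cohomology of the
augmentation ideal: a short exact sequence `0 → C → C(u) → I_G → 0` such that for every
`H ≤ G`: `H²(H, I_G) = 0`, `H¹(H, I_G)` is cyclic, generated by `γ` with `|H| γ = 0`, and
the connecting map sends `γ` to `res u`; also `H²(G, I_G) = 0` for `G` itself. -/
def SplittingModule : Prop :=
  ∀ (G : Type) [Group G] [Finite G] (C : Rep ℤ G) (u : groupCohomology C 2),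
    ∃ (M Q : Rep ℤ G) (f : C ⟶ M) (g : M ⟶ Q) (w : f ≫ g = 0)
      (hS : (ShortComplex.mk f g w).ShortExact),
      IsZero (groupCohomology Q 2) ∧
      ∀ H : Subgroup G,
        IsZero (groupCohomology (resSub H Q) 2) ∧
        ∃ γ : groupCohomology (resSub H Q) 1,
          (∀ x : groupCohomology (resSub H Q) 1, ∃ n : ℤ, x = n • γ) ∧
          (Nat.card H : ℤ) • γ = 0 ∧
          groupCohomology.δ (X := (ShortComplex.mk f g w).map (Rep.resFunctor H.subtype))
            ((Rep.shortExact_res H.subtype).2 hS) 1 2 rfl γ = resMap H C 2 u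

end Fermat.Agent.S55.Tate.Blocks
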