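/-
S55 / Tate toolbox — restriction–corestriction in degrees 1 and 2 (owner: helper39).

For a subgroup `S ≤ G` of finite index `m` and a `G`-module `A`:
if the restriction to `S` of a 1- or 2-cocycle of `G` is a coboundary, then `m • f` is a
coboundary of `G`.  Proof: homogeneous `S`-equivariant cochains on `G`, prism homotopy for an
`S`-equivariant retraction `G → S`, then the norm `N_{G/S}`.  No Shapiro, no dimension shifting,
`G` need not be finite.
-/
import Mathlib

set_option autoImplicit false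
set_option linter.unusedSectionVars false

namespace Fermat.Agent.S55.Tate.ResCor

open groupCohomology

section Core

variable {G A : Type*} [Group G] [AddCommGroup A] [DistribMulAction G A]

/-! ### An `S`-equivariant retraction `G → S` -/

/-- A representative of the right coset `S g`. -/
noncomputable def rep (S : Subgroup G) (g : G) : G :=
  (Quotient.mk (QuotientGroup.rightRel S) g).out

lemma rep_mul (S : Subgroup G) {s : G} (hs : s ∈ S) (g : G) : rep S (s * g) = rep S g := by
  unfold rep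
  congr 1
  apply Quotient.sound
  show (QuotientGroup.rightRel S) (s * g) g
  rw [QuotientGroup.rightRel_apply]
  simpa [mul_inv_rev] using S.inv_mem hs

lemma mul_rep_inv_mem (S : Subgroup G) (g : G) : g * (rep S g)⁻¹ ∈ S := by
  have h := Quotient.exact (Quotient.out_eq (Quotient.mk (QuotientGroup.rightRel S) g))
  exact QuotientGroup.rightRel_apply.mp h

/-- The retraction `G → S` (valued in `G`), `ret (s * g) = s * ret g` for `s ∈ S`. -/
noncomputable def ret (S : Subgroup G) (g : G) : G := g * (rep S g)⁻¹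

lemma ret_mem (S : Subgroup G) (g : G) : ret S g ∈ S := mul_rep_inv_mem S g

lemma ret_mul (S : Subgroup G) {s : G} (hs : s ∈ S) (g : G) : ret S (s * g) = s * ret S g := by
  unfold ret
  rw [rep_mul S hs g, mul_assoc]

/-! ### Homogeneous forms -/

/-- Homogeneous form of an inhomogeneous 1-cochain. -/
def hom1 (y : G → A) (x z : G) : A := x • y (x⁻¹ * z)

/-- Homogeneous form of an inhomogeneous 2-cochain. -/
def hom2 (f : G × G → A) (x y z : G) : A := x • f (x⁻¹ * y, y⁻¹ * z)

lemma hom1_smul (y : G → A) (g x z : G) : hom1 y (g * x) (g * z) = g • hom1 y x z := by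
  simp only [hom1, mul_inv_rev, mul_assoc, inv_mul_cancel_left, mul_smul]

lemma hom2_smul (f : G × G → A) (g x y z : G) :
    hom2 f (g * x) (g * y) (g * z) = g • hom2 f x y z := by
  simp only [hom2, mul_inv_rev, mul_assoc, inv_mul_cancel_left, mul_smul]

lemma hom1_cocycle {f : G → A} (hf : IsCocycle₁ f) (x y z : G) :
    hom1 f y z - hom1 f x z + hom1 f x y = 0 := by
  have h := hf (x⁻¹ * y) (y⁻¹ * z)
  have e1 : x⁻¹ * y * (y⁻¹ * z) = x⁻¹ * z := by group
  rw [e1] at h
  have h' := congrArg (fun a => x • a) h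
  simp only [smul_add, smul_smul] at h'
  have e3 : x * (x⁻¹ * y) = y := by group
  rw [e3] at h'
  unfold hom1
  rw [h']
  abel

lemma hom2_cocycle {f : G × G → A} (hf : IsCocycle₂ f) (x y z w : G) :
    hom2 f y z w - hom2 f x z w + hom2 f x y w - hom2 f x y z = 0 := by
  have h := hf (x⁻¹ * y) (y⁻¹ * z) (z⁻¹ * w)
  have e1 : x⁻¹ * y * (y⁻¹ * z) = x⁻¹ * z := by group
  have e2 : y⁻¹ * z * (z⁻¹ * w) = y⁻¹ * w := by group
  rw [e1, e2] at h
  have h' := congrArg (fun a => x • a) h
  simp only [smul_add, smul_smul] at h'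
  have e3 : x * (x⁻¹ * y) = y := by group
  rw [e3] at h'
  unfold hom2
  have : y • f (y⁻¹ * z, z⁻¹ * w) - x • f (x⁻¹ * z, z⁻¹ * w) + x • f (x⁻¹ * y, y⁻¹ * w)
      - x • f (x⁻¹ * y, y⁻¹ * z)
      = (y • f (y⁻¹ * z, z⁻¹ * w) + x • f (x⁻¹ * y, y⁻¹ * w))
        - (x • f (x⁻¹ * z, z⁻¹ * w) + x • f (x⁻¹ * y, y⁻¹ * z)) := by abel
  rw [this, h', sub_self]

/-- A 0-cochain `a` with `d a = f` on `S`, in homogeneous form. -/
lemma hom0_d {f : G → A} {a : A} (S : Subgroup G) (ha : ∀ s ∈ S, s • a - a = f s)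
    (x y : G) (hx : x ∈ S) (hy : y ∈ S) : y • a - x • a = hom1 f x y := by
  have h := ha (x⁻¹ * y) (S.mul_mem (S.inv_mem hx) hy)
  have h' := congrArg (fun b => x • b) h
  simp only [smul_sub, smul_smul] at h'
  have e3 : x * (x⁻¹ * y) = y := by group
  rw [e3] at h'
  exact h'

/-- A 1-cochain `y` with `d y = f` on `S × S`, in homogeneous form. -/
lemma hom1_d {f : G × G → A} {y : G → A} (S : Subgroup G)
    (hy : ∀ s ∈ S, ∀ t ∈ S, s • y t - y (s * t) + y s = f (s, t))
    (a b c : G) (ha : a ∈ S) (hb : b ∈ S) (hc : c ∈ S) :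
    hom1 y b c - hom1 y a c + hom1 y a b = hom2 f a b c := by
  have h := hy (a⁻¹ * b) (S.mul_mem (S.inv_mem ha) hb) (b⁻¹ * c) (S.mul_mem (S.inv_mem hb) hc)
  have e1 : a⁻¹ * b * (b⁻¹ * c) = a⁻¹ * c := by group
  rw [e1] at h
  have h' := congrArg (fun z => a • z) h
  simp only [smul_add, smul_sub, smul_smul] at h'
  have e3 : a * (a⁻¹ * b) = b := by group
  rw [e3] at h'
  exact h'


/-! ### The `S`-equivariant primitives -/

/-- Degree 1: an `S`-equivariant 0-cochain on `G` with `d Phi0 = hom1 f`. -/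
noncomputable def Phi0 (S : Subgroup G) (f : G → A) (a : A) (x : G) : A :=
  hom1 f (ret S x) x + ret S x • a

lemma Phi0_smul (S : Subgroup G) (f : G → A) (a : A) {s : G} (hs : s ∈ S) (x : G) :
    Phi0 S f a (s * x) = s • Phi0 S f a x := by
  unfold Phi0
  rw [ret_mul S hs, hom1_smul, smul_add, mul_smul]

lemma Phi0_d (S : Subgroup G) {f : G → A} {a : A} (hf : IsCocycle₁ f)
    (ha : ∀ s ∈ S, s • a - a = f s) (x y : G) :
    Phi0 S f a y - Phi0 S f a x = hom1 f x y := by
  have h1 := hom1_cocycle hf (ret S x) x y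
  have h2 := hom1_cocycle hf (ret S x) (ret S y) y
  have h3 := hom0_d S ha (ret S x) (ret S y) (ret_mem S x) (ret_mem S y)
  unfold Phi0
  have : hom1 f (ret S y) y + ret S y • a - (hom1 f (ret S x) x + ret S x • a) - hom1 f x y
      = (hom1 f (ret S y) y - hom1 f (ret S x) y + hom1 f (ret S x) (ret S y))
        - (hom1 f x y - hom1 f (ret S x) y + hom1 f (ret S x) x)
        + ((ret S y • a - ret S x • a) - hom1 f (ret S x) (ret S y)) := by abel
  rw [← sub_eq_zero, this, h1, h2, h3]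
  simp

/-- Degree 2: an `S`-equivariant 1-cochain on `G` with `d Phi1 = hom2 f`. -/
noncomputable def Phi1 (S : Subgroup G) (f : G × G → A) (y : G → A) (x0 x1 : G) : A :=
  hom2 f (ret S x0) x0 x1 - hom2 f (ret S x0) (ret S x1) x1 + hom1 y (ret S x0) (ret S x1)

lemma Phi1_smul (S : Subgroup G) (f : G × G → A) (y : G → A) {s : G} (hs : s ∈ S) (x0 x1 : G) :
    Phi1 S f y (s * x0) (s * x1) = s • Phi1 S f y x0 x1 := by
  unfold Phi1
  rw [ret_mul S hs, ret_mul S hs, hom2_smul, hom2_smul, hom1_smul, smul_add, smul_sub]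

lemma Phi1_d (S : Subgroup G) {f : G × G → A} {y : G → A} (hf : IsCocycle₂ f)
    (hy : ∀ s ∈ S, ∀ t ∈ S, s • y t - y (s * t) + y s = f (s, t)) (x0 x1 x2 : G) :
    Phi1 S f y x1 x2 - Phi1 S f y x0 x2 + Phi1 S f y x0 x1 = hom2 f x0 x1 x2 := by
  have ha := hom2_cocycle hf (ret S x0) x0 x1 x2
  have hb := hom2_cocycle hf (ret S x0) (ret S x1) x1 x2
  have hc := hom2_cocycle hf (ret S x0) (ret S x1) (ret S x2) x2
  have hd := hom1_d S hy (ret S x0) (ret S x1) (ret S x2) (ret_mem S x0) (ret_mem S x1)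
    (ret_mem S x2)
  unfold Phi1
  have : (hom2 f (ret S x1) x1 x2 - hom2 f (ret S x1) (ret S x2) x2 + hom1 y (ret S x1) (ret S x2))
      - (hom2 f (ret S x0) x0 x2 - hom2 f (ret S x0) (ret S x2) x2 + hom1 y (ret S x0) (ret S x2))
      + (hom2 f (ret S x0) x0 x1 - hom2 f (ret S x0) (ret S x1) x1 + hom1 y (ret S x0) (ret S x1))
      - hom2 f x0 x1 x2
      = (hom2 f (ret S x1) x1 x2 - hom2 f (ret S x0) x1 x2 + hom2 f (ret S x0) (ret S x1) x2
          - hom2 f (ret S x0) (ret S x1) x1)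
        - (hom2 f (ret S x1) (ret S x2) x2 - hom2 f (ret S x0) (ret S x2) x2
          + hom2 f (ret S x0) (ret S x1) x2 - hom2 f (ret S x0) (ret S x1) (ret S x2))
        - (hom2 f x0 x1 x2 - hom2 f (ret S x0) x1 x2 + hom2 f (ret S x0) x0 x2
          - hom2 f (ret S x0) x0 x1)
        + ((hom1 y (ret S x1) (ret S x2) - hom1 y (ret S x0) (ret S x2)
          + hom1 y (ret S x0) (ret S x1)) - hom2 f (ret S x0) (ret S x1) (ret S x2)) := by abel
  rw [← sub_eq_zero, this, ha, hb, hc, hd]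
  simp

/-! ### Sums over `G ⧸ S` -/

section Norm

variable (S : Subgroup G) [S.FiniteIndex]

/-- Sum over coset representatives of `G ⧸ S`. -/
noncomputable def cosetSum (θ : G → A) : A :=
  letI := S.fintypeQuotientOfFiniteIndex
  ∑ q : G ⧸ S, θ q.out

lemma out_smul_eq (g : G) (q : G ⧸ S) : ∃ s ∈ S, (g • q).out = g * q.out * s := by
  refine ⟨(g * q.out)⁻¹ * (g • q).out, ?_, by group⟩
  rw [← QuotientGroup.eq]
  rw [QuotientGroup.out_eq']
  conv_rhs => rw [← QuotientGroup.out_eq' q]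
  rfl

lemma cosetSum_mul_left {θ : G → A} (hθ : ∀ c s, s ∈ S → θ (c * s) = θ c) (g : G) :
    cosetSum S (fun c => θ (g * c)) = cosetSum S θ := by
  unfold cosetSum
  let _ := S.fintypeQuotientOfFiniteIndex
  have h1 : ∀ q : G ⧸ S, θ (g * q.out) = θ ((g • q).out) := by
    intro q
    obtain ⟨s, hs, hsq⟩ := out_smul_eq S g q
    rw [hsq, hθ _ _ hs]
  calc ∑ q : G ⧸ S, θ (g * q.out) = ∑ q : G ⧸ S, θ ((g • q).out) :=
        Finset.sum_congr rfl fun q _ => h1 q
    _ = ∑ q : G ⧸ S, θ q.out :=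
        Equiv.sum_comp (MulAction.toPerm g : Equiv.Perm (G ⧸ S)) (fun q => θ q.out)

lemma cosetSum_const (a : A) : cosetSum S (fun _ => a) = S.index • a := by
  unfold cosetSum
  let _ := S.fintypeQuotientOfFiniteIndex
  rw [Finset.sum_const, Finset.card_univ, Subgroup.index_eq_card, Nat.card_eq_fintype_card]

lemma cosetSum_add (θ₁ θ₂ : G → A) :
    cosetSum S (fun c => θ₁ c + θ₂ c) = cosetSum S θ₁ + cosetSum S θ₂ := by
  unfold cosetSum
  exact Finset.sum_add_distrib

lemma cosetSum_sub (θ₁ θ₂ : G → A) :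
    cosetSum S (fun c => θ₁ c - θ₂ c) = cosetSum S θ₁ - cosetSum S θ₂ := by
  unfold cosetSum
  exact Finset.sum_sub_distrib _ _

lemma cosetSum_smul (g : G) (θ : G → A) :
    cosetSum S (fun c => g • θ c) = g • cosetSum S θ := by
  unfold cosetSum
  exact (Finset.smul_sum).symm

end Norm


/-! ### Main theorems (cocycle level, plain actions) -/

section Main

variable (S : Subgroup G) [S.FiniteIndex]

/-- **Restriction–corestriction, degree 1.**  If the restriction to `S` of a 1-cocycle `f` of `G`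
is a coboundary, then `S.index • f` is a coboundary of `G`. -/
theorem isCoboundary₁_index_smul {f : G → A} (hf : IsCocycle₁ f)
    (hS : ∃ a : A, ∀ s ∈ S, s • a - a = f s) :
    IsCoboundary₁ (S.index • f) := by
  obtain ⟨a, ha⟩ := hS
  -- the norm of `Phi0`
  set N : G → A := fun x => cosetSum S (fun c => c • Phi0 S f a (c⁻¹ * x)) with hN
  have hinv : ∀ x c s, s ∈ S →
      (c * s) • Phi0 S f a ((c * s)⁻¹ * x) = c • Phi0 S f a (c⁻¹ * x) := by
    intro x c s hs
    rw [mul_inv_rev, mul_assoc, Phi0_smul S f a (S.inv_mem hs), mul_smul, smul_smul s,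
      mul_inv_cancel, one_smul]
  have hNsmul : ∀ g x, N (g * x) = g • N x := by
    intro g x
    simp only [hN]
    rw [← cosetSum_smul, ← cosetSum_mul_left S (hinv (g * x)) g]
    congr 1
    funext c
    rw [mul_inv_rev, mul_smul]
    congr 2
    group
  have hNd : ∀ x y, N y - N x = S.index • hom1 f x y := by
    intro x y
    simp only [hN]
    rw [← cosetSum_sub, ← cosetSum_const S (hom1 f x y)]
    congr 1
    funext c
    rw [← smul_sub, Phi0_d S hf ha, ← hom1_smul, mul_inv_cancel_left, mul_inv_cancel_left]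
  refine ⟨N 1, fun g => ?_⟩
  have h1 := hNd 1 g
  have h2 := hNsmul g 1
  rw [mul_one] at h2
  rw [← h2, h1]
  simp [hom1]

/-- **Restriction–corestriction, degree 2.**  If the restriction to `S × S` of a 2-cocycle `f` of
`G` is a coboundary, then `S.index • f` is a coboundary of `G`. -/
theorem isCoboundary₂_index_smul {f : G × G → A} (hf : IsCocycle₂ f)
    (hS : ∃ y : G → A, ∀ s ∈ S, ∀ t ∈ S, s • y t - y (s * t) + y s = f (s, t)) :
    IsCoboundary₂ (S.index • f) := by
  obtain ⟨y, hy⟩ := hS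
  set N : G → G → A :=
    fun x0 x1 => cosetSum S (fun c => c • Phi1 S f y (c⁻¹ * x0) (c⁻¹ * x1)) with hN
  have hinv : ∀ x0 x1 c s, s ∈ S →
      (c * s) • Phi1 S f y ((c * s)⁻¹ * x0) ((c * s)⁻¹ * x1)
        = c • Phi1 S f y (c⁻¹ * x0) (c⁻¹ * x1) := by
    intro x0 x1 c s hs
    rw [mul_inv_rev, mul_assoc, mul_assoc, Phi1_smul S f y (S.inv_mem hs), mul_smul,
      smul_smul s, mul_inv_cancel, one_smul]
  have hNsmul : ∀ g x0 x1, N (g * x0) (g * x1) = g • N x0 x1 := by
    intro g x0 x1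
    simp only [hN]
    rw [← cosetSum_smul, ← cosetSum_mul_left S (hinv (g * x0) (g * x1)) g]
    congr 1
    funext c
    rw [mul_inv_rev, mul_smul]
    congr 2
    group
  have hNd : ∀ x0 x1 x2, N x1 x2 - N x0 x2 + N x0 x1 = S.index • hom2 f x0 x1 x2 := by
    intro x0 x1 x2
    simp only [hN]
    rw [← cosetSum_sub, ← cosetSum_add, ← cosetSum_const S (hom2 f x0 x1 x2)]
    congr 1
    funext c
    rw [← smul_sub, ← smul_add, Phi1_d S hf hy, ← hom2_smul, mul_inv_cancel_left,
      mul_inv_cancel_left, mul_inv_cancel_left]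
  refine ⟨fun g => N 1 g, fun g h => ?_⟩
  have h1 := hNd 1 g (g * h)
  have h2 := hNsmul g 1 h
  rw [mul_one] at h2
  show g • N 1 h - N 1 (g * h) + N 1 g = (S.index • f) (g, h)
  rw [← h2, h1]
  simp [hom2]

end Main

end Core

end Fermat.Agent.S55.Tate.ResCor

namespace Fermat.Agent.S55.Tate.ResCor

open groupCohomology CategoryTheory

section RepLevel

universe u

variable {k G : Type u} [CommRing k] [Group G] (A : Rep k G) (S : Subgroup G) [S.FiniteIndex]

/-- The `DistribMulAction` underlying a representation. -/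
@[reducible] def dmaOfRep : DistribMulAction G A.V where
  smul g v := A.ρ g v
  one_smul v := by show A.ρ 1 v = v; simp
  mul_smul g h v := by show A.ρ (g * h) v = A.ρ g (A.ρ h v); simp
  smul_zero g := map_zero (A.ρ g)
  smul_add g v w := map_add (A.ρ g) v w

/-- Degree 1, cocycle level, `Rep` language. -/
theorem index_smul_mem_coboundaries₁ {f : G → A.V} (hf : f ∈ cocycles₁ A)
    (hS : (fun s : S => f (s : G)) ∈ coboundaries₁ (Rep.res S.subtype A)) :
    S.index • f ∈ coboundaries₁ A := by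
  let _ := dmaOfRep A
  have hcoc : IsCocycle₁ f := (mem_cocycles₁_iff f).1 hf
  obtain ⟨a, ha⟩ := hS
  have h := isCoboundary₁_index_smul S hcoc ⟨a, fun s hs => ?_⟩
  · obtain ⟨x, hx⟩ := h
    exact ⟨x, funext fun g => hx g⟩
  · exact congrFun ha ⟨s, hs⟩

/-- Degree 2, cocycle level, `Rep` language. -/
theorem index_smul_mem_coboundaries₂ {f : G × G → A.V} (hf : f ∈ cocycles₂ A)
    (hS : (fun p : S × S => f ((p.1 : G), (p.2 : G))) ∈ coboundaries₂ (Rep.res S.subtype A)) :
    S.index • f ∈ coboundaries₂ A := by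
  let _ := dmaOfRep A
  have hcoc : IsCocycle₂ f := (mem_cocycles₂_iff f).1 hf
  obtain ⟨y, hy⟩ := hS
  classical
  let y' : G → A.V := fun g => if h : g ∈ S then y ⟨g, h⟩ else 0
  have h := isCoboundary₂_index_smul S hcoc ⟨y', fun s hs t ht => ?_⟩
  · obtain ⟨x, hx⟩ := h
    exact ⟨x, funext fun p => hx p.1 p.2⟩
  · have := congrFun hy (⟨s, hs⟩, ⟨t, ht⟩)
    simp only [y', hs, ht, S.mul_mem hs ht, dif_pos]
    exact this


/-- **Restriction–corestriction on `H¹`.** -/
theorem index_smul_eq_zero_of_res_eq_zero₁ (x : H1 A)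
    (hx : map S.subtype (𝟙 (Rep.res S.subtype A)) 1 x = 0) : S.index • x = 0 := by
  induction x using H1_induction_on with
  | h f =>
    rw [← map_nsmul, H1π_eq_zero_iff]
    refine index_smul_mem_coboundaries₁ A S f.2 ?_
    have h := H1π_comp_map_apply S.subtype (𝟙 (Rep.res S.subtype A)) f
    rw [h, H1π_eq_zero_iff] at hx
    exact hx

/-- **Restriction–corestriction on `H²`.** -/
theorem index_smul_eq_zero_of_res_eq_zero₂ (x : H2 A)
    (hx : map S.subtype (𝟙 (Rep.res S.subtype A)) 2 x = 0) : S.index • x = 0 := by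
  induction x using H2_induction_on with
  | h f =>
    rw [← map_nsmul, H2π_eq_zero_iff]
    refine index_smul_mem_coboundaries₂ A S f.2 ?_
    have h := H2π_comp_map_apply S.subtype (𝟙 (Rep.res S.subtype A)) f
    rw [h, H2π_eq_zero_iff] at hx
    exact hx


/-! ### Corollaries for finite groups -/

omit [S.FiniteIndex] in
/-- Coprime annihilators force zero. -/
lemma eq_zero_of_coprime_nsmul {M : Type*} [AddCommGroup M] {m n : ℕ} (hmn : Nat.Coprime m n)
    (x : M) (hm : m • x = 0) (hn : n • x = 0) : x = 0 := by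
  have h1 := addOrderOf_dvd_of_nsmul_eq_zero hm
  have h2 := addOrderOf_dvd_of_nsmul_eq_zero hn
  have h3 : addOrderOf x ∣ 1 := by
    have := Nat.dvd_gcd h1 h2
    rwa [hmn.gcd_eq_one] at this
  exact AddMonoid.addOrderOf_eq_one_iff.mp (Nat.dvd_one.mp h3)

omit [S.FiniteIndex] in
/-- `H¹(G, A)` is killed by `|G|`. -/
theorem card_smul_eq_zero₁ [Finite G] (x : H1 A) : Nat.card G • x = 0 := by
  induction x using H1_induction_on with
  | h f =>
    rw [← map_nsmul, H1π_eq_zero_iff]
    let _ := dmaOfRep A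
    have hcoc : IsCocycle₁ (f : G → A.V) := (mem_cocycles₁_iff f).1 f.2
    have h := isCoboundary₁_index_smul (⊥ : Subgroup G) hcoc ⟨0, fun s hs => ?_⟩
    · rw [Subgroup.index_bot] at h
      obtain ⟨x, hx⟩ := h
      exact ⟨x, funext fun g => hx g⟩
    · rw [Subgroup.mem_bot] at hs
      subst hs
      rw [map_one_of_isCocycle₁ hcoc]
      simp

omit [S.FiniteIndex] in
/-- `H²(G, A)` is killed by `|G|`. -/
theorem card_smul_eq_zero₂ [Finite G] (x : H2 A) : Nat.card G • x = 0 := by
  induction x using H2_induction_on with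
  | h f =>
    rw [← map_nsmul, H2π_eq_zero_iff]
    let _ := dmaOfRep A
    have hcoc : IsCocycle₂ (f : G × G → A.V) := (mem_cocycles₂_iff f).1 f.2
    have h := isCoboundary₂_index_smul (⊥ : Subgroup G) hcoc
      ⟨fun _ => f (1, 1), fun s hs t ht => ?_⟩
    · rw [Subgroup.index_bot] at h
      obtain ⟨x, hx⟩ := h
      exact ⟨x, funext fun p => hx p.1 p.2⟩
    · rw [Subgroup.mem_bot] at hs ht
      subst hs ht
      simp

/-- If `p ^ a • x = 0`, the index of `S` is prime to `p` and `res_S x = 0`, then `x = 0`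
(degree 1). -/
theorem eq_zero_of_res_eq_zero_of_coprime₁ {p a : ℕ} (hp : Nat.Coprime S.index p) (x : H1 A)
    (hpx : p ^ a • x = 0)
    (hx : map S.subtype (𝟙 (Rep.res S.subtype A)) 1 x = 0) : x = 0 :=
  eq_zero_of_coprime_nsmul (Nat.Coprime.pow_right a hp) x
    (index_smul_eq_zero_of_res_eq_zero₁ A S x hx) hpx

/-- If `p ^ a • x = 0`, the index of `S` is prime to `p` and `res_S x = 0`, then `x = 0`
(degree 2). -/
theorem eq_zero_of_res_eq_zero_of_coprime₂ {p a : ℕ} (hp : Nat.Coprime S.index p) (x : H2 A)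
    (hpx : p ^ a • x = 0)
    (hx : map S.subtype (𝟙 (Rep.res S.subtype A)) 2 x = 0) : x = 0 :=
  eq_zero_of_coprime_nsmul (Nat.Coprime.pow_right a hp) x
    (index_smul_eq_zero_of_res_eq_zero₂ A S x hx) hpx

omit [S.FiniteIndex] in
/-- An element which, for every prime `p`, is killed by an integer prime to `p`, is zero. -/
lemma eq_zero_of_forall_prime {M : Type*} [AddCommGroup M] (x : M)
    (h : ∀ p : ℕ, p.Prime → ∃ m : ℕ, ¬ p ∣ m ∧ m • x = 0) : x = 0 := by
  by_contra hx
  have hne : addOrderOf x ≠ 1 := fun h1 => hx (AddMonoid.addOrderOf_eq_one_iff.mp h1)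
  obtain ⟨p, hp, hpd⟩ := Nat.exists_prime_and_dvd hne
  obtain ⟨m, hm, hmx⟩ := h p hp
  exact hm (hpd.trans (addOrderOf_dvd_of_nsmul_eq_zero hmx))

omit [S.FiniteIndex] in
/-- **Sylow reduction, degree 1**: a class of `H¹(G, A)` whose restriction to some subgroup of
index prime to `p` (e.g. a Sylow `p`-subgroup of a finite `G`) vanishes for every prime `p` is
zero. -/
theorem eq_zero_of_res_sylow_eq_zero₁ (x : H1 A)
    (h : ∀ p : ℕ, p.Prime → ∃ P : Subgroup G, ¬ p ∣ P.index ∧
      map P.subtype (𝟙 (Rep.res P.subtype A)) 1 x = 0) : x = 0 := by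
  refine eq_zero_of_forall_prime x fun p hp => ?_
  obtain ⟨P, hP, hx⟩ := h p hp
  have : P.FiniteIndex := ⟨fun h0 => hP (h0 ▸ dvd_zero p)⟩
  exact ⟨P.index, hP, index_smul_eq_zero_of_res_eq_zero₁ A P x hx⟩

omit [S.FiniteIndex] in
/-- **Sylow reduction, degree 2**: a class of `H²(G, A)` whose restriction to some subgroup of
index prime to `p` (e.g. a Sylow `p`-subgroup of a finite `G`) vanishes for every prime `p` is
zero. -/
theorem eq_zero_of_res_sylow_eq_zero₂ (x : H2 A)
    (h : ∀ p : ℕ, p.Prime → ∃ P : Subgroup G, ¬ p ∣ P.index ∧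
      map P.subtype (𝟙 (Rep.res P.subtype A)) 2 x = 0) : x = 0 := by
  refine eq_zero_of_forall_prime x fun p hp => ?_
  obtain ⟨P, hP, hx⟩ := h p hp
  have : P.FiniteIndex := ⟨fun h0 => hP (h0 ▸ dvd_zero p)⟩
  exact ⟨P.index, hP, index_smul_eq_zero_of_res_eq_zero₂ A P x hx⟩

omit [S.FiniteIndex] in
/-- Sylow subgroups have index prime to `p` (convenience for consumers). -/
lemma not_dvd_index_sylow [Finite G] {p : ℕ} [Fact p.Prime] (P : Sylow p G) :
    ¬ p ∣ (P : Subgroup G).index := P.not_dvd_index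

end RepLevel

end Fermat.Agent.S55.Tate.ResCor
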