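/-
S55 / Tate block: `Blocks.InfRes2` discharged from `Tate/InfRes2.lean` (helper6).
-/
import Mathlib
import Fermat.Agent.S55.Tate.Blocks
import Fermat.Agent.S55.Tate.InfRes2

set_option autoImplicit false

namespace Fermat.Agent.S55.Tate.InfRes2Block

open CategoryTheory CategoryTheory.Limits groupCohomology Rep
open Fermat.Agent.S55.Tate

/-- General-coefficient version of `Blocks.InfRes2` (exactness in the middle of
inflation-restriction in degree 2). -/
theorem infRes2Gen {k G : Type} [CommRing k] [Group G] (H : Subgroup G) [H.Normal] (A : Rep k G)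
    (h1 : IsZero (groupCohomology (Rep.res H.subtype A) 1))
    (x : groupCohomology A 2)
    (hx : groupCohomology.map H.subtype (𝟙 (Rep.res H.subtype A)) 2 x = 0) :
    ∃ y, Blocks.infMapGen H A 2 y = x := by
  have hS : InfRes2.H1ResTrivial A H := InfRes2.h1ResTrivial_of_isZero A H h1
  have := InfRes2.ker_rest₂_le_range_infl₂ hS (x := x) (by
    rw [LinearMap.mem_ker]
    exact hx)
  obtain ⟨y, hy⟩ := this
  exact ⟨y, hy⟩

/-- Injectivity of inflation in degree 2, general coefficients, in `Blocks` vocabulary. -/
theorem infMapGen_injective {k G : Type} [CommRing k] [Group G] (H : Subgroup G) [H.Normal]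
    (A : Rep k G) (h1 : IsZero (groupCohomology (Rep.res H.subtype A) 1)) :
    Function.Injective (Blocks.infMapGen H A 2) :=
  InfRes2.infl₂_injective (InfRes2.h1ResTrivial_of_isZero A H h1)

/-- **(T.infRes2)** inflation–restriction in degree 2, exactness in the middle. -/
theorem infRes2 : Blocks.InfRes2 := by
  intro G _ H _ A h1 x hx
  exact infRes2Gen H A h1 x hx

/-- Injectivity of `Blocks.infMap H A 2` when `H¹(H, A) = 0`. -/
theorem infMap_injective {G : Type} [Group G] (H : Subgroup G) [H.Normal] (A : Rep ℤ G)
    (h1 : IsZero (groupCohomology (Blocks.resSub H A) 1)) :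
    Function.Injective (Blocks.infMap H A 2) :=
  infMapGen_injective H A h1

end Fermat.Agent.S55.Tate.InfRes2Block
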