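/-
S55 / Tate block, hedge route to `Blocks.TateH3` through degrees ≤ 2 (helper86), part 2:
NAKAYAMA'S CRITERION in the shape `Ĥ⁰ = H¹ = 0` for all subgroups `⇒ H²(G, E) = 0`.
Sylow reduction (helper39 `ResCor`) + induction over `p`-subgroups with a normal subgroup of
index `p`: inflation–restriction in degree 2 (helper6 `InfRes2`) + `H²` of a cyclic group
(Mathlib `FiniteCyclic`).
-/
import Mathlib
import Fermat.Agent.S55.Tate.Blocks
import Fermat.Agent.S55.Tate.InfRes2Block
import Fermat.Agent.S55.Tate.ResCor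

set_option autoImplicit false

namespace Fermat.Agent.S55.Tate.H3VanishNakayama

open CategoryTheory CategoryTheory.Limits groupCohomology Rep Fermat.Agent.S55.Tate.Blocks

/-- Explicit vanishing of the Tate group `Ĥ⁰(H, E)`: every `H`-invariant is an `H`-norm. -/
def TateH0Zero {k G : Type} [CommRing k] [Group G] (E : Rep k G) (H : Subgroup G) : Prop :=
  ∀ e : E.V, (∀ h ∈ H, E.ρ h e = e) → ∃ w : E.V, e = ∑ᶠ h : H, E.ρ (h : G) w

/-- For a finite cyclic group, `H²` vanishes as soon as every invariant is a norm. -/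
theorem isZero_H2_of_cyclic {k C : Type} [CommRing k] [Group C] [Finite C] [IsCyclic C]
    (B : Rep k C)
    (h : ∀ b : B.V, (∀ c : C, B.ρ c b = b) → ∃ w : B.V, b = ∑ᶠ c : C, B.ρ c w) :
    IsZero (groupCohomology B 2) := by
  obtain ⟨g, hg⟩ := IsCyclic.exists_generator (α := C)
  let _ : CommGroup C := IsCyclic.commGroup
  let _ : Fintype C := Fintype.ofFinite C
  have e2 := Rep.FiniteCyclicGroup.groupCohomologyIsoEven B g hg 2 (by decide)
  refine IsZero.of_iso ?_ e2
  rw [← ShortComplex.exact_iff_isZero_homology, ShortComplex.moduleCat_exact_iff]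
  intro (x : B.V) hx
  have hx' : B.ρ g x = x := by
    have : B.ρ g x - x = 0 := by
      simpa [sub_hom, applyAsHom] using hx
    exact sub_eq_zero.1 this
  have hinv : ∀ c : C, B.ρ c x = x :=
    (Representation.mem_invariants_iff_of_forall_mem_zpowers B.ρ g hg x).2 hx'
  obtain ⟨w, hw⟩ := h x hinv
  refine ⟨w, ?_⟩
  rw [hw, finsum_eq_sum_of_fintype]
  simp [Rep.norm, Representation.norm]

/-- transport of cohomology along `N ≃ N.map P.subtype`. -/
noncomputable def resResIso {k G : Type} [CommRing k] [Group G] (E : Rep k G) (P : Subgroup G)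
    (N : Subgroup P) (n : ℕ) :
    groupCohomology (Rep.res N.subtype (Rep.res P.subtype E)) n ≅
      groupCohomology (Rep.res (N.map P.subtype).subtype E) n :=
  groupCohomology.mapIso (A := Rep.res (N.map P.subtype).subtype E)
    (B := Rep.res N.subtype (Rep.res P.subtype E))
    (N.equivMapOfInjective P.subtype (Subgroup.subtype_injective P))
    (LinearEquiv.refl k E.V)
    (fun _ => rfl) n

/-- explicit bijection `P ≃ (P ⧸ N) × N`, `h ↦ (hN, out(hN)⁻¹ h)`. -/
noncomputable def cosetEquiv {P : Type} [Group P] (N : Subgroup P) : P ≃ (P ⧸ N) × N where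
  toFun h := ((h : P ⧸ N), ⟨(Quotient.out (h : P ⧸ N))⁻¹ * h,
    QuotientGroup.eq.1 (QuotientGroup.out_eq' (h : P ⧸ N))⟩)
  invFun x := Quotient.out x.1 * x.2
  left_inv h := by simp
  right_inv x := by
    obtain ⟨c, n⟩ := x
    have h1 : ((Quotient.out c * (n : P) : P) : P ⧸ N) = c := by
      rw [QuotientGroup.mk_mul_of_mem _ n.2]
      exact QuotientGroup.out_eq' c
    ext
    · exact h1
    · simp only [h1]
      simp

/-- decomposition of the norm over `P` along the cosets of `N`. -/
lemma finsum_eq_finsum_quotient {k P : Type} [CommRing k] [Group P] [Finite P] (B : Rep k P)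
    (N : Subgroup P) (w : B.V) :
    ∑ᶠ h : P, B.ρ h w = ∑ᶠ c : P ⧸ N, B.ρ (Quotient.out c) (∑ᶠ n : N, B.ρ (n : P) w) := by
  classical
  let _ : Fintype P := Fintype.ofFinite P
  let _ : Fintype N := Fintype.ofFinite N
  let _ : Fintype (P ⧸ N) := Fintype.ofFinite _
  simp only [finsum_eq_sum_of_fintype, map_sum]
  rw [← Fintype.sum_prod_type' (f := fun (c : P ⧸ N) (n : N) => B.ρ (Quotient.out c) (B.ρ (n : P) w))]
  refine Fintype.sum_equiv (cosetEquiv N) _ _ fun h => ?_
  show B.ρ h w = B.ρ (Quotient.out (h : P ⧸ N)) (B.ρ ((Quotient.out (h : P ⧸ N))⁻¹ * h) w)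
  rw [← Module.End.mul_apply, ← map_mul]
  simp

lemma quotientToInvariants_ρ_mk_coe {k P : Type} [CommRing k] [Group P] (B : Rep k P)
    (N : Subgroup P) [N.Normal] (h : P) (b : (B.quotientToInvariants N).V) :
    (((B.quotientToInvariants N).ρ (h : P ⧸ N) b : (B.quotientToInvariants N).V) : B.V) =
      B.ρ h (b : B.V) := rfl

/-- the norm of `N` lands in the `N`-invariants. -/
lemma normN_mem_invariants {k P : Type} [CommRing k] [Group P] [Finite P] (B : Rep k P)
    (N : Subgroup P) (w : B.V) :
    (∑ᶠ n : N, B.ρ (n : P) w) ∈ Representation.invariants (B.ρ.comp N.subtype) := by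
  classical
  let _ : Fintype N := Fintype.ofFinite N
  intro n'
  simp only [finsum_eq_sum_of_fintype, MonoidHom.comp_apply, Subgroup.coe_subtype, map_sum]
  refine Fintype.sum_equiv (Equiv.mulLeft n') _ _ fun n => ?_
  simp [← Module.End.mul_apply, ← map_mul]

/-- If every `P`-invariant of `B` is a `P`-norm, then every `P ⧸ N`-invariant of `B^N` is a
`P ⧸ N`-norm. -/
lemma quotient_invariant_is_norm {k P : Type} [CommRing k] [Group P] [Finite P] (B : Rep k P)
    (N : Subgroup P) [N.Normal]
    (h0 : ∀ e : B.V, (∀ h : P, B.ρ h e = e) → ∃ w : B.V, e = ∑ᶠ h : P, B.ρ h w)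
    (b : (B.quotientToInvariants N).V)
    (hb : ∀ c : P ⧸ N, (B.quotientToInvariants N).ρ c b = b) :
    ∃ w : (B.quotientToInvariants N).V,
      b = ∑ᶠ c : P ⧸ N, (B.quotientToInvariants N).ρ c w := by
  classical
  let _ : Fintype (P ⧸ N) := Fintype.ofFinite _
  have hinv : ∀ h : P, B.ρ h (b : B.V) = (b : B.V) := fun h => by
    have := congrArg Subtype.val (hb (h : P ⧸ N))
    rwa [quotientToInvariants_ρ_mk_coe] at this
  obtain ⟨w₀, hw₀⟩ := h0 _ hinv
  obtain ⟨wN, hwN⟩ : ∃ wN : B.V, wN = ∑ᶠ n : N, B.ρ (n : P) w₀ := ⟨_, rfl⟩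
  have hmem : wN ∈ Representation.invariants (B.ρ.comp N.subtype) :=
    hwN ▸ normN_mem_invariants B N w₀
  refine ⟨⟨wN, hmem⟩, ?_⟩
  apply Subtype.ext
  rw [hw₀, finsum_eq_finsum_quotient B N w₀, ← hwN]
  rw [finsum_eq_sum_of_fintype, finsum_eq_sum_of_fintype, Submodule.coe_sum]
  refine Finset.sum_congr rfl fun c _ => ?_
  conv_rhs => rw [← QuotientGroup.out_eq' c]
  rw [quotientToInvariants_ρ_mk_coe]

lemma eq_zero_of_isZero {k : Type} [CommRing k] {M : ModuleCat k} (h : IsZero M) (x : M) :
    x = 0 := by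
  have := (ModuleCat.isZero_iff_subsingleton).1 h
  exact Subsingleton.elim _ _

/-- Nakayama's criterion (degrees `0, 1 ⇒ 2`) for `p`-subgroups, by induction on the order. -/
theorem isZero_H2_res_of_isPGroup {k G : Type} [CommRing k] [Group G] [Finite G] (E : Rep k G)
    (p : ℕ) [Fact p.Prime]
    (h0 : ∀ H : Subgroup G, TateH0Zero E H)
    (h1 : ∀ H : Subgroup G, IsZero (groupCohomology (Rep.res H.subtype E) 1)) :
    ∀ (n : ℕ) (P : Subgroup G), IsPGroup p P → Nat.card P ≤ n →
      IsZero (groupCohomology (Rep.res P.subtype E) 2) := by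
  intro n
  induction n with
  | zero =>
    intro P _ hcard
    have := Nat.card_pos (α := P)
    omega
  | succ n ih =>
    intro P hP hcard
    by_cases htriv : Nat.card P = 1
    · have : Subsingleton P := (Nat.card_eq_one_iff_unique.1 htriv).1
      exact isZero_groupCohomology_succ_of_subsingleton _ 1
    · obtain ⟨m, hm⟩ := (IsPGroup.iff_card.1 hP)
      have hp := (Fact.out : p.Prime)
      have hm0 : m ≠ 0 := by
        rintro rfl
        exact htriv (by simpa using hm)
      obtain ⟨N, hN⟩ := Sylow.exists_subgroup_card_pow_prime (G := P) p (n := m - 1)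
        (by rw [hm]; exact pow_dvd_pow p (Nat.sub_le m 1))
      have hidx : N.index = p := by
        have h := N.card_mul_index
        rw [hN, hm] at h
        have h2 : p ^ (m - 1) * p = p ^ m := by
          rw [← pow_succ, Nat.sub_add_cancel (Nat.pos_of_ne_zero hm0)]
        exact Nat.eq_of_mul_eq_mul_left (pow_pos hp.pos _) (h.trans h2.symm)
      have : N.Normal := Subgroup.normal_of_index_eq_minFac_card (by
        rw [hidx, hm, Nat.pow_minFac hm0, hp.minFac_eq])
      have hNcard : Nat.card (N.map P.subtype) ≤ n := by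
        have h3 : Nat.card (N.map P.subtype) = Nat.card N :=
          Nat.card_congr (N.equivMapOfInjective P.subtype (Subgroup.subtype_injective P)).symm.toEquiv
        have h4 : Nat.card N < Nat.card P := by
          rw [hN, hm]
          exact Nat.pow_lt_pow_right hp.one_lt (Nat.sub_lt (Nat.pos_of_ne_zero hm0) one_pos)
        omega
      have hNp : IsPGroup p (N.map P.subtype) :=
        hP.to_le (Subgroup.map_subtype_le N)
      have hN1 : IsZero (groupCohomology (Rep.res N.subtype (Rep.res P.subtype E)) 1) :=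
        (h1 _).of_iso (resResIso E P N 1)
      have hN2 : IsZero (groupCohomology (Rep.res N.subtype (Rep.res P.subtype E)) 2) :=
        (ih _ hNp hNcard).of_iso (resResIso E P N 2)
      have : IsCyclic (P ⧸ N) := isCyclic_of_prime_card (p := p) (by
        rw [← Subgroup.index_eq_card, hidx])
      have hQ : IsZero (groupCohomology ((Rep.res P.subtype E).quotientToInvariants N) 2) := by
        refine isZero_H2_of_cyclic _ (quotient_invariant_is_norm _ N ?_)
        intro e he
        exact h0 P e (fun h hh => he ⟨h, hh⟩)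
      rw [ModuleCat.isZero_iff_subsingleton]
      refine ⟨fun x y => ?_⟩
      have key : ∀ x : groupCohomology (Rep.res P.subtype E) 2, x = 0 := by
        intro x
        obtain ⟨y, hy⟩ := InfRes2Block.infRes2Gen N (Rep.res P.subtype E) hN1 x
          (eq_zero_of_isZero hN2 _)
        rw [← hy, eq_zero_of_isZero hQ y, map_zero]
      rw [key x, key y]

/-- **Nakayama's criterion, degrees `0, 1 ⇒ 2`**: if `Ĥ⁰(H, E) = 0` and `H¹(H, E) = 0` for every
subgroup `H` of the finite group `G`, then `H²(G, E) = 0`. -/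
theorem nakayama2 {k G : Type} [CommRing k] [Group G] [Finite G] (E : Rep k G)
    (h0 : ∀ H : Subgroup G, TateH0Zero E H)
    (h1 : ∀ H : Subgroup G, IsZero (groupCohomology (Rep.res H.subtype E) 1)) :
    IsZero (groupCohomology E 2) := by
  rw [ModuleCat.isZero_iff_subsingleton]
  have key : ∀ x : groupCohomology E 2, x = 0 := by
    intro x
    refine ResCor.eq_zero_of_res_sylow_eq_zero₂ E x fun p hp => ?_
    have : Fact p.Prime := ⟨hp⟩
    obtain ⟨P⟩ : Nonempty (Sylow p G) := inferInstance
    refine ⟨P, ResCor.not_dvd_index_sylow P, ?_⟩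
    exact eq_zero_of_isZero
      (isZero_H2_res_of_isPGroup E p h0 h1 _ (P : Subgroup G) P.isPGroup' le_rfl) _
  exact ⟨fun x y => by rw [key x, key y]⟩

end Fermat.Agent.S55.Tate.H3VanishNakayama
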