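/-
S55 / Tate block, hedge route to `Blocks.TateH3` through degrees ≤ 2 (helper86), part 4:
the extension `0 → B → E → k → 0` attached to a 1-cocycle `c` of `B`
(`g • (b, n) = (g • b + n • c g, n)`; it replaces the splitting module), and the three facts
about it: `H²(G, E) = 0 ⇒ H²(G, B) = 0`, `H¹(H, E) = 0`, `Ĥ⁰(H, E) = 0` (under explicit
hypotheses on `H¹(H, B)`, `Ĥ⁰(H, B)`).
-/
import Mathlib
import Fermat.Agent.S55.Tate.H3VanishNakayama

set_option autoImplicit false

namespace Fermat.Agent.S55.Tate.H3VanishExt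

open CategoryTheory CategoryTheory.Limits groupCohomology Rep
open Fermat.Agent.S55.Tate.H3VanishNakayama

variable {k G : Type} [CommRing k] [Group G]

/-- explicit vanishing of `H¹(H, B)`. -/
def H1Zero (B : Rep.{0} k G) (H : Subgroup G) : Prop :=
  ∀ c : H → B.V, (∀ a b : H, c (a * b) = B.ρ a (c b) + c a) →
    ∃ v : B.V, ∀ a : H, c a = B.ρ a v - v

lemma h1Zero_of_isZero (B : Rep.{0} k G) (H : Subgroup G)
    (h : IsZero (groupCohomology (Rep.res H.subtype B) 1)) : H1Zero B H := by
  intro c hc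
  have hmem : c ∈ cocycles₁ (Rep.res H.subtype B) :=
    (mem_cocycles₁_iff (A := Rep.res H.subtype B) c).2 fun a b => hc a b
  have h0 : H1π (Rep.res H.subtype B) ⟨c, hmem⟩ = 0 := eq_zero_of_isZero h _
  obtain ⟨v, hv⟩ := (H1π_eq_zero_iff _).1 h0
  exact ⟨v, fun a => (congrFun hv a).symm⟩

lemma isZero_H1_of_h1Zero (B : Rep.{0} k G) (H : Subgroup G) (h : H1Zero B H) :
    IsZero (groupCohomology (Rep.res H.subtype B) 1) := by
  rw [ModuleCat.isZero_iff_subsingleton]
  have key : ∀ x : groupCohomology (Rep.res H.subtype B) 1, x = 0 := by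
    intro x
    induction x using H1_induction_on with
    | h c =>
      rw [H1π_eq_zero_iff]
      obtain ⟨v, hv⟩ := h c (fun a b => (mem_cocycles₁_iff (A := Rep.res H.subtype B) c).1 c.2 a b)
      exact ⟨v, funext fun a => (hv a).symm⟩
  exact ⟨fun x y => by rw [key x, key y]⟩

/-- The extension of the trivial module `k` by `B` attached to a 1-cocycle `c`:
`g • (b, n) = (g • b + n • c g, n)`. -/
def extρ (B : Rep.{0} k G) (c : G → B.V) (hc : c ∈ cocycles₁ B) : Representation k G (B.V × k) where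
  toFun g :=
    { toFun := fun p => (B.ρ g p.1 + p.2 • c g, p.2)
      map_add' := fun p q => by
        ext
        · simp only [Prod.fst_add, Prod.snd_add, map_add, add_smul]; abel
        · rfl
      map_smul' := fun r p => by
        ext
        · simp [smul_add, mul_smul]
        · rfl }
  map_one' := by
    have hc1 : c 1 = 0 := cocycles₁_map_one (⟨c, hc⟩ : cocycles₁ B)
    ext p
    · simp
    · rfl
    · simp [hc1]
    · rfl
  map_mul' g h := by
    have := (mem_cocycles₁_iff c).1 hc g h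
    ext p
    · simp
    · rfl
    · simp [this, smul_add]
    · rfl

@[simp] lemma extρ_apply (B : Rep.{0} k G) (c : G → B.V) (hc : c ∈ cocycles₁ B) (g : G)
    (p : B.V × k) : extρ B c hc g p = (B.ρ g p.1 + p.2 • c g, p.2) := rfl

/-- the extension as an object of `Rep k G`. -/
noncomputable abbrev ext (B : Rep.{0} k G) (c : G → B.V) (hc : c ∈ cocycles₁ B) : Rep.{0} k G :=
  Rep.of (extρ B c hc)

section

variable (B : Rep.{0} k G) (c : G → B.V) (hc : c ∈ cocycles₁ B)

/-- `H²(G, E) = 0 ⇒ H²(G, B) = 0` when `Hom(G, k) = 0`. -/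
theorem isZero_H2_of_ext
    (tf : ∀ φ : G → k, (∀ a b, φ (a * b) = φ a + φ b) → ∀ a, φ a = 0)
    (h : IsZero (groupCohomology (ext B c hc) 2)) : IsZero (groupCohomology B 2) := by
  rw [ModuleCat.isZero_iff_subsingleton]
  have key : ∀ x : groupCohomology B 2, x = 0 := by
    intro x
    induction x using H2_induction_on with
    | h f =>
      rw [H2π_eq_zero_iff]
      have hf := (mem_cocycles₂_iff (A := B) f).1 f.2
      -- the cocycle `(f, 0)` of `E`
      have hmem : (fun p : G × G => ((f p, 0) : B.V × k)) ∈ cocycles₂ (ext B c hc) := by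
        rw [mem_cocycles₂_iff]
        intro a b d
        show ((f (a * b, d), (0 : k)) : B.V × k) + (f (a, b), 0)
          = extρ B c hc a (f (b, d), 0) + (f (a, b * d), 0)
        rw [extρ_apply]
        ext
        · simp [hf a b d]
        · simp
      have h0 : H2π (ext B c hc) ⟨_, hmem⟩ = 0 := eq_zero_of_isZero h _
      obtain ⟨y, hy⟩ := (H2π_eq_zero_iff _).1 h0
      have hy' : ∀ a b : G, extρ B c hc a (y b) - y (a * b) + y a = (f (a, b), 0) :=
        fun a b => congrFun hy (a, b)
      have hy2 : ∀ a, (y a).2 = 0 := by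
        refine tf (fun a => (y a).2) fun a b => ?_
        have := congrArg Prod.snd (hy' a b)
        simp only [extρ_apply, Prod.snd_add, Prod.snd_sub] at this
        linear_combination (-1 : k) * this
      refine ⟨fun a => (y a).1, funext fun p => ?_⟩
      obtain ⟨a, b⟩ := p
      have := congrArg Prod.fst (hy' a b)
      simp only [extρ_apply, Prod.fst_add, Prod.fst_sub, hy2, zero_smul, add_zero] at this
      exact this
  exact ⟨fun x y => by rw [key x, key y]⟩

/-- `H¹(H, E) = 0`. -/
theorem h1Zero_ext (H : Subgroup G)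
    (tf : ∀ φ : H → k, (∀ a b, φ (a * b) = φ a + φ b) → ∀ a, φ a = 0)
    (gen : ∀ γ : H → B.V, (∀ a b : H, γ (a * b) = B.ρ a (γ b) + γ a) →
      ∃ (n : k) (v : B.V), ∀ a : H, γ a = n • c a + (B.ρ a v - v)) :
    H1Zero (ext B c hc) H := by
  intro γ hγ
  have hγ' : ∀ a b : H, γ (a * b) = extρ B c hc a (γ b) + γ a := hγ
  have h2 : ∀ a, (γ a).2 = 0 := by
    refine tf (fun a => (γ a).2) fun a b => ?_
    have := congrArg Prod.snd (hγ' a b)
    simp only [extρ_apply, Prod.snd_add] at this
    rw [this]; ring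
  obtain ⟨n, v, hnv⟩ := gen (fun a => (γ a).1) fun a b => by
    have := congrArg Prod.fst (hγ' a b)
    simp only [extρ_apply, Prod.fst_add, h2, zero_smul, add_zero] at this
    exact this
  refine ⟨(v, n), fun a => ?_⟩
  show γ a = extρ B c hc a (v, n) - (v, n)
  rw [extρ_apply]
  ext
  · simp only [Prod.fst_sub]
    rw [hnv a]; abel
  · simp [h2]

/-- `Ĥ⁰(H, E) = 0`. -/
theorem tateH0Zero_ext [Finite G] (H : Subgroup G)
    (ord : ∀ (n : k) (v : B.V), (∀ a : H, n • c a = B.ρ a v - v) →
      ∃ m : k, n = (Nat.card H : k) * m)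
    (h0 : TateH0Zero B H) : TateH0Zero (ext B c hc) H := by
  classical
  let _ : Fintype H := Fintype.ofFinite H
  rintro ⟨b, n⟩ he
  have he' : ∀ h : H, B.ρ h b + n • c h = b := fun h => by
    have := congrArg Prod.fst (he h h.2)
    exact this
  obtain ⟨m, hm⟩ := ord n (-b) fun a => by
    have : n • c a = b - B.ρ a b := eq_sub_of_add_eq' (he' a)
    rw [this, map_neg]; abel
  have hcoc := (mem_cocycles₁_iff c).1 hc
  obtain ⟨s, hs⟩ : ∃ s : B.V, s = ∑ h : H, c h := ⟨_, rfl⟩
  have hρs : ∀ h : H, B.ρ h s = s - (Nat.card H : k) • c h := by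
    intro h
    rw [hs, map_sum]
    have h1 : ∀ h' : H, B.ρ h (c h') = c ((h * h' : H) : G) - c h := fun h' => by
      rw [Subgroup.coe_mul, hcoc]; abel
    simp only [h1, Finset.sum_sub_distrib, Finset.sum_const, Finset.card_univ]
    rw [Fintype.sum_equiv (Equiv.mulLeft h) (fun h' : H => c ((h * h' : H) : G))
      (fun h' : H => c h') (fun _ => rfl)]
    rw [Nat.card_eq_fintype_card, Nat.cast_smul_eq_nsmul]
  have hinv : ∀ h ∈ H, B.ρ h (b - m • s) = b - m • s := by
    intro h hh
    have e1 := he' ⟨h, hh⟩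
    have e2 := hρs ⟨h, hh⟩
    simp only at e1 e2
    have e1' : B.ρ h b = b - n • c h := eq_sub_of_add_eq e1
    rw [map_sub, map_smul, e2, smul_sub, smul_smul, mul_comm m, ← hm, e1']
    abel
  obtain ⟨w, hw⟩ := h0 _ hinv
  refine ⟨(w, m), ?_⟩
  rw [finsum_eq_sum_of_fintype] at hw ⊢
  show ((b, n) : B.V × k) = ∑ h : H, extρ B c hc h (w, m)
  simp only [extρ_apply]
  ext
  · rw [Prod.fst_sum]
    simp only [Finset.sum_add_distrib, ← Finset.smul_sum, ← hs, ← hw]
    abel
  · rw [Prod.snd_sum]
    simp only [Finset.sum_const, Finset.card_univ, nsmul_eq_mul, hm, Nat.card_eq_fintype_card]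

end

end Fermat.Agent.S55.Tate.H3VanishExt
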