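/-
S55 / Tate block, hedge route to `Blocks.TateH3` through degrees ≤ 2 (helper86), part 3:
explicit contracting homotopies for `Fun(G, M)` as a module over an arbitrary subgroup `H`
(coset representatives), in degrees 0 (Tate), 1 and 2.
-/
import Mathlib

set_option autoImplicit false

namespace Fermat.Agent.S55.Tate.H3VanishFun

variable {G : Type} [Group G] (H : Subgroup G)

/-- representative of the left coset `x H`. -/
noncomputable def tr (x : G) : G := Quotient.out (x : G ⧸ H)

/-- the `H`-component of `x`: `x = tr x * et x`. -/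
noncomputable def et (x : G) : H :=
  ⟨(tr H x)⁻¹ * x, QuotientGroup.eq.1 (QuotientGroup.out_eq' (x : G ⧸ H))⟩

lemma tr_mul_et (x : G) : tr H x * (et H x : G) = x := by
  simp [et]

lemma tr_mul (x : G) (h : H) : tr H (x * h) = tr H x := by
  unfold tr
  rw [QuotientGroup.mk_mul_of_mem _ h.2]

lemma et_mul (x : G) (h : H) : et H (x * h) = et H x * h := by
  apply Subtype.ext
  simp [et, tr_mul, mul_assoc]

lemma et_eq_one_iff (x : G) (h : H) : et H (x * h) = 1 ↔ h = (et H x)⁻¹ := by
  rw [et_mul, mul_eq_one_iff_eq_inv']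

variable {M : Type} [AddCommGroup M]

/-- contracting homotopy in degree 1 for `Fun(G, M)` as an `H`-module. -/
theorem fun_H1 (c : H → G → M)
    (hc : ∀ (a b : H) (x : G), c (a * b) x = c b (x * a) + c a x) :
    ∃ b : G → M, ∀ (a : H) (x : G), c a x = b (x * a) - b x := by
  refine ⟨fun x => c (et H x) (tr H x), fun a x => ?_⟩
  simp only [tr_mul, et_mul]
  rw [hc (et H x) a (tr H x), tr_mul_et]
  abel

/-- contracting homotopy in degree 2 for `Fun(G, M)` as an `H`-module. -/
theorem fun_H2 (f : H × H → G → M)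
    (hf : ∀ (a b c : H) (x : G),
      f (a * b, c) x + f (a, b) x = f (b, c) (x * a) + f (a, b * c) x) :
    ∃ y : H → G → M, ∀ (a b : H) (x : G), f (a, b) x = y b (x * a) - y (a * b) x + y a x := by
  refine ⟨fun h x => f (et H x, h) (tr H x), fun a b x => ?_⟩
  simp only [tr_mul, et_mul]
  have := hf (et H x) a b (tr H x)
  rw [tr_mul_et] at this
  rw [eq_sub_of_add_eq' this.symm]
  abel

/-- Tate `Ĥ⁰` of `Fun(G, M)` as an `H`-module vanishes. -/
theorem fun_H0 [Finite H] (f : G → M) (hf : ∀ (h : H) (x : G), f (x * h) = f x) :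
    ∃ w : G → M, ∀ x : G, f x = ∑ᶠ h : H, w (x * h) := by
  classical
  refine ⟨fun x => if et H x = 1 then f x else 0, fun x => ?_⟩
  let _ : Fintype H := Fintype.ofFinite H
  rw [finsum_eq_sum_of_fintype]
  simp only [et_eq_one_iff, hf]
  rw [Finset.sum_ite_eq' Finset.univ ((et H x)⁻¹) (fun _ => f x)]
  simp

end Fermat.Agent.S55.Tate.H3VanishFun
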