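/-
S55 / Tate block, hedge route to `Blocks.TateH3` through degrees ≤ 2 (helper86), part 5 (final):
the dimension shift of a fundamental class (`shiftCocycle`, `shift_gen`, `shift_ord`,
`tateH0Zero_up`), the generic explicit theorem `tateH3_generic` (any coefficient ring `k`), and
`tateH3 : Blocks.TateH3` (Tate's theorem in degree 3 in the shape of `Tate/Blocks.lean`).
No `H³`-level inflation–restriction, no splitting module, no Sylow reduction in degree 3.
-/
import Mathlib
import Fermat.Agent.S55.Tate.H3VanishShift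
import Fermat.Agent.S55.Tate.H3VanishNakayama
import Fermat.Agent.S55.Tate.H3VanishFun
import Fermat.Agent.S55.Tate.H3VanishExt
import Fermat.Agent.S55.Tate.Blocks

set_option autoImplicit false

namespace Fermat.Agent.S55.Tate.H3VanishMain

open CategoryTheory CategoryTheory.Limits groupCohomology Rep
open Fermat.Agent.S55.Tate.H3VanishShift Fermat.Agent.S55.Tate.H3VanishNakayama
open Fermat.Agent.S55.Tate.H3VanishFun Fermat.Agent.S55.Tate.H3VanishExt

variable {k G : Type} [CommRing k] [Group G]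

/-- the class of a function in `up A`. -/
noncomputable abbrev cls (A : Rep.{0} k G) (f : G → A.V) : (up A).V := Submodule.Quotient.mk f

lemma cls_surjective (A : Rep.{0} k G) (e : (up A).V) : ∃ f : G → A.V, cls A f = e :=
  Submodule.Quotient.mk_surjective _ e

lemma up_ρ_cls (A : Rep.{0} k G) (g : G) (f : G → A.V) :
    (up A).ρ g (cls A f) = cls A (fun x => f (x * g)) := rfl

lemma cls_eq_zero_iff (A : Rep.{0} k G) (f : G → A.V) :
    cls A f = 0 ↔ ∃ a : A.V, ∀ x, f x = A.ρ x a := by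
  rw [cls, Submodule.Quotient.mk_eq_zero, mem_ιRange]

lemma cls_eq_cls_iff (A : Rep.{0} k G) (f f' : G → A.V) :
    cls A f = cls A f' ↔ ∃ a : A.V, ∀ x, f x - f' x = A.ρ x a := by
  rw [← sub_eq_zero, cls, cls, ← Submodule.Quotient.mk_sub, ← cls, cls_eq_zero_iff]
  rfl

/-- `H¹(H, A) = 0 ⇒ Ĥ⁰(H, up A) = 0`. -/
theorem tateH0Zero_up [Finite G] (A : Rep.{0} k G) (H : Subgroup G) (h : H1Zero A H) :
    TateH0Zero (up A) H := by
  classical
  intro e he
  obtain ⟨f, rfl⟩ := cls_surjective A e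
  have h1 : ∀ a : H, ∃ v : A.V, ∀ x, f (x * a) - f x = A.ρ x v := fun a => by
    have := he a a.2
    rw [up_ρ_cls, cls_eq_cls_iff] at this
    exact this
  choose c hc using h1
  have hcoc : ∀ a b : H, c (a * b) = A.ρ a (c b) + c a := fun a b => by
    have e1 := hc (a * b) 1
    have e2 := hc b a
    have e3 := hc a 1
    simp only [one_mul, map_one, Module.End.one_apply, Subgroup.coe_mul] at e1 e2 e3
    rw [← e1, ← e2, ← e3]
    abel
  obtain ⟨v, hv⟩ := h c hcoc
  obtain ⟨w, hw⟩ := fun_H0 H (fun x => f x - A.ρ x v) (fun a x => by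
    have e1 := hc a x
    have : f (x * a) = f x + A.ρ x (c a) := by rw [← e1]; abel
    rw [this, hv a, map_mul, Module.End.mul_apply, map_sub]
    abel)
  refine ⟨cls A w, ?_⟩
  let _ : Fintype H := Fintype.ofFinite H
  rw [finsum_eq_sum_of_fintype]
  calc cls A f = cls A (∑ a : H, fun y => w (y * a)) := by
        rw [cls_eq_cls_iff]
        refine ⟨v, fun x => ?_⟩
        have := hw x
        rw [finsum_eq_sum_of_fintype] at this
        rw [Finset.sum_apply, ← this]
        abel
    _ = ∑ a : H, cls A (fun y => w (y * a)) := map_sum (Submodule.mkQ (ιRange A)) _ _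
    _ = ∑ a : H, (up A).ρ a (cls A w) := Finset.sum_congr rfl fun _ _ => rfl

section Shift

variable (A : Rep.{0} k G) (u : G × G → A.V) (hu : u ∈ cocycles₂ A)

/-- the key identity: `d(ũ)(a, b) = ι (u (a, b))`, where `ũ g x = u (x, g)`. -/
lemma u_key {A : Rep.{0} k G} {u : G × G → A.V} (hu : u ∈ cocycles₂ A) (a b x : G) :
    u (x * a, b) - u (x, a * b) + u (x, a) = A.ρ x (u (a, b)) := by
  have := (mem_cocycles₂_iff u).1 hu x a b
  rw [← sub_eq_zero] at this ⊢
  rw [← this]; abel

/-- the shifted 1-cocycle `u' g = [x ↦ u (x, g)]` of `up A`. -/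
noncomputable def shiftCocycle : G → (up A).V := fun g => cls A (fun x => u (x, g))

include hu in
lemma shiftCocycle_mem : shiftCocycle A u ∈ cocycles₁ (up A) := by
  rw [mem_cocycles₁_iff]
  intro a b
  show cls A (fun x => u (x, a * b)) =
    (up A).ρ a (cls A (fun x => u (x, b))) + cls A (fun x => u (x, a))
  rw [up_ρ_cls, cls, cls, cls, ← Submodule.Quotient.mk_add, ← cls, ← cls, cls_eq_cls_iff]
  refine ⟨-u (a, b), fun x => ?_⟩
  rw [map_neg, ← u_key hu a b x]
  simp only [Pi.add_apply]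
  abel

include hu in
/-- (S1a): if `H²(H, A)` is generated by the class of `u`, then `H¹(H, up A)` is generated by the
class of the shifted cocycle. -/
theorem shift_gen (H : Subgroup G)
    (gen : ∀ f : H × H → A.V,
      (∀ a b c : H, f (a * b, c) + f (a, b) = A.ρ a (f (b, c)) + f (a, b * c)) →
      ∃ (n : k) (y : H → A.V), ∀ a b : H,
        f (a, b) = n • u (a, b) + (A.ρ a (y b) - y (a * b) + y a))
    (γ : H → (up A).V) (hγ : ∀ a b : H, γ (a * b) = (up A).ρ a (γ b) + γ a) :
    ∃ (n : k) (v : (up A).V), ∀ a : H,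
      γ a = n • shiftCocycle A u a + ((up A).ρ a v - v) := by
  choose C hC using fun a => cls_surjective A (γ a)
  have h1 : ∀ a b : H, ∃ v : A.V, ∀ x, C b (x * a) - C (a * b) x + C a x = A.ρ x v := by
    intro a b
    have := hγ a b
    rw [← hC, ← hC, ← hC, up_ρ_cls, cls, cls, cls, ← Submodule.Quotient.mk_add, ← cls, ← cls,
      cls_eq_cls_iff] at this
    obtain ⟨v, hv⟩ := this
    refine ⟨-v, fun x => ?_⟩
    rw [map_neg, ← hv x]
    simp only [Pi.add_apply]
    abel
  choose f hf using h1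
  have hcoc : ∀ a b c : H, f (a * b) c + f a b = A.ρ a (f b c) + f a (b * c) := by
    intro a b c
    have e1 := hf (a * b) c 1
    have e2 := hf a b 1
    have e3 := hf b c a
    have e4 := hf a (b * c) 1
    simp only [one_mul, map_one, Module.End.one_apply, Subgroup.coe_mul] at e1 e2 e3 e4
    rw [← e1, ← e2, ← e3, ← e4]
    simp only [mul_assoc]
    abel
  obtain ⟨n, y, hny⟩ := gen (fun p => f p.1 p.2) hcoc
  obtain ⟨b₀, hb₀⟩ := fun_H1 H (fun a x => C a x - n • u (x, a) - A.ρ x (y a)) (by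
    intro a b x
    have e1 := hf a b x
    have e2 := hny a b
    have e3 := u_key hu a b x
    simp only at e2
    have e4 : A.ρ x (f a b) = n • A.ρ x (u (a, b)) +
        (A.ρ (x * a) (y b) - A.ρ x (y (a * b)) + A.ρ x (y a)) := by
      rw [e2]; simp [map_add, map_sub, map_smul, map_mul]
    rw [← e3] at e4
    rw [e4] at e1
    simp only [Subgroup.coe_mul, smul_add, smul_sub] at e1 ⊢
    rw [← sub_eq_zero] at e1 ⊢
    rw [← neg_eq_zero, ← e1]; abel)
  refine ⟨n, cls A b₀, fun a => ?_⟩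
  rw [← hC a, up_ρ_cls, shiftCocycle]
  simp only [cls]
  rw [← Submodule.Quotient.mk_smul, ← Submodule.Quotient.mk_sub, ← Submodule.Quotient.mk_add,
    ← cls, ← cls, cls_eq_cls_iff]
  refine ⟨y a, fun x => ?_⟩
  have := hb₀ a x
  simp only [Pi.add_apply, Pi.sub_apply, Pi.smul_apply]
  rw [← sub_eq_zero] at this ⊢
  rw [← this]; abel

include hu in
/-- (S1b): if `n • u'` restricted to `H` is a coboundary of `up A`, then `n • u` restricted to `H`
is a coboundary of `A`. -/
theorem shift_ord (H : Subgroup G) (n : k) (v : (up A).V)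
    (hv : ∀ a : H, n • shiftCocycle A u a = (up A).ρ a v - v) :
    ∃ y : H → A.V, ∀ a b : H, n • u (a, b) = A.ρ a (y b) - y (a * b) + y a := by
  obtain ⟨b₀, rfl⟩ := cls_surjective A v
  have h1 : ∀ a : H, ∃ w : A.V, ∀ x, n • u (x, a) - (b₀ (x * a) - b₀ x) = A.ρ x w := by
    intro a
    have := hv a
    rw [up_ρ_cls, shiftCocycle] at this
    simp only [cls] at this
    rw [← Submodule.Quotient.mk_smul, ← Submodule.Quotient.mk_sub, ← cls, ← cls,
      cls_eq_cls_iff] at this
    exact this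
  choose y hy using h1
  refine ⟨y, fun a b => ?_⟩
  have e1 := hy b a
  have e2 := hy (a * b) 1
  have e3 := hy a 1
  have e4 : u (1, ((a * b : H) : G)) = u (1, (a : G)) :=
    (cocycles₂_map_one_fst (⟨u, hu⟩ : cocycles₂ A) _).trans
      (cocycles₂_map_one_fst (⟨u, hu⟩ : cocycles₂ A) _).symm
  simp only [one_mul, map_one, Module.End.one_apply] at e2 e3
  rw [← e1, ← e2, ← e3, e4]
  simp only [Subgroup.coe_mul]
  abel

end Shift

/-- **Tate's theorem in degree 3, explicit generic form.**  `G` finite, `A : Rep k G`, `u` a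
2-cocycle.  Assume for every subgroup `H`: `Hom(H, k) = 0`, `H¹(H, A) = 0`, every 2-cocycle of `H`
is cohomologous to a multiple of `u|_H`, and `n • u|_H` is a coboundary only if `|H|` divides `n`.
Then `H³(G, A) = 0`. -/
theorem tateH3_generic [Finite G] (A : Rep.{0} k G) (u : G × G → A.V) (hu : u ∈ cocycles₂ A)
    (tf : ∀ (H : Subgroup G) (φ : H → k), (∀ a b, φ (a * b) = φ a + φ b) → ∀ a, φ a = 0)
    (h1 : ∀ H : Subgroup G, H1Zero A H)
    (gen : ∀ (H : Subgroup G) (f : H × H → A.V),
      (∀ a b c : H, f (a * b, c) + f (a, b) = A.ρ a (f (b, c)) + f (a, b * c)) →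
      ∃ (n : k) (y : H → A.V), ∀ a b : H,
        f (a, b) = n • u (a, b) + (A.ρ a (y b) - y (a * b) + y a))
    (ord : ∀ (H : Subgroup G) (n : k) (y : H → A.V),
      (∀ a b : H, n • u (a, b) = A.ρ a (y b) - y (a * b) + y a) →
      ∃ m : k, n = (Nat.card H : k) * m) :
    IsZero (groupCohomology A 3) := by
  have hc := shiftCocycle_mem A u hu
  have hE0 : ∀ H : Subgroup G, TateH0Zero (ext (up A) (shiftCocycle A u) hc) H := fun H =>
    tateH0Zero_ext (up A) (shiftCocycle A u) hc H
      (fun n v hv => by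
        obtain ⟨y, hy⟩ := shift_ord A u hu H n v hv
        exact ord H n y hy)
      (tateH0Zero_up A H (h1 H))
  have hE1 : ∀ H : Subgroup G,
      IsZero (groupCohomology (Rep.res H.subtype (ext (up A) (shiftCocycle A u) hc)) 1) :=
    fun H => isZero_H1_of_h1Zero _ H
      (h1Zero_ext (up A) (shiftCocycle A u) hc H (tf H) (shift_gen A u hu H (gen H)))
  have hE2 := nakayama2 _ hE0 hE1
  have hB2 := isZero_H2_of_ext (up A) (shiftCocycle A u) hc
    (fun φ hφ g => tf ⊤ (fun a => φ a) (fun a b => hφ a b) ⟨g, Subgroup.mem_top g⟩) hE2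
  exact isZero_H3_of_isZero_H2_up A hB2

/-- additive maps from a finite group to `ℤ` vanish. -/
lemma int_hom_eq_zero {H : Type} [Group H] [Finite H] (φ : H → ℤ)
    (hφ : ∀ a b, φ (a * b) = φ a + φ b) (a : H) : φ a = 0 := by
  have h1 : φ 1 = 0 := by
    have := hφ 1 1
    rw [one_mul] at this
    omega
  have hpow : ∀ n : ℕ, φ (a ^ n) = n * φ a := by
    intro n
    induction n with
    | zero => simp [h1]
    | succ n ih => rw [pow_succ, hφ, ih]; push_cast; ring
  have h2 := hpow (Nat.card H)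
  rw [pow_card_eq_one', h1] at h2
  have hpos : (0 : ℤ) < Nat.card H := by exact_mod_cast Nat.card_pos
  rcases mul_eq_zero.1 h2.symm with h | h
  · omega
  · exact h

/-- order of a generator of a finite group given by its cardinality. -/
lemma dvd_of_zsmul_eq_zero_of_generator {M : Type*} [AddCommGroup M] (γ : M) (N : ℕ)
    (hgen : ∀ x : M, ∃ n : ℤ, x = n • γ) (hcard : Nat.card M = N) (n : ℤ) (hn : n • γ = 0) :
    (N : ℤ) ∣ n := by
  have htop : AddSubgroup.zmultiples γ = ⊤ := by
    rw [eq_top_iff]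
    intro x _
    obtain ⟨m, rfl⟩ := hgen x
    exact AddSubgroup.zsmul_mem_zmultiples γ m
  have h1 : addOrderOf γ = N := by
    rw [← Nat.card_zmultiples, htop, ← hcard]
    exact Nat.card_congr AddSubgroup.topEquiv.toEquiv
  rw [← h1]
  exact addOrderOf_dvd_iff_zsmul_eq_zero.2 hn

/-- from a relation in `H²(H, C)` to the explicit cocycle relation (general `k`). -/
lemma gen_of_H2 (C : Rep.{0} k G) (u₀ : cocycles₂ C) (H : Subgroup G) (f : H × H → C.V)
    (hf : f ∈ cocycles₂ (Rep.res H.subtype C)) (n : k)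
    (hn : H2π (Rep.res H.subtype C) ⟨f, hf⟩ =
      n • H2π (Rep.res H.subtype C) (mapCocycles₂ H.subtype (𝟙 (Rep.res H.subtype C)) u₀)) :
    ∃ y : H → C.V, ∀ a b : H,
      f (a, b) = n • u₀ ((a : G), (b : G)) + (C.ρ a (y b) - y (a * b) + y a) := by
  rw [← map_smul, H2π_eq_iff] at hn
  obtain ⟨y, hy⟩ := hn
  refine ⟨y, fun a b => ?_⟩
  have := congrFun hy (a, b)
  have e1 : (d₁₂ (Rep.res H.subtype C)).hom y (a, b) = C.ρ a (y b) - y (a * b) + y a := rfl
  rw [e1] at this
  rw [this]
  show f (a, b) = n • u₀ ((a : G), (b : G)) + (f (a, b) - n • u₀ ((a : G), (b : G)))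
  abel

/-- from the explicit coboundary relation to a relation in `H²(H, C)` (general `k`). -/
lemma H2_of_ord (C : Rep.{0} k G) (u₀ : cocycles₂ C) (H : Subgroup G) (n : k) (y : H → C.V)
    (hy : ∀ a b : H, n • u₀ ((a : G), (b : G)) = C.ρ a (y b) - y (a * b) + y a) :
    n • H2π (Rep.res H.subtype C) (mapCocycles₂ H.subtype (𝟙 (Rep.res H.subtype C)) u₀) = 0 := by
  rw [← map_smul, H2π_eq_zero_iff]
  refine ⟨y, funext fun p => ?_⟩
  obtain ⟨a, b⟩ := p
  exact (hy a b).symm

/-- **Tate's theorem in degree 3** in the shape of `Tate/Blocks.lean`. -/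
theorem tateH3 : Blocks.TateH3 := by
  intro G _ _ C u hH1 hcard hgen
  induction u using H2_induction_on with
  | h u₀ =>
  have hres : ∀ H : Subgroup G, Blocks.resMap H C 2 (H2π C u₀) =
      H2π (Blocks.resSub H C) (mapCocycles₂ H.subtype (𝟙 (Blocks.resSub H C)) u₀) := fun H =>
    H2π_comp_map_apply H.subtype (𝟙 (Blocks.resSub H C)) u₀
  have hresu : ∀ (H : Subgroup G) (a b : H),
      (mapCocycles₂ H.subtype (𝟙 (Blocks.resSub H C)) u₀) (a, b) = u₀ ((a : G), (b : G)) :=
    fun H a b => rfl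
  refine tateH3_generic (k := ℤ) C u₀.1 u₀.2 (fun H φ hφ a => int_hom_eq_zero φ hφ a)
    (fun H => h1Zero_of_isZero C H (hH1 H)) ?_ ?_
  · intro H f hf
    have hmem : f ∈ cocycles₂ (Blocks.resSub H C) :=
      (mem_cocycles₂_iff (A := Blocks.resSub H C) f).2 hf
    obtain ⟨n, hn⟩ := hgen H (H2π _ ⟨f, hmem⟩)
    rw [hres H] at hn
    exact ⟨n, gen_of_H2 C u₀ H f hmem n
      (hn.trans (int_smul_eq_zsmul (ModuleCat.isModule _) n _).symm)⟩
  · intro H n y hy
    have h0 := H2_of_ord C u₀ H n y hy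
    have h0' : n • Blocks.resMap H C 2 (H2π C u₀) = 0 := by
      rw [hres H]
      exact (int_smul_eq_zsmul (ModuleCat.isModule _) n _).symm.trans h0
    obtain ⟨m, hm⟩ := dvd_of_zsmul_eq_zero_of_generator _ (Nat.card H) (hgen H) (hcard H) n h0'
    exact ⟨m, hm⟩


end Fermat.Agent.S55.Tate.H3VanishMain
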