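/-
S55 / TATE block, row 141 (InfRes3), shared core of steps (c) and (e) (helper77).

Naturality of the connecting homomorphism of group cohomology along a group homomorphism:
for `f : G →* H`, short exact sequences `X` in `Rep k H` and `Y` in `Rep k G`, and a morphism of
short complexes `φ : Res_f X ⟶ Y`,

  `δ_X ≫ map f φ.τ₁ = map f φ.τ₃ ≫ δ_Y`                                   (`δ_map`).

Corollaries: `δ_res_hom`, `δ_res`, `δ_res_apply` (restriction), `δ_inf`, `δ_inf_apply` (inflation from
`G ⧸ S`, GIVEN that the sequence of `S`-invariants is short exact), and the same in the vocabulary of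
`Tate/Blocks`: `resMap_δ`, `infMap_δ`.
-/
import Mathlib
import Fermat.Agent.S55.Tate.Blocks

set_option autoImplicit false

universe u

namespace Fermat.Agent.S55.Tate.DeltaMap

open CategoryTheory CategoryTheory.Limits groupCohomology Rep

variable {k G H : Type u} [CommRing k] [Group G] [Group H]

/-- The morphism of short complexes of cochain complexes induced by a group homomorphism
`f : G →* H` and a morphism `φ` from the restriction of `X` to `Y`. -/
noncomputable def cochainsShortComplexMap (f : G →* H) {X : ShortComplex (Rep k H)}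
    {Y : ShortComplex (Rep k G)} (φ : X.map (Rep.resFunctor f) ⟶ Y) :
    X.map (cochainsFunctor k H) ⟶ Y.map (cochainsFunctor k G) where
  τ₁ := cochainsMap f φ.τ₁
  τ₂ := cochainsMap f φ.τ₂
  τ₃ := cochainsMap f φ.τ₃
  comm₁₂ := by
    have h := φ.comm₁₂
    have e1 := cochainsMap_comp f (MonoidHom.id G) φ.τ₁ Y.f
    have e2 := cochainsMap_comp (MonoidHom.id H) f X.f φ.τ₂
    exact e1.symm.trans ((cochainsMap_congr rfl
      (congrArg (fun t => t.hom.toLinearMap) h)).trans e2)
  comm₂₃ := by
    have h := φ.comm₂₃
    have e1 := cochainsMap_comp f (MonoidHom.id G) φ.τ₂ Y.g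
    have e2 := cochainsMap_comp (MonoidHom.id H) f X.g φ.τ₃
    exact e1.symm.trans ((cochainsMap_congr rfl
      (congrArg (fun t => t.hom.toLinearMap) h)).trans e2)

/-- **Naturality of the connecting homomorphism along a group homomorphism.** -/
theorem δ_map (f : G →* H) {X : ShortComplex (Rep k H)} {Y : ShortComplex (Rep k G)}
    (hX : X.ShortExact) (hY : Y.ShortExact) (φ : X.map (Rep.resFunctor f) ⟶ Y)
    (i j : ℕ) (hij : i + 1 = j) :
    groupCohomology.δ hX i j hij ≫ groupCohomology.map f φ.τ₁ j =
      groupCohomology.map f φ.τ₃ i ≫ groupCohomology.δ hY i j hij :=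
  HomologicalComplex.HomologySequence.δ_naturality (cochainsShortComplexMap f φ)
    (map_cochainsFunctor_shortExact hX) (map_cochainsFunctor_shortExact hY) i j hij


/-! ### (c) restriction along a group homomorphism / to a subgroup -/

/-- `δ` commutes with restriction along any group homomorphism `f : G →* H`. -/
theorem δ_res_hom (f : G →* H) {X : ShortComplex (Rep k H)} (hX : X.ShortExact)
    (i j : ℕ) (hij : i + 1 = j) :
    groupCohomology.δ hX i j hij ≫ groupCohomology.map f (𝟙 (Rep.res f X.X₁)) j =
      groupCohomology.map f (𝟙 (Rep.res f X.X₃)) i ≫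
        groupCohomology.δ (X := X.map (Rep.resFunctor f)) ((Rep.shortExact_res f).2 hX) i j hij :=
  δ_map f hX ((Rep.shortExact_res f).2 hX) (𝟙 _) i j hij

/-- `δ` commutes with restriction to a subgroup. -/
theorem δ_res (S : Subgroup H) {X : ShortComplex (Rep k H)} (hX : X.ShortExact)
    (i j : ℕ) (hij : i + 1 = j) :
    groupCohomology.δ hX i j hij ≫
        groupCohomology.map S.subtype (𝟙 (Rep.res S.subtype X.X₁)) j =
      groupCohomology.map S.subtype (𝟙 (Rep.res S.subtype X.X₃)) i ≫
        groupCohomology.δ (X := X.map (Rep.resFunctor S.subtype))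
          ((Rep.shortExact_res S.subtype).2 hX) i j hij :=
  δ_res_hom S.subtype hX i j hij

/-- Elementwise form of `δ_res`. -/
theorem δ_res_apply (S : Subgroup H) {X : ShortComplex (Rep k H)} (hX : X.ShortExact)
    (i j : ℕ) (hij : i + 1 = j) (x : groupCohomology X.X₃ i) :
    groupCohomology.map S.subtype (𝟙 (Rep.res S.subtype X.X₁)) j
        (groupCohomology.δ hX i j hij x) =
      groupCohomology.δ (X := X.map (Rep.resFunctor S.subtype))
          ((Rep.shortExact_res S.subtype).2 hX) i j hij
        (groupCohomology.map S.subtype (𝟙 (Rep.res S.subtype X.X₃)) i x) := by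
  exact ConcreteCategory.congr_hom (δ_res S hX i j hij) x

/-! ### (e) inflation from a quotient -/

/-- The inclusion `A^S ⟶ A`, as a morphism from the restriction of the `G ⧸ S`-representation `A^S`
along `G → G ⧸ S`. -/
noncomputable def invIncl (S : Subgroup H) [S.Normal] (A : Rep k H) :
    Rep.res (QuotientGroup.mk' S) (A.quotientToInvariants S) ⟶ A :=
  Rep.ofHom (A.ρ.quotientToInvariants_lift S)

instance quotientToInvariantsFunctor_preservesZeroMorphisms (S : Subgroup H) [S.Normal] :
    (Rep.quotientToInvariantsFunctor k S).PreservesZeroMorphisms where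
  map_zero _ _ := by
    ext x
    rfl

/-- The morphism of short complexes `Res (Y^S) ⟶ Y`. -/
noncomputable def infShortComplexMap (S : Subgroup H) [S.Normal] (Y : ShortComplex (Rep k H)) :
    (Y.map (Rep.quotientToInvariantsFunctor k S)).map (Rep.resFunctor (QuotientGroup.mk' S)) ⟶ Y
    where
  τ₁ := invIncl S Y.X₁
  τ₂ := invIncl S Y.X₂
  τ₃ := invIncl S Y.X₃
  comm₁₂ := by
    ext x
    rfl
  comm₂₃ := by
    ext x
    rfl

/-- `δ` commutes with inflation: for a short exact sequence `Y` of `G`-modules whose sequence of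
`S`-invariants is again short exact, `inf ∘ δ_{G/S} = δ_G ∘ inf`. -/
theorem δ_inf (S : Subgroup H) [S.Normal] {Y : ShortComplex (Rep k H)} (hY : Y.ShortExact)
    (hYS : (Y.map (Rep.quotientToInvariantsFunctor k S)).ShortExact)
    (i j : ℕ) (hij : i + 1 = j) :
    groupCohomology.δ hYS i j hij ≫
        groupCohomology.map (QuotientGroup.mk' S) (invIncl S Y.X₁) j =
      groupCohomology.map (QuotientGroup.mk' S) (invIncl S Y.X₃) i ≫
        groupCohomology.δ hY i j hij :=
  δ_map (QuotientGroup.mk' S) hYS hY (infShortComplexMap S Y) i j hij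

/-- Elementwise form of `δ_inf`. -/
theorem δ_inf_apply (S : Subgroup H) [S.Normal] {Y : ShortComplex (Rep k H)} (hY : Y.ShortExact)
    (hYS : (Y.map (Rep.quotientToInvariantsFunctor k S)).ShortExact)
    (i j : ℕ) (hij : i + 1 = j) (x : groupCohomology (Y.X₃.quotientToInvariants S) i) :
    groupCohomology.map (QuotientGroup.mk' S) (invIncl S Y.X₁) j
        (groupCohomology.δ hYS i j hij x) =
      groupCohomology.δ hY i j hij
        (groupCohomology.map (QuotientGroup.mk' S) (invIncl S Y.X₃) i x) := by
  exact ConcreteCategory.congr_hom (δ_inf S hY hYS i j hij) x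


/-! ### The same in the vocabulary of `Tate/Blocks` -/

open Fermat.Agent.S55.Tate in
/-- (c) RES-COMPAT, `Blocks` vocabulary: `res (δ_G x) = δ_S (res x)`. -/
theorem resMap_δ {G : Type} [Group G] (S : Subgroup G) {X : ShortComplex (Rep ℤ G)}
    (hX : X.ShortExact) (i j : ℕ) (hij : i + 1 = j) (x : groupCohomology X.X₃ i) :
    Blocks.resMap S X.X₁ j (groupCohomology.δ hX i j hij x) =
      groupCohomology.δ (X := X.map (Rep.resFunctor S.subtype))
        ((Rep.shortExact_res S.subtype).2 hX) i j hij (Blocks.resMap S X.X₃ i x) :=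
  δ_res_apply S hX i j hij x

open Fermat.Agent.S55.Tate in
/-- (e) INF-COMPAT, `Blocks` vocabulary: `inf (δ_{G/S} x) = δ_G (inf x)`. -/
theorem infMap_δ {G : Type} [Group G] (S : Subgroup G) [S.Normal] {Y : ShortComplex (Rep ℤ G)}
    (hY : Y.ShortExact) (hYS : (Y.map (Rep.quotientToInvariantsFunctor ℤ S)).ShortExact)
    (i j : ℕ) (hij : i + 1 = j) (x : groupCohomology (Y.X₃.quotientToInvariants S) i) :
    Blocks.infMap S Y.X₁ j (groupCohomology.δ hYS i j hij x) =
      groupCohomology.δ hY i j hij (Blocks.infMap S Y.X₃ i x) :=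
  δ_inf_apply S hY hYS i j hij x

end Fermat.Agent.S55.Tate.DeltaMap
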