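/-
S55 / TATE block (helper35): element-level forms of Mathlib's long exact sequence in group
cohomology, for `Rep ℤ G`.
-/
import Mathlib
import Fermat.Agent.S55.Tate.Blocks

set_option autoImplicit false

namespace Fermat.Agent.S55.Tate.LES

open CategoryTheory CategoryTheory.Limits groupCohomology Rep

variable {G : Type} [Group G] {X : ShortComplex (Rep ℤ G)} (hX : X.ShortExact)

/-- `H^n(X₁) → H^n(X₂) → H^n(X₃)` is a complex. -/
theorem map_g_map_f (n : ℕ) (x : groupCohomology X.X₁ n) :
    groupCohomology.map (MonoidHom.id G) X.g n (groupCohomology.map (MonoidHom.id G) X.f n x) = 0 :=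
  (groupCohomology.mapShortComplex₂ X n).moduleCat_zero_apply x

include hX in
/-- `δ ∘ g_* = 0`. -/
theorem δ_map_g (n : ℕ) (y : groupCohomology X.X₂ n) :
    groupCohomology.δ hX n (n + 1) rfl (groupCohomology.map (MonoidHom.id G) X.g n y) = 0 :=
  (groupCohomology.mapShortComplex₃ hX (i := n) (j := n + 1) rfl).moduleCat_zero_apply y

include hX in
/-- `f_* ∘ δ = 0`. -/
theorem map_f_δ (n : ℕ) (y : groupCohomology X.X₃ n) :
    groupCohomology.map (MonoidHom.id G) X.f (n + 1) (groupCohomology.δ hX n (n + 1) rfl y) = 0 :=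
  (groupCohomology.mapShortComplex₁ hX (i := n) (j := n + 1) rfl).moduleCat_zero_apply y

include hX in
/-- exactness at `H^{n+1}(X₁)`. -/
theorem exists_δ_eq (n : ℕ) (x : groupCohomology X.X₁ (n + 1))
    (hx : groupCohomology.map (MonoidHom.id G) X.f (n + 1) x = 0) :
    ∃ y : groupCohomology X.X₃ n, groupCohomology.δ hX n (n + 1) rfl y = x :=
  (ShortComplex.moduleCat_exact_iff _).1
    (groupCohomology.mapShortComplex₁_exact hX (i := n) (j := n + 1) rfl) x hx

include hX in
/-- exactness at `H^n(X₂)`. -/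
theorem exists_map_f_eq (n : ℕ) (x : groupCohomology X.X₂ n)
    (hx : groupCohomology.map (MonoidHom.id G) X.g n x = 0) :
    ∃ y : groupCohomology X.X₁ n, groupCohomology.map (MonoidHom.id G) X.f n y = x :=
  (ShortComplex.moduleCat_exact_iff _).1 (groupCohomology.mapShortComplex₂_exact hX n) x hx

include hX in
/-- exactness at `H^n(X₃)`. -/
theorem exists_map_g_eq (n : ℕ) (x : groupCohomology X.X₃ n)
    (hx : groupCohomology.δ hX n (n + 1) rfl x = 0) :
    ∃ y : groupCohomology X.X₂ n, groupCohomology.map (MonoidHom.id G) X.g n y = x :=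
  (ShortComplex.moduleCat_exact_iff _).1
    (groupCohomology.mapShortComplex₃_exact hX (i := n) (j := n + 1) rfl) x hx

/-- `IsZero` of a `ModuleCat` object, element form. -/
theorem eq_zero_of_isZero {M : ModuleCat ℤ} (h : IsZero M) (x : M) : x = 0 := by
  have := (ModuleCat.isZero_iff_subsingleton (M := M)).1 h
  exact Subsingleton.elim _ _

theorem isZero_of_forall_eq_zero {M : ModuleCat ℤ} (h : ∀ x : M, x = 0) : IsZero M := by
  rw [ModuleCat.isZero_iff_subsingleton]
  exact ⟨fun a b => (h a).trans (h b).symm⟩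

end Fermat.Agent.S55.Tate.LES
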