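/-
S55 / TATE block, internal rows `CyclicH1H3` and `Transport` of `Tate/Blocks.lean` (helper68).

* `cyclicH1H3 : Blocks.CyclicH1H3` — for a finite cyclic group, `H¹(G, A) = 0 → H³(G, A) = 0`
  (both are the homology of `A --(g - 1)--> A --N--> A`, Mathlib `groupCohomologyIsoOdd`).
* `transport : Blocks.Transport` — cohomology of `res f A` for an injective `f : H' →* G` is the
  cohomology of the restriction to the subgroup `f.range`.
-/
import Mathlib
import Fermat.Agent.S55.Tate.Blocks

set_option autoImplicit false

namespace Fermat.Agent.S55.Tate.CyclicTransport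

open CategoryTheory CategoryTheory.Limits groupCohomology Rep Fermat.Agent.S55.Tate.Blocks

/-- Odd-degree cohomology groups of a finite cyclic group are all isomorphic. -/
theorem isZero_odd_of_isZero_odd {G : Type} [Group G] [Finite G] [IsCyclic G] (A : Rep ℤ G)
    {i j : ℕ} (hi : Odd i) (hj : Odd j) (h : IsZero (groupCohomology A i)) :
    IsZero (groupCohomology A j) := by
  obtain ⟨g, hg⟩ := IsCyclic.exists_generator (α := G)
  let _ : CommGroup G := IsCyclic.commGroup
  let _ : Fintype G := Fintype.ofFinite G
  have ei := Rep.FiniteCyclicGroup.groupCohomologyIsoOdd A g hg i hi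
  have ej := Rep.FiniteCyclicGroup.groupCohomologyIsoOdd A g hg j hj
  exact (h.of_iso ei.symm).of_iso ej

/-- Positive even-degree cohomology groups of a finite cyclic group are all isomorphic. -/
theorem isZero_even_of_isZero_even {G : Type} [Group G] [Finite G] [IsCyclic G] (A : Rep ℤ G)
    {i j : ℕ} (hi0 : i ≠ 0) (hj0 : j ≠ 0) (hi : Even i) (hj : Even j)
    (h : IsZero (groupCohomology A i)) : IsZero (groupCohomology A j) := by
  obtain ⟨g, hg⟩ := IsCyclic.exists_generator (α := G)
  let _ : CommGroup G := IsCyclic.commGroup
  let _ : Fintype G := Fintype.ofFinite G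
  have : NeZero i := ⟨hi0⟩
  have : NeZero j := ⟨hj0⟩
  have ei := Rep.FiniteCyclicGroup.groupCohomologyIsoEven A g hg i hi
  have ej := Rep.FiniteCyclicGroup.groupCohomologyIsoEven A g hg j hj
  exact (h.of_iso ei.symm).of_iso ej

/-- **Row (T.cyc).** -/
theorem cyclicH1H3 : CyclicH1H3 := by
  intro G _ _ _ A h1
  exact isZero_odd_of_isZero_odd A (by decide) (by decide) h1

/-- The cohomology of `res f A` for injective `f` is the cohomology of the restriction to
`f.range`. -/
noncomputable def transportIso {G H' : Type} [Group G] [Group H'] (f : H' →* G)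
    (hf : Function.Injective f) (A : Rep ℤ G) (n : ℕ) :
    groupCohomology (Rep.res f A) n ≅ groupCohomology (resSub f.range A) n :=
  groupCohomology.mapIso (A := resSub f.range A) (B := Rep.res f A)
    (MonoidHom.ofInjective hf)
    (@LinearEquiv.refl ℤ (Rep.res f A).V _ _ (Rep.res f A).hV2)
    (fun _ => rfl) n

/-- **Row (T.transport).** -/
theorem transport : Transport := by
  intro G H' _ _ f hf A n h
  exact h.of_iso (transportIso f hf A n)

end Fermat.Agent.S55.Tate.CyclicTransport
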