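/-
S55 / TATE block (helper35): naturality of the connecting homomorphism of group cohomology with
respect to a CHANGE OF GROUP (covers restriction and inflation).
-/
import Mathlib

set_option autoImplicit false

namespace Fermat.Agent.S55.Tate.DeltaNat

open CategoryTheory CategoryTheory.Limits groupCohomology Rep

variable {k G H : Type} [CommRing k] [Group G] [Group H]

/-- Let `f : H →* G`, let `X` be a short exact sequence of `G`-representations, `Y` a short exact
sequence of `H`-representations and `φᵢ : Res_f Xᵢ ⟶ Yᵢ` a morphism of sequences. Then the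
connecting homomorphisms commute with the induced maps `Hⁿ(G, Xᵢ) ⟶ Hⁿ(H, Yᵢ)`. -/
theorem δ_naturality_of_hom (f : H →* G) {X : ShortComplex (Rep k G)} (hX : X.ShortExact)
    {Y : ShortComplex (Rep k H)} (hY : Y.ShortExact)
    (φ₁ : Rep.res f X.X₁ ⟶ Y.X₁) (φ₂ : Rep.res f X.X₂ ⟶ Y.X₂) (φ₃ : Rep.res f X.X₃ ⟶ Y.X₃)
    (h₁₂ : (Rep.resFunctor f).map X.f ≫ φ₂ = φ₁ ≫ Y.f)
    (h₂₃ : (Rep.resFunctor f).map X.g ≫ φ₃ = φ₂ ≫ Y.g)
    (i j : ℕ) (hij : i + 1 = j) :
    groupCohomology.δ hX i j hij ≫ groupCohomology.map f φ₁ j =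
      groupCohomology.map f φ₃ i ≫ groupCohomology.δ hY i j hij := by
  let Φ : X.map (cochainsFunctor k G) ⟶ Y.map (cochainsFunctor k H) :=
    { τ₁ := cochainsMap f φ₁
      τ₂ := cochainsMap f φ₂
      τ₃ := cochainsMap f φ₃
      comm₁₂ := by
        show cochainsMap f φ₁ ≫ cochainsMap (MonoidHom.id H) Y.f =
          cochainsMap (MonoidHom.id G) X.f ≫ cochainsMap f φ₂
        have e1 : cochainsMap (MonoidHom.id G) X.f ≫ cochainsMap f φ₂ =
            cochainsMap f ((Rep.resFunctor f).map X.f ≫ φ₂) := rfl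
        have e2 : cochainsMap f φ₁ ≫ cochainsMap (MonoidHom.id H) Y.f =
            cochainsMap f (φ₁ ≫ Y.f) := rfl
        rw [e1, e2, h₁₂]
      comm₂₃ := by
        show cochainsMap f φ₂ ≫ cochainsMap (MonoidHom.id H) Y.g =
          cochainsMap (MonoidHom.id G) X.g ≫ cochainsMap f φ₃
        have e1 : cochainsMap (MonoidHom.id G) X.g ≫ cochainsMap f φ₃ =
            cochainsMap f ((Rep.resFunctor f).map X.g ≫ φ₃) := rfl
        have e2 : cochainsMap f φ₂ ≫ cochainsMap (MonoidHom.id H) Y.g =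
            cochainsMap f (φ₂ ≫ Y.g) := rfl
        rw [e1, e2, h₂₃] }
  exact HomologicalComplex.HomologySequence.δ_naturality Φ
    (map_cochainsFunctor_shortExact hX) (map_cochainsFunctor_shortExact hY) i j hij

end Fermat.Agent.S55.Tate.DeltaNat
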