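/-
S55 / TATE block, row 143 (second seat, helper92): the AUGMENTATION-IDEAL half of the splitting
module.

* `R G = Coind_1^G ℤ` (literally the object of `Blocks.CoindAcyclic` for `A = ℤ`): all functions
  `G → ℤ`, `(g • f) x = f (x * g)`; the group-ring element `σ` is `single G σ⁻¹`, `e G = single G 1`.
* `aug : R G ⟶ ℤ`, `augRep G = I_G = ker aug`, `augSC G : I_G ⟶ R G ⟶ ℤ` short exact.
* for `H ≤ G`: the 1-cocycle `gammaCocycle H : h ↦ h • e - e` and its class `gamma H`;
  `aug_package` : given `Blocks.CoindAcyclic`: `H²(H, I_G) = 0`, `γ_H` generates `H¹(H, I_G)`,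
  `|H| • γ_H = 0`.
* basis expansion / linear extension `liftR` for the module half.

Mathlib + `Tate/Blocks` only.
-/
import Mathlib
import Fermat.Agent.S55.Tate.Blocks

set_option autoImplicit false

namespace Fermat.Agent.S55.Tate.SplittingAug

open CategoryTheory CategoryTheory.Limits groupCohomology Rep
open Fermat.Agent.S55.Tate.Blocks

/-- A short complex of representations is short exact as soon as it is so on underlying
modules, elementwise. -/
theorem shortExact_of_elementwise {k G : Type} [CommRing k] [Group G]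
    (S : ShortComplex (Rep.{0} k G))
    (hf : Function.Injective S.f.hom) (hg : Function.Surjective S.g.hom)
    (hex : ∀ x : S.X₂, S.g.hom x = 0 → ∃ y : S.X₁, S.f.hom y = x) : S.ShortExact := by
  refine { exact := ?_, mono_f := (Rep.mono_iff_injective _).2 hf,
           epi_g := (Rep.epi_iff_surjective _).2 hg }
  rw [← ShortComplex.exact_map_iff_of_faithful S (forget₂ (Rep k G) (ModuleCat k))]
  rw [ShortComplex.moduleCat_exact_iff]
  intro x hx
  obtain ⟨y, hy⟩ := hex x hx
  exact ⟨y, hy⟩

variable (G : Type) [Group G]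

/-- `R G = Coind_1^G ℤ`: all functions `G → ℤ`, `(g • f) x = f (x * g)`. This is literally the
object appearing in `Blocks.CoindAcyclic` for `A = ℤ`. -/
noncomputable abbrev R : Rep ℤ G :=
  Rep.coind (⊥ : Subgroup G).subtype (resSub (⊥ : Subgroup G) (Rep.trivial ℤ G ℤ))

/-- every function is an element of `R G`. -/
noncomputable def mkR (f : G → ℤ) : R G :=
  ⟨f, fun u x => by
    have hu : (u : G) = 1 := Subgroup.mem_bot.1 u.2
    simp [hu]⟩

@[simp] theorem mkR_apply (f : G → ℤ) (x : G) : (mkR G f).1 x = f x := rfl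

theorem R_ρ_apply (g : G) (f : R G) (x : G) : ((R G).ρ g f).1 x = f.1 (x * g) := rfl

variable [Finite G]

/-- the augmentation `f ↦ ∑ₓ f x` as a linear map. -/
noncomputable def augLin : (R G).V →ₗ[ℤ] ℤ :=
  letI : Fintype G := Fintype.ofFinite G
  { toFun := fun f => ∑ x, f.1 x
    map_add' := fun f f' => by
      simp only [Submodule.coe_add, Pi.add_apply, Finset.sum_add_distrib]
    map_smul' := fun c f => by
      simp only [Submodule.coe_smul, Pi.smul_apply, Finset.smul_sum, RingHom.id_apply] }

theorem augLin_apply [Fintype G] (f : R G) : augLin G f = ∑ x, f.1 x := by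
  unfold augLin
  simp only [LinearMap.coe_mk, AddHom.coe_mk]
  exact Finset.sum_congr (by ext; simp) (fun _ _ => rfl)

theorem augLin_ρ (g : G) (f : R G) : augLin G ((R G).ρ g f) = augLin G f := by
  let _ : Fintype G := Fintype.ofFinite G
  rw [augLin_apply, augLin_apply]
  exact Fintype.sum_equiv (Equiv.mulRight g) _ _ (fun x => rfl)

/-- the augmentation as a morphism of representations `R G ⟶ ℤ`. -/
noncomputable def aug : R G ⟶ Rep.trivial ℤ G ℤ :=
  Rep.ofHom ⟨augLin G, fun g => by
    ext f
    exact augLin_ρ G g f⟩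

theorem aug_hom_apply (f : R G) : (aug G).hom f = augLin G f := rfl

theorem ker_augLin_le_comap (g : G) :
    LinearMap.ker (augLin G) ≤ (LinearMap.ker (augLin G)).comap ((R G).ρ g) := by
  intro f hf
  rw [Submodule.mem_comap, LinearMap.mem_ker, augLin_ρ]
  exact hf

/-- the augmentation ideal `I_G` as a representation. -/
noncomputable abbrev augRep : Rep ℤ G :=
  Rep.subrepresentation (R G) (LinearMap.ker (augLin G)) (ker_augLin_le_comap G)

/-- the inclusion `I_G ⟶ R G`. -/
noncomputable abbrev augι : augRep G ⟶ R G :=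
  Rep.subtype (R G) (LinearMap.ker (augLin G)) (ker_augLin_le_comap G)

theorem augι_hom_apply (x : augRep G) : (augι G).hom x = x.1 := rfl

theorem augι_comp_aug : augι G ≫ aug G = 0 := by
  ext x
  exact x.2

/-- the short complex `I_G ⟶ R G ⟶ ℤ`. -/
noncomputable abbrev augSC : ShortComplex (Rep ℤ G) :=
  ShortComplex.mk (augι G) (aug G) (augι_comp_aug G)

/-- the function `δ_1`, i.e. the group ring element `1`. -/
noncomputable def e : R G := by
  classical
  exact mkR G (fun x => if x = 1 then 1 else 0)

omit [Finite G] in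
theorem e_apply [DecidableEq G] (x : G) : (e G).1 x = if x = 1 then 1 else 0 := by
  unfold e
  simp only [mkR_apply]
  congr

theorem augLin_e : augLin G (e G) = 1 := by
  classical
  let _ : Fintype G := Fintype.ofFinite G
  rw [augLin_apply]
  simp [e_apply]

theorem augSC_shortExact : (augSC G).ShortExact := by
  apply shortExact_of_elementwise
  · intro x y hxy
    exact Subtype.ext hxy
  · intro n
    refine ⟨n • e G, ?_⟩
    change augLin G (n • e G) = n
    rw [map_smul, augLin_e]; simp
  · intro x hx
    exact ⟨⟨x, hx⟩, rfl⟩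

variable {G}
variable (H : Subgroup G)

omit [Finite G] in
theorem resSub_ρ_apply (A : Rep ℤ G) (h : H) (a : A) :
    (resSub H A).ρ h a = A.ρ (h : G) a := rfl

/-- the function `h ↦ h • e - e` (i.e. `h - 1`) with values in `I_G`. -/
noncomputable def gammaFun (h : H) : resSub H (augRep G) :=
  (⟨(R G).ρ (h : G) (e G) - e G, by
    rw [LinearMap.mem_ker, map_sub, augLin_ρ, sub_self]⟩ : augRep G)

theorem gammaFun_val (h : H) :
    ((gammaFun H h : augRep G) : R G) = (R G).ρ (h : G) (e G) - e G := rfl

theorem augRep_ρ_val (g : G) (x : augRep G) :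
    (((augRep G).ρ g x : augRep G) : R G) = (R G).ρ g (x : R G) := rfl

theorem gammaFun_mem : gammaFun H ∈ cocycles₁ (resSub H (augRep G)) := by
  rw [mem_cocycles₁_iff]
  intro g h
  apply Subtype.ext
  rw [resSub_ρ_apply]
  change ((gammaFun H (g * h) : augRep G) : R G) =
    (((augRep G).ρ (g : G) (gammaFun H h) + gammaFun H g : augRep G) : R G)
  rw [Submodule.coe_add, augRep_ρ_val, gammaFun_val, gammaFun_val, gammaFun_val, map_sub,
    Subgroup.coe_mul, map_mul]
  simp

/-- the 1-cocycle `h ↦ h - 1` of `H` with values in `I_G`. -/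
noncomputable def gammaCocycle : cocycles₁ (resSub H (augRep G)) := ⟨gammaFun H, gammaFun_mem H⟩

/-- the class `γ_H ∈ H¹(H, I_G)`. -/
noncomputable def gamma : groupCohomology (resSub H (augRep G)) 1 :=
  H1π (resSub H (augRep G)) (gammaCocycle H)

/-- a cochain with values in `I_G` pushed to `R G`. -/
theorem mem_coboundaries₁_of_isZero
    (hR : IsZero (groupCohomology (resSub H (R G)) 1))
    (z : cocycles₁ (resSub H (augRep G))) :
    ∃ r : R G, ∀ h : H, (R G).ρ (h : G) r - r = ((z h : augRep G) : R G) := by
  -- push forward to `R G`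
  have hz : (fun h : H => (((z h : augRep G) : R G) : resSub H (R G))) ∈
      cocycles₁ (resSub H (R G)) := by
    rw [mem_cocycles₁_iff]
    intro g h
    have := (mem_cocycles₁_iff (A := resSub H (augRep G)) z).1 z.2 g h
    have h2 := congrArg (fun x : augRep G => (x : R G)) this
    exact h2
  have h0 : H1π (resSub H (R G)) ⟨_, hz⟩ = 0 :=
    (ModuleCat.subsingleton_of_isZero hR).elim _ _
  rw [H1π_eq_zero_iff] at h0
  obtain ⟨r, hr⟩ := h0
  exact ⟨r, fun h => congrFun hr h⟩

/-- `γ_H` generates `H¹(H, I_G)` as soon as `H¹(H, R G) = 0`. -/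
theorem gamma_generates (hR : IsZero (groupCohomology (resSub H (R G)) 1))
    (x : groupCohomology (resSub H (augRep G)) 1) : ∃ n : ℤ, x = n • gamma H := by
  induction x using H1_induction_on with
  | h z =>
  obtain ⟨r, hr⟩ := mem_coboundaries₁_of_isZero H hR z
  set n : ℤ := augLin G r with hn
  refine ⟨n, ?_⟩
  have hy : r - n • e G ∈ LinearMap.ker (augLin G) := by
    rw [LinearMap.mem_ker, map_sub, map_smul, augLin_e, ← hn]; simp
  let y : augRep G := ⟨r - n • e G, hy⟩
  rw [gamma, ← map_zsmul, ← sub_eq_zero, ← map_sub, H1π_eq_zero_iff]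
  refine ⟨(y : resSub H (augRep G)), ?_⟩
  funext h
  apply Subtype.ext
  change (R G).ρ (h : G) (r - n • e G) - (r - n • e G) =
    ((z h : augRep G) : R G) - n • ((gammaFun H h : augRep G) : R G)
  rw [gammaFun_val, ← hr h, map_sub, map_zsmul, smul_sub]
  abel

/-- `|H| • γ_H = 0` (explicit coboundary). -/
theorem card_smul_gamma : (Nat.card H : ℤ) • gamma H = 0 := by
  classical
  let _ : Fintype H := Fintype.ofFinite H
  set N : R G := ∑ h' : H, (R G).ρ (h' : G) (e G) with hN
  have hNinv : ∀ h : H, (R G).ρ (h : G) N = N := by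
    intro h
    rw [hN, map_sum]
    refine Fintype.sum_equiv (Equiv.mulLeft h) _ _ (fun h' => ?_)
    simp [Subgroup.coe_mul, map_mul]
  have hNaug : augLin G N = (Nat.card H : ℤ) := by
    rw [hN, map_sum, Finset.sum_congr rfl (fun h' _ => by rw [augLin_ρ, augLin_e]),
      Nat.card_eq_fintype_card]
    simp
  have hy : (Nat.card H : ℤ) • e G - N ∈ LinearMap.ker (augLin G) := by
    rw [LinearMap.mem_ker, map_sub, map_smul, augLin_e, hNaug]; simp
  let y : augRep G := ⟨(Nat.card H : ℤ) • e G - N, hy⟩
  rw [gamma, ← map_zsmul, H1π_eq_zero_iff]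
  refine ⟨(y : resSub H (augRep G)), ?_⟩
  funext h
  apply Subtype.ext
  change (R G).ρ (h : G) ((Nat.card H : ℤ) • e G - N) - ((Nat.card H : ℤ) • e G - N) =
    (Nat.card H : ℤ) • ((gammaFun H h : augRep G) : R G)
  rw [gammaFun_val, map_sub, map_zsmul, hNinv h, smul_sub]
  abel

omit [Finite G] in
/-- an additive function from a finite group to `ℤ` vanishes. -/
theorem eq_zero_of_additive {H' : Type} [Group H'] [Finite H'] (w : H' → ℤ)
    (hw : ∀ g h, w (g * h) = w g + w h) (h : H') : w h = 0 := by
  have h1 : w 1 = 0 := by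
    have := hw 1 1
    rw [mul_one] at this
    linarith
  have hpow : ∀ n : ℕ, w (h ^ n) = n * w h := by
    intro n
    induction n with
    | zero => simp [h1]
    | succ n ih => rw [pow_succ, hw, ih]; push_cast; ring
  have h2 := hpow (orderOf h)
  rw [pow_orderOf_eq_one, h1] at h2
  have hpos : (0 : ℤ) < orderOf h := by exact_mod_cast orderOf_pos h
  rcases mul_eq_zero.1 h2.symm with h3 | h3
  · omega
  · exact h3

/-- `H²(H, I_G) = 0` as soon as `H²(H, R G) = 0`. -/
theorem isZero_H2 (hR : IsZero (groupCohomology (resSub H (R G)) 2)) :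
    IsZero (groupCohomology (resSub H (augRep G)) 2) := by
  rw [ModuleCat.isZero_iff_subsingleton]
  refine ⟨fun x y => ?_⟩
  suffices h : ∀ x : groupCohomology (resSub H (augRep G)) 2, x = 0 by rw [h x, h y]
  intro x
  induction x using H2_induction_on with
  | h c =>
  -- push forward to `R G`
  have hc : (fun p : H × H => (((c p : augRep G) : R G) : resSub H (R G))) ∈
      cocycles₂ (resSub H (R G)) := by
    rw [mem_cocycles₂_iff]
    intro g h j
    have := (mem_cocycles₂_iff (A := resSub H (augRep G)) c).1 c.2 g h j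
    exact congrArg (fun x : augRep G => (x : R G)) this
  have h0 : H2π (resSub H (R G)) ⟨_, hc⟩ = 0 :=
    (ModuleCat.subsingleton_of_isZero hR).elim _ _
  rw [H2π_eq_zero_iff] at h0
  obtain ⟨b, hb⟩ := h0
  have hb' : ∀ g h : H, (R G).ρ (g : G) (b h) - b (g * h) + b g = ((c (g, h) : augRep G) : R G) :=
    fun g h => congrFun hb (g, h)
  have hw : ∀ h : H, augLin G (b h) = 0 := by
    refine eq_zero_of_additive (fun h => augLin G (b h)) (fun g h => ?_)
    have := congrArg (augLin G) (hb' g h)
    rw [map_add, map_sub, augLin_ρ] at this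
    have hc0 : augLin G ((c (g, h) : augRep G) : R G) = 0 := (c (g, h) : augRep G).2
    rw [hc0] at this
    linarith
  let b' : H → resSub H (augRep G) := fun h => (⟨b h, hw h⟩ : augRep G)
  rw [H2π_eq_zero_iff]
  refine ⟨b', ?_⟩
  funext p
  obtain ⟨g, h⟩ := p
  apply Subtype.ext
  exact hb' g h

/-! ### Packaged statements against `Blocks.CoindAcyclic` -/

omit [Finite G] in
theorem isZero_R (hC : CoindAcyclic) (n : ℕ) (hn : 0 < n) :
    IsZero (groupCohomology (resSub H (R G)) n) :=
  hC G (Rep.trivial ℤ G ℤ) H n hn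

/-- Everything `Blocks.SplittingModule` asks about `Q = I_G` except the `δ`-clause. -/
theorem aug_package (hC : CoindAcyclic) :
    IsZero (groupCohomology (resSub H (augRep G)) 2) ∧
      (∀ x : groupCohomology (resSub H (augRep G)) 1, ∃ n : ℤ, x = n • gamma H) ∧
      (Nat.card H : ℤ) • gamma H = 0 :=
  ⟨isZero_H2 H (isZero_R H hC 2 (by norm_num)),
    gamma_generates H (isZero_R H hC 1 (by norm_num)), card_smul_gamma H⟩

/-! ### Basis expansion in `R G` and linear extension (for the module half) -/

variable (G) in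
/-- the function `δ_x`; the group-ring element `σ` is `single σ⁻¹`. -/
noncomputable def single (x : G) : R G := by
  classical
  exact mkR G (Pi.single x 1)

omit [Finite G] in
theorem single_apply [DecidableEq G] (x y : G) : (single G x).1 y = if y = x then 1 else 0 := by
  unfold single
  simp only [mkR_apply, Pi.single_apply]
  congr

omit [Finite G] in
theorem e_eq_single : e G = single G 1 := by
  classical
  apply Subtype.ext
  funext y
  rw [e_apply, single_apply]

omit [Finite G] in
theorem ρ_single (g x : G) : (R G).ρ g (single G x) = single G (x * g⁻¹) := by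
  classical
  apply Subtype.ext
  funext y
  rw [R_ρ_apply, single_apply, single_apply]
  simp [eq_mul_inv_iff_mul_eq]

omit [Finite G] in
theorem eq_sum_single [Fintype G] (f : R G) : f = ∑ x, f.1 x • single G x := by
  classical
  apply Subtype.ext
  funext y
  rw [Submodule.coe_sum, Finset.sum_apply]
  simp [single_apply]

/-- the `ℤ`-linear map `R G → C` with `single x ↦ c x`. -/
noncomputable def liftR {C : Type} [AddCommGroup C] (c : G → C) : (R G).V →ₗ[ℤ] C :=
  letI : Fintype G := Fintype.ofFinite G
  { toFun := fun f => ∑ x, f.1 x • c x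
    map_add' := fun f f' => by
      simp only [Submodule.coe_add, Pi.add_apply, add_smul, Finset.sum_add_distrib]
    map_smul' := fun n f => by
      simp only [Submodule.coe_smul, Pi.smul_apply, smul_eq_mul, mul_smul, Finset.smul_sum,
        RingHom.id_apply] }

theorem liftR_apply [Fintype G] {C : Type} [AddCommGroup C] (c : G → C) (f : R G) :
    liftR c f = ∑ x, f.1 x • c x := by
  unfold liftR
  simp only [LinearMap.coe_mk, AddHom.coe_mk]
  exact Finset.sum_congr (by ext; simp) (fun _ _ => rfl)

theorem liftR_single {C : Type} [AddCommGroup C] (c : G → C) (x : G) :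
    liftR c (single G x) = c x := by
  classical
  let _ : Fintype G := Fintype.ofFinite G
  rw [liftR_apply]
  simp [single_apply]

/-- a linear extension of a constant function kills the augmentation ideal. -/
theorem liftR_const {C : Type} [AddCommGroup C] (c0 : C) (f : R G) :
    liftR (fun _ : G => c0) f = augLin G f • c0 := by
  let _ : Fintype G := Fintype.ofFinite G
  rw [liftR_apply, augLin_apply, Finset.sum_smul]

theorem liftR_const_of_mem_ker {C : Type} [AddCommGroup C] (c0 : C) (f : R G)
    (hf : f ∈ LinearMap.ker (augLin G)) : liftR (fun _ : G => c0) f = 0 := by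
  rw [liftR_const, LinearMap.mem_ker.1 hf, zero_smul]

end Fermat.Agent.S55.Tate.SplittingAug
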