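/-
S55 / TATE block, row 143 (Tate.split), second seat (helper68): the augmentation ideal.

`R G := Coind_1^G ℤ` (functions `G → ℤ`, `(g • f) x = f (x * g)`), `aug : R G ⟶ ℤ` the sum over the
finite group `G`, `augIdeal G := ker aug`, the short exact sequence
`0 → augIdeal G → R G → ℤ → 0` and, for every subgroup `H ≤ G`:

* `isZero_H2` : `H²(H, I_G) = 0`;
* `gamma H ∈ H¹(H, I_G)`, the class of `h ↦ δ_{h⁻¹} - δ_1`, generates `H¹(H, I_G)` and is killed by
  `|H|`.
-/
import Mathlib
import Fermat.Agent.S55.Tate.Blocks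

set_option autoImplicit false

namespace Fermat.Agent.S55.Tate.AugIdeal

open CategoryTheory CategoryTheory.Limits groupCohomology Rep Fermat.Agent.S55.Tate.Blocks

/-- exactness of a short complex of representations, elementwise (stated for a general
coefficient ring to avoid the `ℤ`-instance trap). -/
theorem exact_of_forall {k G : Type} [CommRing k] [Group G] (S : ShortComplex (Rep.{0} k G))
    (h : ∀ x : S.X₂, S.g.hom x = 0 → ∃ y : S.X₁, S.f.hom y = x) : S.Exact := by
  rw [← ShortComplex.exact_map_iff_of_faithful S (forget₂ (Rep.{0} k G) (ModuleCat.{0} k)),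
    ShortComplex.moduleCat_exact_iff]
  exact h

variable (G : Type) [Group G]

/-- `Coind_1^G ℤ`: all functions `G → ℤ` with `(g • f) x = f (x * g)`. -/
noncomputable abbrev R : Rep ℤ G :=
  Rep.coind (⊥ : Subgroup G).subtype (resSub (⊥ : Subgroup G) (Rep.trivial ℤ G ℤ))

variable {G}

/-- every function is in the coinduced module from the trivial subgroup. -/
lemma mem_coindV (f : G → ℤ) :
    f ∈ Representation.coindV (⊥ : Subgroup G).subtype
      (resSub (⊥ : Subgroup G) (Rep.trivial ℤ G ℤ)).ρ := by
  intro s h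
  have hs : (s : G) = 1 := Subgroup.mem_bot.1 s.2
  simp [hs]

/-- the element of `R G` given by a function. -/
noncomputable def mk (f : G → ℤ) : R G := ⟨f, mem_coindV f⟩

@[simp] lemma mk_apply (f : G → ℤ) (x : G) : (mk f).1 x = f x := rfl

lemma ρ_apply (g : G) (f : R G) (x : G) : ((R G).ρ g f).1 x = f.1 (x * g) := rfl

@[ext] lemma R_ext {f f' : R G} (h : ∀ x, f.1 x = f'.1 x) : f = f' :=
  Subtype.ext (funext h)

/-- the indicator function of `σ` (the classical basis element `[σ⁻¹]` of `ℤ[G]`). -/
noncomputable def delta (σ : G) : R G := by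
  classical exact mk (Pi.single σ 1)

@[simp] lemma delta_apply_self (σ : G) : (delta σ).1 σ = 1 := by
  classical
  simp only [delta, mk_apply, Pi.single_eq_same]

lemma delta_apply_of_ne {σ x : G} (h : x ≠ σ) : (delta σ).1 x = 0 := by
  classical
  simp only [delta, mk_apply, Pi.single_eq_of_ne h]

lemma ρ_delta (g σ : G) : (R G).ρ g (delta σ) = delta (σ * g⁻¹) := by
  ext x
  rw [ρ_apply]
  by_cases hx : x = σ * g⁻¹
  · subst hx
    rw [delta_apply_self, inv_mul_cancel_right, delta_apply_self]
  · rw [delta_apply_of_ne hx, delta_apply_of_ne]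
    intro h
    exact hx (by rw [← h, mul_inv_cancel_right])

lemma sum_delta [Fintype G] (σ : G) : ∑ x : G, (delta σ).1 x = 1 := by
  rw [Finset.sum_eq_single σ (fun x _ hx => delta_apply_of_ne hx)
    (fun h => absurd (Finset.mem_univ σ) h), delta_apply_self]

section Fintype

variable [Fintype G]

/-- the augmentation `f ↦ ∑ x, f x` as a linear map. -/
noncomputable def augLin : (R G).V →ₗ[ℤ] ℤ where
  toFun f := ∑ x : G, f.1 x
  map_add' f f' := by
    simp only [Submodule.coe_add, Pi.add_apply, Finset.sum_add_distrib]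
  map_smul' n f := by
    simp only [SetLike.val_smul, Pi.smul_apply, smul_eq_mul, Finset.mul_sum, RingHom.id_apply]

@[simp] lemma augLin_apply (f : R G) : augLin f = ∑ x : G, f.1 x := rfl

lemma augLin_ρ (g : G) (f : R G) : augLin ((R G).ρ g f) = augLin f := by
  show ∑ x : G, ((R G).ρ g f).1 x = ∑ x : G, f.1 x
  exact Fintype.sum_equiv (Equiv.mulRight g) _ _ (fun x => rfl)

variable (G) in
/-- the augmentation as a morphism of representations `R G ⟶ ℤ`. -/
noncomputable def aug : R G ⟶ Rep.trivial ℤ G ℤ :=
  Rep.ofHom ⟨augLin, fun g => by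
    ext f
    simp only [LinearMap.coe_comp, Function.comp_apply]
    exact augLin_ρ g f⟩

@[simp] lemma aug_hom_apply (f : R G) : (aug G).hom f = ∑ x : G, f.1 x := rfl

variable (G) in
/-- the kernel of the augmentation, as a submodule. -/
noncomputable def augKer : Submodule ℤ (R G).V := LinearMap.ker (augLin (G := G))

lemma mem_augKer {f : R G} : f ∈ augKer G ↔ ∑ x : G, f.1 x = 0 := Iff.rfl

lemma augKer_le_comap (g : G) : augKer G ≤ (augKer G).comap ((R G).ρ g) := by
  intro f hf
  rw [Submodule.mem_comap, mem_augKer]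
  have := augLin_ρ g f
  rw [augLin_apply, augLin_apply] at this
  rw [this]
  exact hf

variable (G) in
/-- **The augmentation ideal** `I_G` as a representation. -/
noncomputable abbrev augIdeal : Rep ℤ G :=
  Rep.subrepresentation (R G) (augKer G) augKer_le_comap

lemma augIdeal_ρ_coe (g : G) (f : augIdeal G) :
    (((augIdeal G).ρ g f : augIdeal G) : R G) = (R G).ρ g (f : R G) := rfl

variable (G) in
/-- the inclusion `I_G ⟶ R G`. -/
noncomputable abbrev incl : augIdeal G ⟶ R G := Rep.subtype (R G) (augKer G) augKer_le_comap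

lemma incl_comp_aug : incl G ≫ aug G = 0 := by
  ext f
  exact f.2

variable (G) in
/-- the short complex `0 → I_G → R G → ℤ → 0`. -/
noncomputable def augSC : ShortComplex (Rep ℤ G) := ShortComplex.mk (incl G) (aug G) incl_comp_aug

lemma aug_surjective : Function.Surjective (aug G).hom := by
  intro n
  refine ⟨(n : ℤ) • delta 1, ?_⟩
  rw [map_zsmul, aug_hom_apply, sum_delta]
  exact mul_one n

lemma augSC_shortExact : (augSC G).ShortExact := by
  refine { exact := ?_, mono_f := ?_, epi_g := ?_ }
  · refine exact_of_forall (augSC G) ?_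
    intro (f : R G) hf
    exact ⟨⟨f, hf⟩, rfl⟩
  · exact (Rep.mono_iff_injective _).2 (fun f f' h => Subtype.ext h)
  · exact (Rep.epi_iff_surjective _).2 aug_surjective

/-! ### Restriction to a subgroup -/

variable (H : Subgroup G)

/-- the restriction of `0 → I_G → R G → ℤ → 0` to `H`. -/
noncomputable abbrev augSCres : ShortComplex (Rep ℤ H) :=
  (augSC G).map (Rep.resFunctor H.subtype)

lemma augSCres_shortExact : (augSCres H).ShortExact :=
  (Rep.shortExact_res H.subtype).2 augSC_shortExact

/-- the function `h ↦ δ_{h⁻¹} - δ_1 ∈ I_G`. -/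
noncomputable def zfun (h : H) : augIdeal G :=
  ⟨delta ((h : G)⁻¹) - delta 1, by
    show augLin (delta ((h : G)⁻¹) - delta 1) = 0
    rw [map_sub, augLin_apply, augLin_apply, sum_delta, sum_delta, sub_self]⟩

lemma zfun_coe (h : H) : ((zfun H h : augIdeal G) : R G) = delta ((h : G)⁻¹) - delta 1 := rfl

lemma incl_comp_zfun :
    (augSCres H).f.hom ∘ (zfun H) = d₀₁ (augSCres H).X₂ (delta (1 : G)) := by
  funext h
  show ((zfun H h : augIdeal G) : R G) = (R G).ρ (h : G) (delta 1) - delta 1
  rw [zfun_coe, ρ_delta, one_mul]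

/-- the 1-cocycle `h ↦ δ_{h⁻¹} - δ_1` of `H` with values in `I_G`. -/
noncomputable def zc : cocycles₁ (resSub H (augIdeal G)) :=
  ⟨zfun H, mem_cocycles₁_of_comp_eq_d₀₁ (augSCres_shortExact H) (incl_comp_zfun H)⟩

@[simp] lemma zc_apply (h : H) : zc H h = zfun H h := rfl

/-- **The canonical generator** of `H¹(H, I_G)`. -/
noncomputable def gamma : groupCohomology (resSub H (augIdeal G)) 1 :=
  H1π (resSub H (augIdeal G)) (zc H)

end Fintype

end Fermat.Agent.S55.Tate.AugIdeal
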