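/-
S55 / TATE block, rows `CoindAcyclic` and `AcyclicEmbedding` (owner helper18).

* `mackeyEquiv` : `Res_H Coind_1^G B ≃ Coind_1^H (G ⧸ H → B)` at the `Representation` level.
* `coindAcyclic : Blocks.CoindAcyclic`.
* `acyclicEmbedding : Blocks.AcyclicEmbedding`.
-/
import Mathlib
import Fermat.Agent.S55.Tate.Blocks

set_option autoImplicit false

namespace Fermat.Agent.S55.Tate.CoindAcyclic

open CategoryTheory CategoryTheory.Limits groupCohomology Rep
open Fermat.Agent.S55.Tate.Blocks

noncomputable section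

section Mackey

variable {k : Type*} [CommRing k] {G : Type*} [Group G] (H : Subgroup G)
  {V : Type*} [AddCommGroup V] [Module k V] (σ : Representation k (⊥ : Subgroup G) V)

/-- The source of the Mackey equivalence: `Res_H Coind_1^G σ`. -/
abbrev srcRep : Representation k H (Representation.coindV (⊥ : Subgroup G).subtype σ) :=
  (Representation.coind (⊥ : Subgroup G).subtype σ).comp H.subtype

/-- The target of the Mackey equivalence: `Coind_1^H (G ⧸ H → V)`. -/
abbrev tgtRep : Representation k H
    (Representation.coindV (⊥ : Subgroup H).subtype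
      (Representation.trivial k (⊥ : Subgroup H) (G ⧸ H → V))) :=
  Representation.coind (⊥ : Subgroup H).subtype
    (Representation.trivial k (⊥ : Subgroup H) (G ⧸ H → V))

lemma bot_coe_eq_one (g : (⊥ : Subgroup G)) : (g : G) = 1 := Subgroup.mem_bot.1 g.2

lemma bot_eq_one (g : (⊥ : Subgroup G)) : g = 1 := Subtype.ext (bot_coe_eq_one g)

lemma out_inv_mul_mem (x : G) : ((x : G ⧸ H).out)⁻¹ * x ∈ H := by
  rw [← QuotientGroup.eq]
  exact QuotientGroup.out_eq' _

/-- forward map -/
def fwd (f : Representation.coindV (⊥ : Subgroup G).subtype σ) :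
    Representation.coindV (⊥ : Subgroup H).subtype
      (Representation.trivial k (⊥ : Subgroup H) (G ⧸ H → V)) :=
  ⟨fun h c => f.1 (c.out * (h : G)), fun g h => by
    have hg : g = 1 := bot_eq_one g
    subst hg
    simp⟩

/-- backward map -/
def bwd (F : Representation.coindV (⊥ : Subgroup H).subtype
      (Representation.trivial k (⊥ : Subgroup H) (G ⧸ H → V))) :
    Representation.coindV (⊥ : Subgroup G).subtype σ :=
  ⟨fun x => F.1 ⟨((x : G ⧸ H).out)⁻¹ * x, out_inv_mul_mem H x⟩ (x : G ⧸ H), fun g x => by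
    have hg : g = 1 := bot_eq_one g
    subst hg
    simp⟩

@[simp] lemma fwd_apply (f : Representation.coindV (⊥ : Subgroup G).subtype σ) (h : H)
    (c : G ⧸ H) : (fwd H σ f).1 h c = f.1 (c.out * (h : G)) := rfl

@[simp] lemma bwd_apply (F : Representation.coindV (⊥ : Subgroup H).subtype
      (Representation.trivial k (⊥ : Subgroup H) (G ⧸ H → V))) (x : G) :
    (bwd H σ F).1 x = F.1 ⟨((x : G ⧸ H).out)⁻¹ * x, out_inv_mul_mem H x⟩ (x : G ⧸ H) := rfl

lemma bwd_fwd (f : Representation.coindV (⊥ : Subgroup G).subtype σ) :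
    bwd H σ (fwd H σ f) = f := by
  apply Subtype.ext
  funext x
  simp

lemma fwd_bwd (F : Representation.coindV (⊥ : Subgroup H).subtype
      (Representation.trivial k (⊥ : Subgroup H) (G ⧸ H → V))) :
    fwd H σ (bwd H σ F) = F := by
  apply Subtype.ext
  funext h c
  have hc : ((c.out * (h : G) : G) : G ⧸ H) = c := by
    rw [show ((c.out * (h : G) : G) : G ⧸ H) = ((c.out : G) : G ⧸ H) from
      QuotientGroup.mk_mul_of_mem _ h.2]
    exact QuotientGroup.out_eq' c
  simp only [fwd_apply, bwd_apply]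
  have key : ∀ (d : G ⧸ H) (hd : d = c) (hm : d.out⁻¹ * (c.out * (h : G)) ∈ H),
      F.1 ⟨d.out⁻¹ * (c.out * (h : G)), hm⟩ d = F.1 h c := by
    intro d hd hm
    subst hd
    have hh : (⟨d.out⁻¹ * (d.out * (h : G)), hm⟩ : H) = h := Subtype.ext (by simp)
    rw [hh]
  exact key _ hc _

/-- The Mackey linear equivalence. -/
def mackeyLinearEquiv :
    Representation.coindV (⊥ : Subgroup G).subtype σ ≃ₗ[k]
      Representation.coindV (⊥ : Subgroup H).subtype
        (Representation.trivial k (⊥ : Subgroup H) (G ⧸ H → V)) where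
  toFun := fwd H σ
  invFun := bwd H σ
  left_inv := bwd_fwd H σ
  right_inv := fwd_bwd H σ
  map_add' _ _ := rfl
  map_smul' _ _ := rfl

/-- The Mackey equivalence `Res_H Coind_1^G σ ≃ Coind_1^H (G ⧸ H → V)`. -/
def mackeyEquiv : (srcRep H σ).Equiv (tgtRep (k := k) (V := V) H) :=
  Representation.Equiv.mk (mackeyLinearEquiv H σ) fun g => by
    apply LinearMap.ext
    intro f
    apply Subtype.ext
    funext h c
    show f.1 (c.out * (h : G) * (g : G)) = f.1 (c.out * ((h * g : H) : G))
    rw [Subgroup.coe_mul, mul_assoc]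

end Mackey

section RepLevel

universe u

variable {k G : Type u} [CommRing k] [Group G] (H : Subgroup G) (B : Rep.{u} k (⊥ : Subgroup G))

/-- The trivial `1`-module `G ⧸ H → B`. -/
abbrev cosetRep : Rep.{u} k (⊥ : Subgroup H) :=
  Rep.of (Representation.trivial k (⊥ : Subgroup H) (G ⧸ H → B.V))

/-- Mackey: `Res_H Coind_1^G B ≅ Coind_1^H (G ⧸ H → B)` in `Rep ℤ H`. -/
def mackeyIso : Rep.res H.subtype (Rep.coind (⊥ : Subgroup G).subtype B) ≅
    Rep.coind (⊥ : Subgroup H).subtype (cosetRep H B) :=
  Rep.mkIso (mackeyEquiv H B.ρ)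

/-- Coinduced-from-trivial modules are acyclic for every subgroup. -/
theorem isZero_res_coind_succ (m : ℕ) :
    IsZero (groupCohomology (Rep.res H.subtype (Rep.coind (⊥ : Subgroup G).subtype B))
      (m + 1)) :=
  IsZero.of_iso (isZero_groupCohomology_succ_of_subsingleton (cosetRep H B) m)
    ((groupCohomology.functor k H (m + 1)).mapIso (mackeyIso H B) ≪≫
      groupCohomology.coindIso (cosetRep H B) (m + 1))

end RepLevel

section Embedding

universe u

variable {k G : Type u} [CommRing k] [Group G] (A : Rep.{u} k G)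

/-- The coinduced module `A* = Coind_1^G Res_1 A`. -/
abbrev star : Rep.{u} k G :=
  Rep.coind (⊥ : Subgroup G).subtype (Rep.res (⊥ : Subgroup G).subtype A)

/-- The unit `A ⟶ A*`, `a ↦ (g ↦ g • a)`. -/
def unitHom : A ⟶ star A :=
  Rep.resCoindToHom (⊥ : Subgroup G).subtype A (Rep.res (⊥ : Subgroup G).subtype A) (𝟙 _)

lemma unitHom_apply_one (a : A.V) : ((unitHom A).hom a).1 1 = a := by
  simp [unitHom]

lemma unitHom_injective : Function.Injective (unitHom A).hom := by
  intro a b hab
  rw [← unitHom_apply_one A a, ← unitHom_apply_one A b, hab]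

instance : Mono (unitHom A) := (Rep.mono_iff_injective _).2 (unitHom_injective A)

/-- `A*` is acyclic for `G`. -/
theorem isZero_star_succ (m : ℕ) : IsZero (groupCohomology (star A) (m + 1)) :=
  IsZero.of_iso
    (isZero_groupCohomology_succ_of_subsingleton (Rep.res (⊥ : Subgroup G).subtype A) m)
    (groupCohomology.coindIso (Rep.res (⊥ : Subgroup G).subtype A) (m + 1))

/-- The short exact sequence `0 ⟶ A ⟶ A* ⟶ A*/A ⟶ 0`. -/
theorem shortExact_star :
    (ShortComplex.mk (unitHom A) (cokernel.π (unitHom A)) (cokernel.condition _)).ShortExact :=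
  { exact := ShortComplex.exact_cokernel (unitHom A) }

end Embedding

/-- Row `CoindAcyclic` of the Tate block. -/
theorem coindAcyclic : Blocks.CoindAcyclic := by
  intro G _ A H n hn
  obtain ⟨m, rfl⟩ : ∃ m, n = m + 1 := ⟨n - 1, by omega⟩
  exact isZero_res_coind_succ H (resSub (⊥ : Subgroup G) A) m

/-- Row `AcyclicEmbedding` of the Tate block. -/
theorem acyclicEmbedding : Blocks.AcyclicEmbedding := by
  intro G _ A
  refine ⟨star A, cokernel (unitHom A), unitHom A, cokernel.π (unitHom A),
    cokernel.condition _, shortExact_star A, ?_, ?_⟩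
  · intro n hn
    obtain ⟨m, rfl⟩ : ∃ m, n = m + 1 := ⟨n - 1, by omega⟩
    exact isZero_star_succ A m
  · intro H n hn
    obtain ⟨m, rfl⟩ : ∃ m, n = m + 1 := ⟨n - 1, by omega⟩
    exact isZero_res_coind_succ H (resSub (⊥ : Subgroup G) A) m

end

end Fermat.Agent.S55.Tate.CoindAcyclic
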