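/-
S55 / TATE block, row 141 (Tate.infRes3), owner helper81.

`infRes3 : Blocks.InfRes2 → Blocks.AcyclicEmbedding → Blocks.InfRes3`:
inflation–restriction in degree 3 by dimension shifting.

Ingredients (generic in the coefficient ring `k : Type`):
* `δ_res` : restriction to a subgroup commutes with connecting homomorphisms;
* `inf_δ` : inflation commutes with connecting homomorphisms;
* `shortExact_invariants` : if `H¹(H, X₁) = 0` then `0 → X₁^H → X₂^H → X₃^H → 0` is short exact.
-/
import Mathlib
import Fermat.Agent.S55.Tate.Blocks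

set_option autoImplicit false

namespace Fermat.Agent.S55.Tate.InfRes3

open CategoryTheory CategoryTheory.Limits groupCohomology Rep
open Fermat.Agent.S55.Tate.Blocks

variable {k G : Type} [CommRing k] [Group G]

/-! ### Restriction and connecting homomorphisms -/

/-- The morphism of short complexes of cochain complexes given by restriction to a subgroup. -/
noncomputable def resCochainsHom (H : Subgroup G) (X : ShortComplex (Rep k G)) :
    X.map (cochainsFunctor k G) ⟶
      (X.map (Rep.resFunctor H.subtype)).map (cochainsFunctor k H) where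
  τ₁ := cochainsMap H.subtype (𝟙 (Rep.res H.subtype X.X₁))
  τ₂ := cochainsMap H.subtype (𝟙 (Rep.res H.subtype X.X₂))
  τ₃ := cochainsMap H.subtype (𝟙 (Rep.res H.subtype X.X₃))
  comm₁₂ := by rfl
  comm₂₃ := by rfl

/-- Restriction commutes with connecting homomorphisms. -/
theorem δ_res (H : Subgroup G) {X : ShortComplex (Rep k G)} (hX : X.ShortExact)
    (i j : ℕ) (hij : i + 1 = j) :
    groupCohomology.δ hX i j hij ≫
        groupCohomology.map H.subtype (𝟙 (Rep.res H.subtype X.X₁)) j =
      groupCohomology.map H.subtype (𝟙 (Rep.res H.subtype X.X₃)) i ≫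
        groupCohomology.δ (X := X.map (Rep.resFunctor H.subtype))
          ((Rep.shortExact_res H.subtype).2 hX) i j hij :=
  HomologicalComplex.HomologySequence.δ_naturality (resCochainsHom H X)
    (map_cochainsFunctor_shortExact hX)
    (map_cochainsFunctor_shortExact ((Rep.shortExact_res H.subtype).2 hX)) i j hij

/-! ### Inflation and connecting homomorphisms -/

instance quotientToInvariantsFunctor_preservesZero (H : Subgroup G) [H.Normal] :
    (quotientToInvariantsFunctor k H).PreservesZeroMorphisms where
  map_zero X Y := by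
    ext x
    rfl

/-- The morphism of short complexes of cochain complexes given by inflation. -/
noncomputable def infCochainsHom (H : Subgroup G) [H.Normal] (X : ShortComplex (Rep k G)) :
    (X.map (quotientToInvariantsFunctor k H)).map (cochainsFunctor k (G ⧸ H)) ⟶
      X.map (cochainsFunctor k G) where
  τ₁ := cochainsMap (QuotientGroup.mk' H) (Rep.ofHom <| X.X₁.ρ.quotientToInvariants_lift H)
  τ₂ := cochainsMap (QuotientGroup.mk' H) (Rep.ofHom <| X.X₂.ρ.quotientToInvariants_lift H)
  τ₃ := cochainsMap (QuotientGroup.mk' H) (Rep.ofHom <| X.X₃.ρ.quotientToInvariants_lift H)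
  comm₁₂ := by rfl
  comm₂₃ := by rfl

/-- Inflation commutes with connecting homomorphisms. -/
theorem inf_δ (H : Subgroup G) [H.Normal] {X : ShortComplex (Rep k G)} (hX : X.ShortExact)
    (hXH : (X.map (quotientToInvariantsFunctor k H)).ShortExact)
    (i j : ℕ) (hij : i + 1 = j) :
    groupCohomology.δ hXH i j hij ≫ infMapGen H X.X₁ j =
      infMapGen H X.X₃ i ≫ groupCohomology.δ hX i j hij :=
  HomologicalComplex.HomologySequence.δ_naturality (infCochainsHom H X)
    (map_cochainsFunctor_shortExact hXH) (map_cochainsFunctor_shortExact hX) i j hij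

/-! ### Invariants of a short exact sequence -/

/-- Elementwise form of exactness of a short exact sequence of representations. -/
theorem exists_of_g_eq_zero {X : ShortComplex (Rep k G)} (hX : X.ShortExact) (m : X.X₂)
    (hm : X.g.hom m = 0) : ∃ a : X.X₁, X.f.hom a = m := by
  have h := (hX.exact.map (forget₂ (Rep k G) (ModuleCat k)))
  rw [ShortComplex.moduleCat_exact_iff] at h
  exact h m hm

theorem f_injective {X : ShortComplex (Rep k G)} (hX : X.ShortExact) :
    Function.Injective X.f.hom :=
  (Rep.mono_iff_injective X.f).1 hX.mono_f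

theorem g_surjective {X : ShortComplex (Rep k G)} (hX : X.ShortExact) :
    Function.Surjective X.g.hom :=
  (Rep.epi_iff_surjective X.g).1 hX.epi_g

/-- The inclusion `A^H → A` as a function. -/
def invVal (H : Subgroup G) [H.Normal] (A : Rep k G) (x : A.quotientToInvariants H) : A.V :=
  (show ↥(Representation.invariants (A.ρ.comp H.subtype)) from x).val

theorem invVal_injective (H : Subgroup G) [H.Normal] (A : Rep k G) :
    Function.Injective (invVal H A) := fun _ _ h => Subtype.ext h

theorem invVal_fixed (H : Subgroup G) [H.Normal] (A : Rep k G) (x : A.quotientToInvariants H)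
    (h : H) : A.ρ (h : G) (invVal H A x) = invVal H A x :=
  (show ↥(Representation.invariants (A.ρ.comp H.subtype)) from x).2 h

/-- Constructor for elements of `A^H`. -/
def invMk (H : Subgroup G) [H.Normal] (A : Rep k G) (a : A.V)
    (ha : ∀ h : H, A.ρ (h : G) a = a) : A.quotientToInvariants H :=
  (⟨a, fun h => ha h⟩ : ↥(Representation.invariants (A.ρ.comp H.subtype)))

@[simp] theorem invVal_invMk (H : Subgroup G) [H.Normal] (A : Rep k G) (a : A.V)
    (ha : ∀ h : H, A.ρ (h : G) a = a) : invVal H A (invMk H A a ha) = a := rfl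

theorem invVal_map (H : Subgroup G) [H.Normal] {A B : Rep k G} (f : A ⟶ B)
    (x : A.quotientToInvariants H) :
    invVal H B (((quotientToInvariantsFunctor k H).map f).hom x) = f.hom (invVal H A x) := rfl

/-- If `H¹(H, X₁) = 0` then taking `H`-invariants preserves short exactness. -/
theorem shortExact_invariants (H : Subgroup G) [H.Normal] {X : ShortComplex (Rep k G)}
    (hX : X.ShortExact) (h1 : IsZero (groupCohomology (Rep.res H.subtype X.X₁) 1)) :
    (X.map (quotientToInvariantsFunctor k H)).ShortExact := by
  have hinj := f_injective hX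
  have hsurj := g_surjective hX
  have hcomm₁ : ∀ (g : G) (a : X.X₁), X.f.hom (X.X₁.ρ g a) = X.X₂.ρ g (X.f.hom a) :=
    fun g a => Rep.hom_comm_apply X.f g a
  have hcomm₂ : ∀ (g : G) (m : X.X₂), X.g.hom (X.X₂.ρ g m) = X.X₃.ρ g (X.g.hom m) :=
    fun g m => Rep.hom_comm_apply X.g g m
  refine { exact := ?_, mono_f := ?_, epi_g := ?_ }
  · -- exactness
    rw [← ShortComplex.exact_map_iff_of_faithful _ (forget₂ (Rep k (G ⧸ H)) (ModuleCat k)),
      ShortComplex.moduleCat_exact_iff]
    intro m hm
    change X.X₂.quotientToInvariants H at m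
    have hm' : X.g.hom (invVal H X.X₂ m) = 0 := by
      rw [← invVal_map]
      exact congrArg (invVal H X.X₃) hm
    obtain ⟨a, ha⟩ := exists_of_g_eq_zero hX _ hm'
    refine ⟨invMk H X.X₁ a fun h => ?_, ?_⟩
    · apply hinj
      rw [hcomm₁, ha]
      exact invVal_fixed H X.X₂ m h
    · apply invVal_injective H X.X₂
      exact ha
  · -- mono
    change Mono ((quotientToInvariantsFunctor k H).map X.f)
    rw [Rep.mono_iff_injective]
    intro x y hxy
    apply invVal_injective H X.X₁
    apply hinj
    exact ((invVal_map H X.f x).symm.trans (congrArg (invVal H X.X₂) hxy)).trans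
      (invVal_map H X.f y)
  · -- epi
    change Epi ((quotientToInvariantsFunctor k H).map X.g)
    rw [Rep.epi_iff_surjective]
    intro q
    obtain ⟨m, hm⟩ := hsurj (invVal H X.X₃ q)
    -- the cocycle
    have hex : ∀ h : H, ∃ a : X.X₁, X.f.hom a = X.X₂.ρ (h : G) m - m := by
      intro h
      apply exists_of_g_eq_zero hX
      rw [map_sub, hcomm₂, hm]
      exact sub_eq_zero.2 (invVal_fixed H X.X₃ q h)
    choose c hc using hex
    have hcoc : c ∈ cocycles₁ (Rep.res H.subtype X.X₁) := by
      rw [mem_cocycles₁_iff]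
      intro g h
      apply hinj
      rw [map_add, hc, hc]
      change _ = X.f.hom (X.X₁.ρ (g : G) (c h)) + _
      rw [hcomm₁, hc, map_sub]
      change X.X₂.ρ ((g : G) * (h : G)) m - m = _
      rw [map_mul]
      simp only [Module.End.mul_apply]
      abel
    have hzero : H1π (Rep.res H.subtype X.X₁) ⟨c, hcoc⟩ = 0 :=
      @Subsingleton.elim _ (ModuleCat.subsingleton_of_isZero h1) _ _
    rw [H1π_eq_zero_iff] at hzero
    obtain ⟨a0, ha0⟩ := hzero
    have ha0' : ∀ h : H, X.X₁.ρ (h : G) a0 - a0 = c h := by
      intro h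
      have := congrFun ha0 h
      rw [d₀₁_hom_apply] at this
      exact this
    refine ⟨invMk H X.X₂ (m - X.f.hom a0) fun h => ?_, ?_⟩
    · rw [map_sub, ← hcomm₁]
      have h1 := hc h
      rw [← ha0' h, map_sub] at h1
      rw [sub_eq_sub_iff_add_eq_add]
      rw [sub_eq_sub_iff_add_eq_add] at h1
      exact h1.symm.trans (add_comm _ _)
    · apply invVal_injective H X.X₃
      refine (invVal_map H X.g _).trans ?_
      rw [invVal_invMk, map_sub, hm]
      have : X.g.hom (X.f.hom a0) = 0 := by
        have h2 := congrArg (fun φ => φ.hom a0) X.zero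
        exact h2
      rw [this, sub_zero]

/-! ### The dimension-shifting step -/

theorem δ_res_apply (H : Subgroup G) {X : ShortComplex (Rep k G)} (hX : X.ShortExact)
    (i j : ℕ) (hij : i + 1 = j) (y : groupCohomology X.X₃ i) :
    groupCohomology.map H.subtype (𝟙 (Rep.res H.subtype X.X₁)) j (groupCohomology.δ hX i j hij y) =
      groupCohomology.δ (X := X.map (Rep.resFunctor H.subtype))
        ((Rep.shortExact_res H.subtype).2 hX) i j hij
        (groupCohomology.map H.subtype (𝟙 (Rep.res H.subtype X.X₃)) i y) :=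
  congrArg (fun φ => φ.hom y) (δ_res H hX i j hij)

theorem inf_δ_apply (H : Subgroup G) [H.Normal] {X : ShortComplex (Rep k G)} (hX : X.ShortExact)
    (hXH : (X.map (quotientToInvariantsFunctor k H)).ShortExact)
    (i j : ℕ) (hij : i + 1 = j) (z : groupCohomology (X.X₃.quotientToInvariants H) i) :
    infMapGen H X.X₁ j (groupCohomology.δ hXH i j hij z) =
      groupCohomology.δ hX i j hij (infMapGen H X.X₃ i z) :=
  congrArg (fun φ => φ.hom z) (inf_δ H hX hXH i j hij)

/-- The dimension-shifting step for a general short exact sequence `0 → A → M → Q → 0` with `M`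
acyclic in the relevant degrees. -/
theorem infRes3_step (h2 : Blocks.InfRes2) {G : Type} [Group G] (H : Subgroup G) [H.Normal]
    {X : ShortComplex (Rep ℤ G)} (hX : X.ShortExact)
    (hM3 : IsZero (groupCohomology X.X₂ 3))
    (hMH1 : IsZero (groupCohomology (resSub H X.X₂) 1))
    (hMH2 : IsZero (groupCohomology (resSub H X.X₂) 2))
    (hH1 : IsZero (groupCohomology (resSub H X.X₁) 1))
    (hH2 : IsZero (groupCohomology (resSub H X.X₁) 2))
    (x : groupCohomology X.X₁ 3) (hx : resMap H X.X₁ 3 x = 0) :
    ∃ y, infMap H X.X₁ 3 y = x := by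
  -- (a) `δ_G : H²(G, Q) → H³(G, A)` is surjective
  have hepi : Epi (groupCohomology.δ hX 2 3 rfl) := epi_δ_of_isZero hX 2 hM3
  obtain ⟨y, hy⟩ := (ModuleCat.epi_iff_surjective _).1 hepi x
  -- (b) over `H`
  have hXH := (Rep.shortExact_res H.subtype).2 hX
  have hmono : Mono (groupCohomology.δ hXH 2 3 rfl) := mono_δ_of_isZero hXH 2 hMH2
  have hiso : IsIso (groupCohomology.δ hXH 1 2 rfl) := isIso_δ_of_isZero hXH 1 hMH1 hMH2
  have hQ1 : IsZero (groupCohomology (resSub H X.X₃) 1) :=
    IsZero.of_iso hH2 (@asIso _ _ _ _ (groupCohomology.δ hXH 1 2 rfl) hiso)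
  -- (c) `res y = 0`
  have hres : resMap H X.X₃ 2 y = 0 := by
    have hinj := (ModuleCat.mono_iff_injective _).1 hmono
    refine hinj ?_
    refine (δ_res_apply H hX 2 3 rfl y).symm.trans ?_
    refine ((congrArg _ hy).trans hx).trans ?_
    exact (map_zero _).symm
  -- (d) `y = inf z`
  obtain ⟨z, hz⟩ := h2 G H X.X₃ hQ1 y hres
  -- (e) invariants and inflation
  have hXinv := shortExact_invariants H hX hH1
  refine ⟨groupCohomology.δ hXinv 2 3 rfl z, ?_⟩
  refine (inf_δ_apply H hX hXinv 2 3 rfl z).trans ?_
  exact (congrArg _ hz).trans hy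

/-- **Row 141.** Inflation–restriction in degree 3 from inflation–restriction in degree 2 and the
existence of acyclic embeddings. -/
theorem infRes3 (h2 : Blocks.InfRes2) (hs : Blocks.AcyclicEmbedding) : Blocks.InfRes3 := by
  intro G _ H _ A hH1 hH2 x hx
  obtain ⟨M, Q, f, g, w, hX, hM, hMH⟩ := hs G A
  exact infRes3_step h2 H hX (hM 3 (by norm_num)) (hMH H 1 (by norm_num))
    (hMH H 2 (by norm_num)) hH1 hH2 x hx

end Fermat.Agent.S55.Tate.InfRes3
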