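/-
S55 / TATE block (helper35): Nakayama's criterion in degree 3 for finite SOLVABLE groups (in
particular `p`-groups), by induction on the order along a normal subgroup of prime index:
`InfRes3 → CyclicH1H3 → Transport → NakayamaPGroupH3`.
-/
import Mathlib
import Fermat.Agent.S55.Tate.Blocks
import Fermat.Agent.S55.Tate.LES

set_option autoImplicit false

namespace Fermat.Agent.S55.Tate.NakayamaSolvable

open CategoryTheory CategoryTheory.Limits groupCohomology Rep
open Fermat.Agent.S55.Tate.Blocks Fermat.Agent.S55.Tate.LES

/-- A nontrivial finite solvable group has a normal subgroup of prime index. -/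
theorem exists_normal_prime_index' (G : Type) [Group G] [Finite G] [Group.IsSolvable G]
    [Nontrivial G] : ∃ (S : Subgroup G) (_ : S.Normal), (Nat.card (G ⧸ S)).Prime := by
  have hlt : _root_.commutator G < ⊤ := Group.IsSolvable.commutator_lt_top_of_nontrivial G
  obtain ⟨M, hM, hle⟩ := (eq_top_or_exists_le_coatom (_root_.commutator G)).resolve_left hlt.ne
  have hMn : M.Normal := Subgroup.Normal.of_commutator_le (h := hle)
  refine ⟨M, hMn, ?_⟩
  have hnt : Nontrivial (G ⧸ M) := by
    by_contra hcon
    rw [not_nontrivial_iff_subsingleton] at hcon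
    exact hM.1 (QuotientGroup.subsingleton_iff.1 hcon)
  have hsimple : IsSimpleGroup (G ⧸ M) := by
    refine ⟨fun K _ => ?_⟩
    have hsurj : Function.Surjective (QuotientGroup.mk' M) := QuotientGroup.mk'_surjective M
    have hK : K = (K.comap (QuotientGroup.mk' M)).map (QuotientGroup.mk' M) :=
      (Subgroup.map_comap_eq_self_of_surjective hsurj K).symm
    have hMle : M ≤ K.comap (QuotientGroup.mk' M) := by
      intro m hm
      rw [Subgroup.mem_comap, QuotientGroup.mk'_apply, (QuotientGroup.eq_one_iff m).2 hm]
      exact K.one_mem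
    rcases hM.le_iff.1 hMle with h | h
    · right
      rw [hK, h, ← MonoidHom.range_eq_map, MonoidHom.range_eq_top]
      exact hsurj
    · left
      rw [hK, h, QuotientGroup.map_mk'_self]
  have hcomm : IsMulCommutative (G ⧸ M) :=
    Subgroup.Normal.quotient_commutative_iff_commutator_le.2 hle
  exact Group.is_simple_iff_prime_card.1 hsimple

/-- `VanishH1H2` passes to subgroups (as groups). -/
theorem vanishH1H2_resSub (ht : Transport) {G : Type} [Group G] (A : Rep ℤ G)
    (hA : VanishH1H2 A) (S : Subgroup G) : VanishH1H2 (resSub S A) := by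
  intro K
  have inj : Function.Injective (S.subtype.comp K.subtype) :=
    (Subgroup.subtype_injective S).comp (Subgroup.subtype_injective K)
  exact ⟨ht G K (S.subtype.comp K.subtype) inj A 1 (hA _).1,
    ht G K (S.subtype.comp K.subtype) inj A 2 (hA _).2⟩

/-- `VanishH1H2` gives vanishing for the group itself. -/
theorem isZero_self (ht : Transport) {G : Type} [Group G] (A : Rep ℤ G) (hA : VanishH1H2 A) :
    IsZero (groupCohomology A 1) ∧ IsZero (groupCohomology A 2) :=
  ⟨ht G G (MonoidHom.id G) Function.injective_id A 1 (hA _).1,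
    ht G G (MonoidHom.id G) Function.injective_id A 2 (hA _).2⟩

/-- inflation is injective in degree 1 (Mathlib `H1InfRes`). -/
theorem infMapGen_one_injective {k G : Type} [CommRing k] [Group G] (S : Subgroup G) [S.Normal]
    (A : Rep k G) : Function.Injective (infMapGen S A 1) :=
  (ModuleCat.mono_iff_injective (groupCohomology.H1InfRes A S).f).1 inferInstance

theorem nakayamaSolvable_aux (h3 : InfRes3) (hc : CyclicH1H3) (ht : Transport) :
    ∀ (n : ℕ) (G : Type) [Group G] [Finite G] [Group.IsSolvable G], Nat.card G = n →
      ∀ A : Rep ℤ G, VanishH1H2 A → IsZero (groupCohomology A 3) := by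
  intro n
  induction n using Nat.strong_induction_on with
  | _ n ih =>
    intro G _ _ _ hcard A hA
    rcases subsingleton_or_nontrivial G with hsub | hnt
    · exact isZero_groupCohomology_succ_of_subsingleton A 2
    · obtain ⟨S, hSn, hp⟩ := exists_normal_prime_index' G
      have hmul : Nat.card G = Nat.card (G ⧸ S) * Nat.card S :=
        Subgroup.card_eq_card_quotient_mul_card_subgroup S
      have hSpos : 0 < Nat.card S := Nat.card_pos
      have hlt : Nat.card S < n := by
        rw [← hcard, hmul]
        have := hp.one_lt
        nlinarith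
      -- `H³(S, A) = 0` by induction
      have hS3 : IsZero (groupCohomology (resSub S A) 3) :=
        ih (Nat.card S) hlt S rfl (resSub S A) (vanishH1H2_resSub ht A hA S)
      -- `H¹(G/S, A^S) = 0`
      have hG1 : IsZero (groupCohomology A 1) := (isZero_self ht A hA).1
      have hQ1 : IsZero (groupCohomology (A.quotientToInvariants S) 1) := by
        refine isZero_of_forall_eq_zero fun x => ?_
        apply infMapGen_one_injective S A
        rw [map_zero]
        exact eq_zero_of_isZero hG1 _
      -- `G/S` is cyclic, so `H³(G/S, A^S) = 0`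
      have hcyc : IsCyclic (G ⧸ S) := isCyclic_of_prime_card (hp := ⟨hp⟩) rfl
      have hQ3 : IsZero (groupCohomology (A.quotientToInvariants S) 3) :=
        hc (G ⧸ S) (A.quotientToInvariants S) hQ1
      refine isZero_of_forall_eq_zero fun x => ?_
      obtain ⟨y, hy⟩ := h3 G S A (hA S).1 (hA S).2 x (eq_zero_of_isZero hS3 _)
      have hy0 : y = 0 := eq_zero_of_isZero hQ3 y
      exact hy.symm.trans ((congrArg _ hy0).trans (map_zero _))

/-- **Nakayama's criterion in degree 3 for finite solvable groups.** -/
theorem nakayamaSolvable (h3 : InfRes3) (hc : CyclicH1H3) (ht : Transport)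
    (G : Type) [Group G] [Finite G] [Group.IsSolvable G] (A : Rep ℤ G) (hA : VanishH1H2 A) :
    IsZero (groupCohomology A 3) :=
  nakayamaSolvable_aux h3 hc ht (Nat.card G) G rfl A hA

/-- **Row (T.pgroup).** -/
theorem nakayamaPGroupH3 (h3 : InfRes3) (hc : CyclicH1H3) (ht : Transport) :
    NakayamaPGroupH3 := by
  intro p _ G _ _ hG A hA
  have : Group.IsNilpotent G := hG.isNilpotent
  exact nakayamaSolvable h3 hc ht G A hA

end Fermat.Agent.S55.Tate.NakayamaSolvable
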