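/-
S55 / TATE block (helper35): Tate's theorem in degree 3 from the splitting module and
Nakayama's criterion:  `SplittingModule → NakayamaH3 → TateH3`.
-/
import Mathlib
import Fermat.Agent.S55.Tate.Blocks
import Fermat.Agent.S55.Tate.LES

set_option autoImplicit false

namespace Fermat.Agent.S55.Tate.TateOfSplit

open CategoryTheory CategoryTheory.Limits groupCohomology Rep
open Fermat.Agent.S55.Tate.Blocks Fermat.Agent.S55.Tate.LES

/-- A generator of a finite cyclic additive group of order `m` has exact order `m`: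
`n • r = 0 → m ∣ n`. -/
theorem dvd_of_zsmul_eq_zero {M : Type} [AddCommGroup M] (r : M) (m : ℕ)
    (hgen : ∀ x : M, ∃ n : ℤ, x = n • r) (hcard : Nat.card M = m) (n : ℤ) (hn : n • r = 0) :
    (m : ℤ) ∣ n := by
  have htop : AddSubgroup.zmultiples r = ⊤ := by
    rw [eq_top_iff]
    intro x _
    obtain ⟨k, hk⟩ := hgen x
    exact AddSubgroup.mem_zmultiples_iff.2 ⟨k, hk.symm⟩
  have hord : addOrderOf r = m := by
    rw [← Nat.card_zmultiples, htop, ← hcard]
    exact Nat.card_congr (AddSubgroup.topEquiv (G := M)).toEquiv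
  rw [← hord]
  exact (addOrderOf_dvd_iff_zsmul_eq_zero).2 hn

theorem tateH3 (hs : SplittingModule) (hnak : NakayamaH3) : TateH3 := by
  intro G _ _ C u h1 hcard hgen
  obtain ⟨M, Q, f, g, w, hS, hQ2, hH⟩ := hs G C u
  -- `M` has vanishing `H¹`, `H²` on all subgroups
  have hM : VanishH1H2 M := by
    intro H
    obtain ⟨hHQ2, γ, hγgen, hγcard, hδ⟩ := hH H
    have hSH : ((ShortComplex.mk f g w).map (Rep.resFunctor H.subtype)).ShortExact :=
      (Rep.shortExact_res H.subtype).2 hS
    refine ⟨isZero_of_forall_eq_zero fun x => ?_, isZero_of_forall_eq_zero fun x => ?_⟩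
    · -- `H¹(H, M) = 0`
      obtain ⟨n, hn⟩ := hγgen (groupCohomology.map (MonoidHom.id H)
        ((ShortComplex.mk f g w).map (Rep.resFunctor H.subtype)).g 1 x)
      have h0 : groupCohomology.δ hSH 1 2 rfl (groupCohomology.map (MonoidHom.id H)
        ((ShortComplex.mk f g w).map (Rep.resFunctor H.subtype)).g 1 x) = 0 := δ_map_g hSH 1 x
      have h1' : groupCohomology.δ hSH 1 2 rfl (n • γ) = 0 :=
        (congrArg (groupCohomology.δ hSH 1 2 rfl) hn).symm.trans h0
      have h2' : groupCohomology.δ hSH 1 2 rfl (n • γ) = n • resMap H C 2 u :=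
        (map_zsmul (ConcreteCategory.hom (groupCohomology.δ hSH 1 2 rfl)) n γ).trans
          (congrArg (fun z => n • z) hδ)
      have h0' : n • resMap H C 2 u = 0 := h2'.symm.trans h1'
      have hdvd : ((Nat.card H : ℕ) : ℤ) ∣ n :=
        dvd_of_zsmul_eq_zero (resMap H C 2 u) (Nat.card H) (hgen H) (hcard H) n h0'
      obtain ⟨k, rfl⟩ := hdvd
      have hzero : groupCohomology.map (MonoidHom.id H)
          ((ShortComplex.mk f g w).map (Rep.resFunctor H.subtype)).g 1 x = 0 := by
        have hk : (((Nat.card H : ℕ) : ℤ) * k) • γ = 0 := by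
          rw [mul_zsmul', hγcard, zsmul_zero]
        exact hn.trans hk
      obtain ⟨y, hy⟩ := exists_map_f_eq hSH 1 x hzero
      have hy0 : y = 0 := eq_zero_of_isZero (h1 H) y
      exact hy.symm.trans ((congrArg _ hy0).trans (map_zero _))
    · -- `H²(H, M) = 0`
      have hzero : groupCohomology.map (MonoidHom.id H)
          ((ShortComplex.mk f g w).map (Rep.resFunctor H.subtype)).g 2 x = 0 :=
        eq_zero_of_isZero hHQ2 _
      obtain ⟨y, hy⟩ := exists_map_f_eq hSH 2 x hzero
      obtain ⟨n, hn⟩ := hgen H y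
      have h2' : groupCohomology.δ hSH 1 2 rfl (n • γ) = n • resMap H C 2 u :=
        (map_zsmul (ConcreteCategory.hom (groupCohomology.δ hSH 1 2 rfl)) n γ).trans
          (congrArg (fun z => n • z) hδ)
      have hyδ : y = groupCohomology.δ hSH 1 2 rfl (n • γ) := hn.trans h2'.symm
      exact hy.symm.trans ((congrArg _ hyδ).trans (map_f_δ hSH 1 (n • γ)))
  have hM3 : IsZero (groupCohomology M 3) := hnak G M hM
  refine isZero_of_forall_eq_zero fun x => ?_
  have hx0 : groupCohomology.map (MonoidHom.id G) (ShortComplex.mk f g w).f 3 x = 0 :=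
    eq_zero_of_isZero hM3 _
  obtain ⟨y, hy⟩ := exists_δ_eq hS 2 x hx0
  have hy0 : y = 0 := eq_zero_of_isZero hQ2 y
  exact hy.symm.trans ((congrArg _ hy0).trans (map_zero _))

end Fermat.Agent.S55.Tate.TateOfSplit
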