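/-
S55 / TATE block (helper35): assembly of the block.

* `nakayamaH3_of_rows` : `InfRes3 → CyclicH1H3 → Transport → SylowReduction → NakayamaH3`
* `tateH3_of_rows` : `… → SplittingModule → TateH3`
-/
import Mathlib
import Fermat.Agent.S55.Tate.Blocks
import Fermat.Agent.S55.Tate.LES
import Fermat.Agent.S55.Tate.NakayamaSolvable
import Fermat.Agent.S55.Tate.TateOfSplit

set_option autoImplicit false

namespace Fermat.Agent.S55.Tate.Reduction

open CategoryTheory CategoryTheory.Limits groupCohomology Rep
open Fermat.Agent.S55.Tate.Blocks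

/-- Nakayama's criterion in degree 3 for all finite groups, from the `p`-group case and the Sylow
reduction. -/
theorem nakayamaH3_of_pgroup (hp : NakayamaPGroupH3) (hs : SylowReduction) (ht : Transport) :
    NakayamaH3 := by
  intro G _ _ A hA
  refine hs G A 3 (by norm_num) ?_
  intro p _ P
  exact hp p P P.isPGroup' (resSub (P : Subgroup G) A)
    (NakayamaSolvable.vanishH1H2_resSub ht A hA (P : Subgroup G))

theorem nakayamaH3_of_rows (h3 : InfRes3) (hc : CyclicH1H3) (ht : Transport)
    (hs : SylowReduction) : NakayamaH3 :=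
  nakayamaH3_of_pgroup (NakayamaSolvable.nakayamaPGroupH3 h3 hc ht) hs ht

theorem tateH3_of_rows (h3 : InfRes3) (hc : CyclicH1H3) (ht : Transport)
    (hs : SylowReduction) (hsp : SplittingModule) : TateH3 :=
  TateOfSplit.tateH3 hsp (nakayamaH3_of_rows h3 hc ht hs)

end Fermat.Agent.S55.Tate.Reduction
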