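import Mathlib
import Fermat.Agent.S55.Tate.Blocks

/-!
# S55 / TATE block, row `Tate.sylow` (lemma row 142): Sylow reduction

`Hⁿ(G, A)` (`n > 0`, `G` finite) vanishes as soon as `Hⁿ(P, A)` vanishes for every Sylow subgroup.

Key lemma `index_nsmul_eq_zero`: if `Hⁿ(H, A) = 0` for a subgroup `H` of finite index then
`[G : H] • x = 0` for every `x ∈ Hⁿ(G, A)`: the composite
`A ⟶ Coind_H^G Res_H A ⟶ A` (unit of restriction–coinduction, then the trace over `G ⧸ H`) is
multiplication by the index, and `Hⁿ(G, Coind_H^G Res_H A) ≅ Hⁿ(H, A)` by Shapiro's lemma.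
Owner: helper54.
-/

set_option autoImplicit false

namespace Fermat.Agent.S55.Tate.Sylow

open CategoryTheory CategoryTheory.Limits groupCohomology Rep

/-! ### Additivity of `Hⁿ(G, -)` -/

section additive

variable {k G : Type} [CommRing k] [Group G]

theorem map_id_add {A B : Rep k G} (φ ψ : A ⟶ B) (n : ℕ) :
    groupCohomology.map (MonoidHom.id G) (φ + ψ) n =
      groupCohomology.map (MonoidHom.id G) φ n + groupCohomology.map (MonoidHom.id G) ψ n := by
  have h : cochainsMap (MonoidHom.id G) (φ + ψ) =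
      cochainsMap (MonoidHom.id G) φ + cochainsMap (MonoidHom.id G) ψ :=
    (cochainsFunctor k G).map_add
  show HomologicalComplex.homologyMap (cochainsMap (MonoidHom.id G) (φ + ψ)) n = _
  rw [h, HomologicalComplex.homologyMap_add]
  rfl

theorem map_id_nsmul {A B : Rep k G} (φ : A ⟶ B) (n : ℕ) (m : ℕ) :
    groupCohomology.map (MonoidHom.id G) (m • φ) n =
      m • groupCohomology.map (MonoidHom.id G) φ n := by
  induction m with
  | zero =>
    rw [zero_smul, zero_smul]
    show HomologicalComplex.homologyMap (cochainsMap (MonoidHom.id G) (0 : A ⟶ B)) n = 0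
    rw [cochainsMap_zero, HomologicalComplex.homologyMap_zero]
  | succ m ih => rw [succ_nsmul, succ_nsmul, map_id_add, ih]

end additive

/-! ### The trace `Coind_H^G Res_H A ⟶ A` -/

section trace

variable {k G : Type} [CommRing k] [Group G] (H : Subgroup G) (A : Rep k G)

/-- The underlying type of the coinduced module. -/
abbrev CoindV : Type := ↥(Representation.coindV H.subtype (res H.subtype A).ρ)

/-- One term of the trace: `g ↦ ρ(g) (f g⁻¹)`; it only depends on the left coset `g H`. -/
noncomputable def trTerm (g : G) : CoindV H A →ₗ[k] A.V :=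
  (A.ρ g) ∘ₗ (LinearMap.proj g⁻¹) ∘ₗ (Representation.coindV H.subtype (res H.subtype A).ρ).subtype

theorem trTerm_apply (g : G) (f : CoindV H A) : trTerm H A g f = A.ρ g (f.1 g⁻¹) := rfl

theorem trTerm_eq_of_rel (f : CoindV H A) {a b : G} (hab : a⁻¹ * b ∈ H) :
    trTerm H A a f = trTerm H A b f := by
  rw [trTerm_apply, trTerm_apply]
  have hb : b⁻¹ = H.subtype ⟨a⁻¹ * b, hab⟩⁻¹ * a⁻¹ := by
    simp [mul_inv_rev]
  have h2 := f.2 (⟨a⁻¹ * b, hab⟩⁻¹ : H) a⁻¹
  rw [hb, h2]
  show A.ρ a (f.1 a⁻¹) = A.ρ b (A.ρ (H.subtype (⟨a⁻¹ * b, hab⟩⁻¹ : H)) (f.1 a⁻¹))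
  rw [← Module.End.mul_apply, ← map_mul]
  congr 2
  simp

theorem trTerm_out (f : CoindV H A) (g : G) :
    trTerm H A (QuotientGroup.mk g : G ⧸ H).out f = trTerm H A g f := by
  apply trTerm_eq_of_rel
  rw [← QuotientGroup.eq]
  exact QuotientGroup.out_eq' _

variable [H.FiniteIndex]

attribute [local instance] Subgroup.fintypeQuotientOfFiniteIndex

/-- The trace as a linear map. -/
noncomputable def trLin : CoindV H A →ₗ[k] A.V :=
  ∑ c : G ⧸ H, trTerm H A c.out

theorem trLin_apply (f : CoindV H A) : trLin H A f = ∑ c : G ⧸ H, trTerm H A c.out f := by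
  simp [trLin, LinearMap.sum_apply]

theorem trLin_coind (x : G) (f : CoindV H A) :
    trLin H A (Representation.coind H.subtype (res H.subtype A).ρ x f) = A.ρ x (trLin H A f) := by
  rw [trLin_apply, trLin_apply, map_sum]
  rw [← Equiv.sum_comp (MulAction.toPerm x : Equiv.Perm (G ⧸ H))]
  refine Finset.sum_congr rfl fun c _ => ?_
  induction c using QuotientGroup.induction_on with
  | H g =>
    have h1 : (MulAction.toPerm x : Equiv.Perm (G ⧸ H)) (QuotientGroup.mk g) =
        QuotientGroup.mk (x * g) := rfl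
    rw [h1, trTerm_out, trTerm_out, trTerm_apply, trTerm_apply]
    show A.ρ (x * g) (f.1 ((x * g)⁻¹ * x)) = A.ρ x (A.ρ g (f.1 g⁻¹))
    rw [← Module.End.mul_apply, ← map_mul]
    simp [mul_inv_rev]

/-- The trace morphism `Coind_H^G Res_H A ⟶ A`. -/
noncomputable def tr : coind H.subtype (res H.subtype A) ⟶ A :=
  Rep.ofHom (ρ := Representation.coind H.subtype (res H.subtype A).ρ) (σ := A.ρ)
    ⟨trLin H A, fun x => by ext f; exact trLin_coind H A x f⟩

/-- The unit `A ⟶ Coind_H^G Res_H A`, `a ↦ (g ↦ ρ(g) a)`. -/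
noncomputable def unit : A ⟶ coind H.subtype (res H.subtype A) :=
  resCoindToHom H.subtype A (res H.subtype A) (𝟙 _)

omit [H.FiniteIndex] in
theorem unit_apply_coe (a : A.V) (g : G) : ((unit H A).hom a).1 g = A.ρ g a := rfl

theorem unit_tr : unit H A ≫ tr H A = H.index • 𝟙 A := by
  apply Rep.hom_ext
  ext a
  rw [Rep.hom_comp, Rep.nsmul_hom]
  show trLin H A ((unit H A).hom a) = H.index • a
  rw [trLin_apply]
  have : ∀ c : G ⧸ H, trTerm H A c.out ((unit H A).hom a) = a := by
    intro c
    rw [trTerm_apply, unit_apply_coe, ← Module.End.mul_apply, ← map_mul, mul_inv_cancel,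
      map_one, Module.End.one_apply]
  rw [Finset.sum_congr rfl fun c _ => this c, Finset.sum_const, Finset.card_univ,
    Subgroup.index_eq_card, Nat.card_eq_fintype_card]

end trace

/-! ### The key lemma -/

section key

variable {k G : Type} [CommRing k] [Group G]

/-- If `Hⁿ(H, A) = 0` for a subgroup `H` of finite index, then `[G : H]` kills `Hⁿ(G, A)`. -/
theorem index_nsmul_eq_zero (H : Subgroup G) [H.FiniteIndex] (A : Rep k G) (n : ℕ)
    (hz : IsZero (groupCohomology (res H.subtype A) n)) (x : groupCohomology A n) :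
    H.index • x = 0 := by
  have hz' : IsZero (groupCohomology (coind H.subtype (res H.subtype A)) n) :=
    IsZero.of_iso hz (groupCohomology.coindIso (res H.subtype A) n)
  have h1 : groupCohomology.map (MonoidHom.id G) (unit H A) n ≫
      groupCohomology.map (MonoidHom.id G) (tr H A) n = H.index • 𝟙 (groupCohomology A n) := by
    rw [← groupCohomology.map_id_comp]
    refine (congrArg (fun φ => groupCohomology.map (MonoidHom.id G) φ n) (unit_tr H A)).trans ?_
    show groupCohomology.map (MonoidHom.id G) (H.index • 𝟙 A) n = _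
    rw [map_id_nsmul, groupCohomology.map_id]
  have h2 : groupCohomology.map (MonoidHom.id G) (unit H A) n ≫
      groupCohomology.map (MonoidHom.id G) (tr H A) n = 0 := by
    rw [hz'.eq_zero_of_tgt (groupCohomology.map (MonoidHom.id G) (unit H A) n), zero_comp]
  have h3 : (H.index • 𝟙 (groupCohomology A n) : groupCohomology A n ⟶ groupCohomology A n) = 0 := by
    rw [← h1, h2]
  have h4 := congrArg (fun f => f.hom x) h3
  simpa using h4

end key

/-! ### Sylow reduction -/

/-- **Row `Tate.sylow`.** -/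
theorem sylowReduction : Blocks.SylowReduction := by
  intro G _ _ A n hn hP
  have hx : ∀ x : groupCohomology A n, x = 0 := by
    intro x
    rw [← AddMonoid.addOrderOf_eq_one_iff, Nat.eq_one_iff_not_exists_prime_dvd]
    intro q hq hdvd
    have : Fact q.Prime := ⟨hq⟩
    obtain ⟨P⟩ : Nonempty (Sylow q G) := inferInstance
    have h0 := index_nsmul_eq_zero (P : Subgroup G) A n (hP q P) x
    have h1 : addOrderOf x ∣ (P : Subgroup G).index := addOrderOf_dvd_of_nsmul_eq_zero h0
    exact P.not_dvd_index (hdvd.trans h1)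
  have : Subsingleton (groupCohomology A n) := ⟨fun a b => by rw [hx a, hx b]⟩
  exact ModuleCat.isZero_of_subsingleton _

end Fermat.Agent.S55.Tate.Sylow
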