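/-
S55 / TATE block (helper35): closed exports.

* `nakayamaH3 : Blocks.NakayamaH3` (unconditional)
* `nakayamaSolvableH3` : the same for finite solvable groups, without the Sylow step
* `tateH3_of_split : Blocks.SplittingModule → Blocks.TateH3`
-/
import Mathlib
import Fermat.Agent.S55.Tate.Blocks
import Fermat.Agent.S55.Tate.Reduction
import Fermat.Agent.S55.Tate.InfRes3
import Fermat.Agent.S55.Tate.InfRes2Block
import Fermat.Agent.S55.Tate.CoindAcyclic
import Fermat.Agent.S55.Tate.CyclicTransport
import Fermat.Agent.S55.Tate.Sylow

set_option autoImplicit false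

namespace Fermat.Agent.S55.Tate.Final

open CategoryTheory CategoryTheory.Limits groupCohomology Rep
open Fermat.Agent.S55.Tate Fermat.Agent.S55.Tate.Blocks

/-- Row (T.infRes3), closed. -/
theorem infRes3 : InfRes3 :=
  InfRes3.infRes3 InfRes2Block.infRes2 CoindAcyclic.acyclicEmbedding

/-- **Nakayama's criterion in degree 3** (closed export of the Tate block). -/
theorem nakayamaH3 : NakayamaH3 :=
  Reduction.nakayamaH3_of_rows infRes3 CyclicTransport.cyclicH1H3 CyclicTransport.transport
    Sylow.sylowReduction

/-- Nakayama's criterion in degree 3 for finite solvable groups. -/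
theorem nakayamaSolvableH3 (G : Type) [Group G] [Finite G] [Group.IsSolvable G] (A : Rep ℤ G)
    (hA : VanishH1H2 A) : IsZero (groupCohomology A 3) :=
  NakayamaSolvable.nakayamaSolvable infRes3 CyclicTransport.cyclicH1H3 CyclicTransport.transport
    G A hA

/-- **Tate's theorem in degree 3**, from the splitting module row. -/
theorem tateH3_of_split (hsp : SplittingModule) : TateH3 :=
  TateOfSplit.tateH3 hsp nakayamaH3

end Fermat.Agent.S55.Tate.Final
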