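/-
S55 / TATE block, row T.split (helper40): the splitting module of a class `u ∈ H²(G, C)` and the
cohomology of the augmentation ideal.

`splittingModule : Blocks.CoindAcyclic → Blocks.SplittingModule`.

Model: `R = Fun(G, k)` with `(h • f) x = f (x * h)` (this is `Coind_1^G k`; the group ring element
`σ` corresponds to the indicator function of `σ⁻¹`), `ε f = ∑ x, f x`, `I = ker ε`,
`M = C × I` with `g • (c, x) = (g c + Ψ_g x, g x)`, `Ψ_g x = ∑ τ, x τ • φ (g, τ⁻¹)` for a
normalised 2-cocycle `φ` representing `u`.  Everything is written over a general commutative ring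
`k` (to avoid the `Module ℤ` instance diamond) and specialised to `k = ℤ` at the very end.
-/
import Mathlib
import Fermat.Agent.S55.Tate.Blocks

set_option autoImplicit false
set_option linter.unusedSectionVars false

namespace Fermat.Agent.S55.Tate.Splitting

open CategoryTheory CategoryTheory.Limits groupCohomology Rep
open Fermat.Agent.S55.Tate.Blocks

/-! ### The regular module `R = Fun(G, k)` -/

section Regular

variable (k G : Type) [CommRing k] [Group G]

/-- Right translation on `Fun(G, k)`: `(h • f) x = f (x * h)`. -/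
def funRep : Representation k G (G → k) where
  toFun h := LinearMap.funLeft k k (· * h)
  map_one' := by ext; simp
  map_mul' _ _ := by ext; simp [mul_assoc]

@[simp]
lemma funRep_apply (h : G) (f : G → k) (x : G) : funRep k G h f x = f (x * h) := rfl

/-- `R = Fun(G, k)` as an object of `Rep k G`. -/
noncomputable abbrev R : Rep k G := Rep.of (funRep k G)

end Regular

section RegularInt

variable (G : Type) [Group G]

/-- The coinduced module of `Blocks.CoindAcyclic` for the trivial module `ℤ`. -/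
noncomputable abbrev coindZ : Rep ℤ G :=
  Rep.coind (⊥ : Subgroup G).subtype (resSub (⊥ : Subgroup G) (Rep.trivial ℤ G ℤ))

/-- `R ≅ Coind_1^G ℤ`. -/
noncomputable def equivCoind : (funRep ℤ G).Equiv (coindZ G).ρ where
  toFun f := ⟨f, fun g h => by
    have hg : (g : G) = 1 := Subgroup.mem_bot.1 g.2
    simp [hg]⟩
  map_add' _ _ := rfl
  map_smul' _ _ := rfl
  invFun f := f.1
  left_inv _ := rfl
  right_inv _ := rfl
  isIntertwining' g := by
    ext f
    rfl

/-- `R ≅ Coind_1^G ℤ` in `Rep ℤ G`. -/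
noncomputable def isoCoind : R ℤ G ≅ coindZ G := Rep.mkIso (equivCoind G)

/-- `R` is acyclic for every subgroup (from `CoindAcyclic`). -/
theorem isZero_R (h : CoindAcyclic) (H : Subgroup G) (n : ℕ) (hn : 0 < n) :
    IsZero (groupCohomology (Rep.res H.subtype (R ℤ G)) n) := by
  have h1 := h G (Rep.trivial ℤ G ℤ) H n hn
  refine IsZero.of_iso h1 ?_
  exact (groupCohomology.functor ℤ H n).mapIso ((Rep.resFunctor H.subtype).mapIso (isoCoind G))

end RegularInt

/-! ### The augmentation ideal -/

section Augmentation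

variable (k : Type) [CommRing k]

open Classical in
/-- The indicator function of `σ`. -/
noncomputable def ind {G : Type} (σ : G) : G → k := fun t => if t = σ then 1 else 0

/-- The augmentation `ε f = ∑ x, f x`. -/
def eps (G : Type) [Fintype G] : (G → k) →ₗ[k] k where
  toFun f := ∑ x, f x
  map_add' f g := by simp [Finset.sum_add_distrib]
  map_smul' c f := by simp [Finset.mul_sum]

variable {k}

@[simp]
lemma eps_apply {G : Type} [Fintype G] (f : G → k) : eps k G f = ∑ x, f x := rfl

lemma eps_ind {G : Type} [Fintype G] (σ : G) : eps k G (ind k σ) = 1 := by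
  classical
  simp [ind]

/-- `∑ t, x t • a t` picks out `a σ` for `x = ind σ`. -/
lemma sum_ind_smul {G : Type} [Fintype G] {A : Type*} [AddCommGroup A] [Module k A] (σ : G)
    (a : G → A) : ∑ t, ind k σ t • a t = a σ := by
  classical
  simp [ind, ite_smul]

variable (k) (G : Type) [Group G] [Fintype G]

lemma eps_funRep (h : G) (f : G → k) : eps k G (funRep k G h f) = eps k G f := by
  simp only [eps_apply, funRep_apply]
  exact Fintype.sum_equiv (Equiv.mulRight h) _ _ (fun _ => rfl)

/-- The augmentation ideal `I = ker ε`, as a submodule of `Fun(G, k)`. -/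
def augSub : Submodule k (G → k) := LinearMap.ker (eps k G)

lemma mem_augSub (f : G → k) : f ∈ augSub k G ↔ ∑ x, f x = 0 := by
  simp [augSub, LinearMap.mem_ker]

lemma augSub_le_comap (g : G) : augSub k G ≤ (augSub k G).comap ((R k G).ρ g) := by
  intro f hf
  rw [Submodule.mem_comap]
  have : eps k G (funRep k G g f) = 0 := by
    rw [eps_funRep]
    exact hf
  exact this

/-- The augmentation ideal `I_G` as an object of `Rep k G`. -/
noncomputable abbrev Q : Rep k G :=
  Rep.subrepresentation (R k G) (augSub k G) (augSub_le_comap k G)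

/-- The inclusion `I_G ⟶ R`. -/
noncomputable abbrev incl : Q k G ⟶ R k G :=
  Rep.subtype (R k G) (augSub k G) (augSub_le_comap k G)

lemma Q_ρ_apply (g : G) (x : Q k G) (t : G) :
    (((Q k G).ρ g x : (Q k G).V) : G → k) t = (x : G → k) (t * g) := rfl

lemma Q_ρ_coe (g : G) (x : Q k G) :
    (((Q k G).ρ g x : (Q k G).V) : G → k) = funRep k G g (x : G → k) := rfl

lemma eps_coe_Q (x : (Q k G).V) : eps k G (x : G → k) = 0 := x.2

variable {G}

lemma funRep_ind (h σ : G) : funRep k G h (ind k σ) = ind k (σ * h⁻¹) := by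
  classical
  ext t
  simp only [funRep_apply, ind]
  congr 1
  rw [eq_iff_iff, eq_mul_inv_iff_mul_eq]

/-- The element `[h] - [1]` of the augmentation ideal, in the function model:
`δ_{h⁻¹} - δ_1`. -/
noncomputable def zfun (h : G) : G → k := ind k h⁻¹ - ind k 1

lemma zfun_mem (h : G) : zfun k h ∈ augSub k G := by
  rw [augSub, LinearMap.mem_ker, zfun, map_sub, eps_ind, eps_ind, sub_self]

/-- `z(h) = h • δ_1 - δ_1`. -/
lemma zfun_eq (h : G) : zfun k h = funRep k G h (ind k 1) - ind k 1 := by
  rw [zfun, funRep_ind, one_mul]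

lemma zfun_mul (h₁ h₂ : G) : zfun k (h₁ * h₂) = funRep k G h₁ (zfun k h₂) + zfun k h₁ := by
  rw [zfun_eq, zfun_eq, zfun_eq, map_sub, map_mul]
  simp only [Module.End.mul_apply]
  abel

end Augmentation

/-! ### The twisting maps `Ψ_g` and the splitting module -/

section Twist

variable {k G : Type} [CommRing k] [Group G] [Fintype G] (C : Rep k G)

/-- `Ψ_g x = ∑ τ, x τ • φ (g, τ⁻¹)`: the linear extension of `σ ↦ φ (g, σ)` to the group ring
(function model). -/
def Psi (φ : G × G → C) (g : G) : (G → k) →ₗ[k] C.V where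
  toFun x := ∑ τ, x τ • φ (g, τ⁻¹)
  map_add' x y := by simp [add_smul, Finset.sum_add_distrib]
  map_smul' c x := by simp [Finset.smul_sum, mul_smul]

lemma Psi_apply (φ : G × G → C) (g : G) (x : G → k) :
    Psi C φ g x = ∑ τ, x τ • φ (g, τ⁻¹) := rfl

lemma Psi_ind (φ : G × G → C) (g σ : G) : Psi C φ g (ind k σ) = φ (g, σ⁻¹) := by
  rw [Psi_apply, sum_ind_smul σ (fun τ => φ (g, τ⁻¹))]

variable {C}

/-- The key identity: `Ψ_{gh} x + (ε x) • φ (g, h) = g • Ψ_h x + Ψ_g (h • x)`. -/
lemma Psi_mul (φ : cocycles₂ C) (g h : G) (x : G → k) :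
    Psi C φ (g * h) x + eps k G x • φ (g, h) =
      C.ρ g (Psi C φ h x) + Psi C φ g (funRep k G h x) := by
  have h1 : Psi C φ g (funRep k G h x) = ∑ τ, x τ • φ (g, h * τ⁻¹) := by
    rw [Psi_apply]
    refine Fintype.sum_equiv (Equiv.mulRight h) _ _ (fun τ => ?_)
    simp [mul_inv_rev]
  rw [h1, Psi_apply, Psi_apply, map_sum, eps_apply, Finset.sum_smul, ← Finset.sum_add_distrib,
    ← Finset.sum_add_distrib]
  refine Finset.sum_congr rfl (fun τ _ => ?_)
  rw [map_smul, ← smul_add, ← smul_add]
  congr 1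
  exact (mem_cocycles₂_iff φ).1 φ.2 g h τ⁻¹

/-- `Ψ_1 x = (ε x) • φ (1, 1)`. -/
lemma Psi_one (φ : cocycles₂ C) (x : G → k) :
    Psi C φ 1 x = eps k G x • φ (1, 1) := by
  rw [Psi_apply, eps_apply, Finset.sum_smul]
  refine Finset.sum_congr rfl (fun τ _ => ?_)
  rw [cocycles₂_map_one_fst]

/-- The underlying linear map of the action of `g` on `M = C × I`:
`(c, x) ↦ (g c + Ψ_g x, g x)`. -/
noncomputable def splitAct (φ : cocycles₂ C) (g : G) :
    (C.V × (Q k G).V) →ₗ[k] (C.V × (Q k G).V) :=
  LinearMap.prod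
    ((C.ρ g).coprod ((Psi C φ g).comp (augSub k G).subtype))
    (((Q k G).ρ g).comp (LinearMap.snd k C.V (Q k G).V))

lemma splitAct_apply (φ : cocycles₂ C) (g : G) (c : C.V) (x : (Q k G).V) :
    splitAct φ g (c, x) = (C.ρ g c + Psi C φ g (x : G → k), (Q k G).ρ g x) := rfl

/-- The action of `G` on the splitting module `M = C × I_G`. -/
noncomputable def splitRep (φ : cocycles₂ C) : Representation k G (C.V × (Q k G).V) where
  toFun g := splitAct φ g
  map_one' := by
    refine LinearMap.ext (fun ⟨c, x⟩ => ?_)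
    rw [splitAct_apply, Psi_one, eps_coe_Q, zero_smul, add_zero, map_one, map_one]
    rfl
  map_mul' g h := by
    refine LinearMap.ext (fun ⟨c, x⟩ => ?_)
    rw [Module.End.mul_apply, splitAct_apply, splitAct_apply, splitAct_apply]
    have key := Psi_mul φ g h (x : G → k)
    rw [eps_coe_Q, zero_smul, add_zero] at key
    refine Prod.ext ?_ ?_
    · simp only
      rw [key, map_mul, Module.End.mul_apply, map_add, Q_ρ_coe]
      abel
    · simp only
      rw [map_mul, Module.End.mul_apply]

/-- The splitting module `M = C(φ)`. -/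
noncomputable abbrev Msplit (φ : cocycles₂ C) : Rep k G := Rep.of (splitRep φ)

lemma Msplit_ρ_apply (φ : cocycles₂ C) (g : G) (c : C.V) (x : (Q k G).V) :
    (Msplit φ).ρ g (c, x) = (C.ρ g c + Psi C φ g (x : G → k), (Q k G).ρ g x) := rfl

/-- `C ⟶ M`, `c ↦ (c, 0)`. -/
noncomputable def fSplit (φ : cocycles₂ C) : C ⟶ Msplit φ :=
  Rep.ofHom (ρ := C.ρ) (σ := splitRep φ) ⟨LinearMap.inl k C.V (Q k G).V, fun g => by
    refine LinearMap.ext (fun c => ?_)
    show ((C.ρ g c, 0) : C.V × (Q k G).V) = splitAct φ g (c, 0)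
    rw [splitAct_apply]
    simp⟩

/-- `M ⟶ I_G`, `(c, x) ↦ x`. -/
noncomputable def gSplit (φ : cocycles₂ C) : Msplit φ ⟶ Q k G :=
  Rep.ofHom (ρ := splitRep φ) (σ := (Q k G).ρ) ⟨LinearMap.snd k C.V (Q k G).V, fun g => by
    refine LinearMap.ext (fun ⟨c, x⟩ => ?_)
    rfl⟩

lemma fSplit_apply (φ : cocycles₂ C) (c : C.V) : (fSplit φ).hom c = (c, 0) := rfl

lemma gSplit_apply (φ : cocycles₂ C) (m : C.V × (Q k G).V) : (gSplit φ).hom m = m.2 := rfl

lemma fSplit_comp_gSplit (φ : cocycles₂ C) : fSplit φ ≫ gSplit φ = 0 := by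
  apply Rep.hom_ext
  apply Representation.IntertwiningMap.ext
  refine LinearMap.ext (fun c => ?_)
  rfl

/-- The short complex `C ⟶ M ⟶ I_G`. -/
noncomputable abbrev splitSC (φ : cocycles₂ C) : ShortComplex (Rep k G) :=
  ShortComplex.mk (fSplit φ) (gSplit φ) (fSplit_comp_gSplit φ)

lemma splitSC_shortExact (φ : cocycles₂ C) : (splitSC φ).ShortExact := by
  have hmono : Mono (fSplit φ) := by
    rw [Rep.mono_iff_injective]
    intro c c' h
    exact congrArg Prod.fst h
  have hepi : Epi (gSplit φ) := by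
    rw [Rep.epi_iff_surjective]
    intro x
    exact ⟨(0, x), rfl⟩
  have hex : (splitSC φ).Exact := by
    rw [← ShortComplex.exact_map_iff_of_faithful _ (forget₂ (Rep k G) (ModuleCat k)),
      ShortComplex.moduleCat_exact_iff]
    rintro ⟨c, x⟩ hx
    refine ⟨c, ?_⟩
    have hx' : x = 0 := hx
    subst hx'
    rfl
  exact ShortComplex.ShortExact.mk hex

end Twist

/-! ### Normalised cocycles -/

section Normalise

variable {k G : Type} [CommRing k] [Group G] {C : Rep k G}

/-- Every class in `H²(G, C)` is represented by a normalised cocycle. -/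
theorem exists_normalised (u : groupCohomology C 2) :
    ∃ φ : cocycles₂ C, H2π C φ = u ∧ (∀ g : G, φ (g, 1) = 0) ∧ ∀ g : G, φ (1, g) = 0 := by
  induction u using H2_induction_on with
  | h φ =>
    set c : C.V := φ (1, 1) with hc
    let b : cocycles₂ C := ⟨d₁₂ C (fun _ : G => c), d₁₂_apply_mem_cocycles₂ _⟩
    have hb : ∀ g h : G, b (g, h) = C.ρ g c := by
      intro g h
      show (d₁₂ C (fun _ : G => c)) (g, h) = C.ρ g c
      rw [d₁₂_hom_apply]
      simp
    refine ⟨φ - b, ?_, ?_, ?_⟩
    · rw [H2π_eq_iff]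
      have : ⇑(φ - b) - ⇑φ = -(d₁₂ C (fun _ : G => c)) := by
        funext x
        show (φ x - b x) - φ x = -(b x)
        abel
      rw [this]
      exact Submodule.neg_mem _ (LinearMap.mem_range_self _ _)
    · intro g
      show φ (g, 1) - b (g, 1) = 0
      rw [hb, cocycles₂_map_one_snd, sub_self]
    · intro g
      show φ (1, g) - b (1, g) = 0
      rw [hb, cocycles₂_map_one_fst, map_one, Module.End.one_apply, sub_self]

end Normalise

/-! ### Cohomology of the augmentation ideal over a subgroup -/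

section Sub

variable {k G : Type} [CommRing k] [Group G] [Fintype G] (H : Subgroup G)

/-- `z : H → I_G`, `h ↦ [h] - [1]`, as a 1-cocycle of `Res_H I_G`. -/
noncomputable def zc : cocycles₁ (Rep.res H.subtype (Q k G)) :=
  ⟨fun h => ⟨zfun k (h : G), zfun_mem k (h : G)⟩, by
    rw [mem_cocycles₁_iff]
    intro g h
    apply Subtype.ext
    exact zfun_mul k (g : G) (h : G)⟩

lemma zc_apply_coe (h : H) : ((zc (k := k) H h : (Q k G).V) : G → k) = zfun k (h : G) := rfl

/-- A 1-cocycle of `Res_H I_G`, viewed in `Res_H R`. -/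
noncomputable def toR₁ (c : cocycles₁ (Rep.res H.subtype (Q k G))) :
    cocycles₁ (Rep.res H.subtype (R k G)) :=
  ⟨fun h => ((c h : (Q k G).V) : G → k), by
    rw [mem_cocycles₁_iff]
    intro g h
    exact congrArg Subtype.val ((mem_cocycles₁_iff c).1 c.2 g h)⟩

/-- A 2-cocycle of `Res_H I_G`, viewed in `Res_H R`. -/
noncomputable def toR₂ (c : cocycles₂ (Rep.res H.subtype (Q k G))) :
    cocycles₂ (Rep.res H.subtype (R k G)) :=
  ⟨fun p => ((c p : (Q k G).V) : G → k), by
    rw [mem_cocycles₂_iff]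
    intro g h j
    exact congrArg Subtype.val ((mem_cocycles₂_iff c).1 c.2 g h j)⟩

/-- `H¹(H, I_G)` is generated by the class of `z`. -/
theorem exists_smul_eq (hR1 : IsZero (groupCohomology (Rep.res H.subtype (R k G)) 1))
    (x : groupCohomology (Rep.res H.subtype (Q k G)) 1) :
    ∃ n : k, x = n • H1π (Rep.res H.subtype (Q k G)) (zc H) := by
  induction x using H1_induction_on with
  | h c =>
    have hsub := ModuleCat.subsingleton_of_isZero hR1
    have h0 : H1π (Rep.res H.subtype (R k G)) (toR₁ H c) = 0 := Subsingleton.elim _ _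
    rw [H1π_eq_zero_iff] at h0
    obtain ⟨r, hr⟩ := h0
    have hr' : ∀ h : H, funRep k G (h : G) r - r = ((c h : (Q k G).V) : G → k) := by
      intro h
      exact congrFun hr h
    set n : k := eps k G r with hn
    have hmem : r - n • ind k (1 : G) ∈ augSub k G := by
      rw [augSub, LinearMap.mem_ker, map_sub, map_smul, eps_ind, smul_eq_mul, mul_one, hn,
        sub_self]
    refine ⟨n, ?_⟩
    rw [← map_smul, H1π_eq_iff]
    refine ⟨(⟨r - n • ind k (1 : G), hmem⟩ : (Q k G).V), ?_⟩
    funext h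
    apply Subtype.ext
    show funRep k G (h : G) (r - n • ind k (1 : G)) - (r - n • ind k (1 : G)) =
      ((c h : (Q k G).V) : G → k) - n • zfun k (h : G)
    rw [← hr' h, zfun_eq, map_sub, map_smul, smul_sub]
    abel

/-- `H²(H, I_G) = 0` (for `k` without `|H|`-torsion, e.g. `k = ℤ`). -/
theorem isZero_H2_Q (hk : ∀ (n : ℕ) (a : k), n ≠ 0 → (n : k) * a = 0 → a = 0)
    (hR2 : IsZero (groupCohomology (Rep.res H.subtype (R k G)) 2)) :
    IsZero (groupCohomology (Rep.res H.subtype (Q k G)) 2) := by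
  have hsubR := ModuleCat.subsingleton_of_isZero hR2
  have : Subsingleton (groupCohomology (Rep.res H.subtype (Q k G)) 2) := by
    refine ⟨fun x y => ?_⟩
    suffices hz : ∀ x : groupCohomology (Rep.res H.subtype (Q k G)) 2, x = 0 by
      rw [hz x, hz y]
    intro x
    induction x using H2_induction_on with
    | h c =>
      have h0 : H2π (Rep.res H.subtype (R k G)) (toR₂ H c) = 0 := Subsingleton.elim _ _
      rw [H2π_eq_zero_iff] at h0
      obtain ⟨b, hb⟩ := h0
      -- `b : H → (G → k)` with `d b = c` in `R`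
      have hb' : ∀ g h : H, funRep k G (g : G) (b h) - b (g * h) + b g =
          ((c (g, h) : (Q k G).V) : G → k) := by
        intro g h
        exact congrFun hb (g, h)
      -- `m = ε ∘ b` is additive
      set m : H → k := fun h => eps k G (b h) with hm
      have hadd : ∀ g h : H, m (g * h) = m g + m h := by
        intro g h
        have h1 := congrArg (eps k G) (hb' g h)
        rw [eps_coe_Q, map_add, map_sub, eps_funRep] at h1
        simp only [hm]
        linear_combination -h1
      have hone : m 1 = 0 := by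
        have := hadd 1 1
        rw [mul_one] at this
        linear_combination -this
      have hpow : ∀ (h : H) (n : ℕ), m (h ^ n) = (n : k) * m h := by
        intro h n
        induction n with
        | zero => simp [hone]
        | succ n ih => rw [pow_succ, hadd, ih]; push_cast; ring
      have hzero : ∀ h : H, m h = 0 := by
        intro h
        refine hk (Nat.card H) (m h) Nat.card_pos.ne' ?_
        rw [← hpow, pow_card_eq_one', hone]
      -- so `b` takes values in `I_G`
      rw [H2π_eq_zero_iff]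
      refine ⟨fun h => (⟨b h, hzero h⟩ : (Q k G).V), ?_⟩
      funext p
      obtain ⟨g, h⟩ := p
      apply Subtype.ext
      exact hb' g h
  exact ModuleCat.isZero_of_subsingleton _

/-- `H²(G, I_G) = 0` for `G` itself (via the subgroup `⊤`, at the cocycle level). -/
theorem isZero_H2_Q_top (hk : ∀ (n : ℕ) (a : k), n ≠ 0 → (n : k) * a = 0 → a = 0)
    (hR2 : IsZero (groupCohomology (Rep.res (⊤ : Subgroup G).subtype (R k G)) 2)) :
    IsZero (groupCohomology (Q k G) 2) := by
  have hsub := ModuleCat.subsingleton_of_isZero (isZero_H2_Q (⊤ : Subgroup G) hk hR2)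
  have : Subsingleton (groupCohomology (Q k G) 2) := by
    refine ⟨fun x y => ?_⟩
    suffices hz : ∀ x : groupCohomology (Q k G) 2, x = 0 by
      rw [hz x, hz y]
    intro x
    induction x using H2_induction_on with
    | h c =>
      let c' : cocycles₂ (Rep.res (⊤ : Subgroup G).subtype (Q k G)) :=
        ⟨fun p => c ((p.1 : G), (p.2 : G)), by
          rw [mem_cocycles₂_iff]
          intro g h j
          exact (mem_cocycles₂_iff c).1 c.2 (g : G) (h : G) (j : G)⟩
      have h0 : H2π (Rep.res (⊤ : Subgroup G).subtype (Q k G)) c' = 0 := Subsingleton.elim _ _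
      rw [H2π_eq_zero_iff] at h0
      obtain ⟨b, hb⟩ := h0
      rw [H2π_eq_zero_iff]
      refine ⟨fun g => b ⟨g, Subgroup.mem_top g⟩, ?_⟩
      funext p
      obtain ⟨g, h⟩ := p
      exact congrFun hb (⟨g, Subgroup.mem_top g⟩, ⟨h, Subgroup.mem_top h⟩)
  exact ModuleCat.isZero_of_subsingleton _

/-- `|H| • [z] = 0` in `H¹(H, I_G)`. -/
theorem card_smul_zc :
    (Nat.card H : k) • H1π (Rep.res H.subtype (Q k G)) (zc H) = 0 := by
  classical
  have : Fintype H := Fintype.ofFinite H
  rw [← map_smul, H1π_eq_zero_iff]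
  refine ⟨-∑ h' : H, (zc (k := k) H h' : (Q k G).V), ?_⟩
  funext h
  have hcoc : ∀ h' : H, (Rep.res H.subtype (Q k G)).ρ h (zc (k := k) H h') =
      zc (k := k) H (h * h') - zc (k := k) H h := by
    intro h'
    rw [(mem_cocycles₁_iff (zc (k := k) H)).1 (zc (k := k) H).2 h h']
    abel
  show (Rep.res H.subtype (Q k G)).ρ h (-∑ h' : H, (zc (k := k) H h' : (Q k G).V)) -
      (-∑ h' : H, (zc (k := k) H h' : (Q k G).V)) = (Nat.card H : k) • zc (k := k) H h
  rw [map_neg, map_sum]
  simp only [hcoc, Finset.sum_sub_distrib, Finset.sum_const, Finset.card_univ]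
  have hre : ∑ h' : H, (zc (k := k) H (h * h') : (Q k G).V) =
      ∑ h' : H, (zc (k := k) H h' : (Q k G).V) :=
    Fintype.sum_equiv (Equiv.mulLeft h) _ _ (fun _ => rfl)
  rw [hre, Nat.card_eq_fintype_card, ← Nat.cast_smul_eq_nsmul k]
  abel

/-- The connecting map of `0 → C → C(φ) → I_G → 0`, restricted to `H`, sends `[z]` to
`res [φ]`. -/
theorem delta_zc {C : Rep k G} (φ : cocycles₂ C) (hφ1 : ∀ g : G, φ (g, 1) = 0) :
    groupCohomology.δ (X := (splitSC φ).map (Rep.resFunctor H.subtype))
        ((Rep.shortExact_res H.subtype).2 (splitSC_shortExact φ)) 1 2 rfl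
        (H1π (Rep.res H.subtype (Q k G)) (zc H)) =
      groupCohomology.map H.subtype (𝟙 (Rep.res H.subtype C)) 2 (H2π C φ) := by
  have hy : ⇑(((splitSC φ).map (Rep.resFunctor H.subtype)).g.hom) ∘
      (fun h : H => ((0, zc (k := k) H h) : C.V × (Q k G).V)) = ⇑(zc (k := k) H) := by
    funext h
    rfl
  have hx : ⇑(((splitSC φ).map (Rep.resFunctor H.subtype)).f.hom) ∘
      (fun p : H × H => φ ((p.1 : G), (p.2 : G))) =
      (d₁₂ ((splitSC φ).map (Rep.resFunctor H.subtype)).X₂)
        (fun h : H => ((0, zc (k := k) H h) : C.V × (Q k G).V)) := by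
    funext p
    obtain ⟨h₁, h₂⟩ := p
    show ((φ ((h₁ : G), (h₂ : G)), 0) : C.V × (Q k G).V) =
      (Msplit φ).ρ (h₁ : G) (0, zc (k := k) H h₂) - (0, zc (k := k) H (h₁ * h₂)) +
        (0, zc (k := k) H h₁)
    rw [Msplit_ρ_apply]
    refine Prod.ext ?_ ?_
    · show φ ((h₁ : G), (h₂ : G)) =
        C.ρ (h₁ : G) 0 + Psi C φ (h₁ : G) (zfun k (h₂ : G)) - 0 + 0
      rw [map_zero, zero_add, sub_zero, add_zero, zfun, map_sub, Psi_ind, Psi_ind, inv_inv,
        inv_one, hφ1, sub_zero]
    · show (0 : (Q k G).V) = (Q k G).ρ (h₁ : G) (zc (k := k) H h₂) - zc (k := k) H (h₁ * h₂) +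
        zc (k := k) H h₁
      have := (mem_cocycles₁_iff (zc (k := k) H)).1 (zc (k := k) H).2 h₁ h₂
      rw [this]
      show (0 : (Q k G).V) = (Q k G).ρ (h₁ : G) (zc (k := k) H h₂) -
        ((Q k G).ρ (h₁ : G) (zc (k := k) H h₂) + zc (k := k) H h₁) + zc (k := k) H h₁
      abel
  have key := groupCohomology.δ₁_apply
    ((Rep.shortExact_res H.subtype).2 (splitSC_shortExact φ)) (zc (k := k) H)
    (fun h : H => ((0, zc (k := k) H h) : C.V × (Q k G).V)) hy
    (fun p : H × H => φ ((p.1 : G), (p.2 : G))) hx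
  rw [H2π_comp_map_apply]
  refine key.trans ?_
  congr 1

end Sub

/-! ### The final statement -/

/-- **T.split**: the splitting module of `u ∈ H²(G, C)`. -/
theorem splittingModule (h : CoindAcyclic) : SplittingModule := by
  intro G _ _ C u
  classical
  let _ : Fintype G := Fintype.ofFinite G
  obtain ⟨φ, hφu, hφ1, -⟩ := exists_normalised u
  have hkℤ : ∀ (n : ℕ) (a : ℤ), n ≠ 0 → (n : ℤ) * a = 0 → a = 0 := by
    intro n a hn h0
    rcases mul_eq_zero.1 h0 with h1 | h1
    · exact absurd (by exact_mod_cast h1) hn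
    · exact h1
  refine ⟨Msplit φ, Q ℤ G, fSplit φ, gSplit φ, fSplit_comp_gSplit φ, splitSC_shortExact φ,
    isZero_H2_Q_top hkℤ (isZero_R G h ⊤ 2 (by norm_num)),
    fun H => ⟨isZero_H2_Q H hkℤ (isZero_R G h H 2 (by norm_num)),
      H1π (Rep.res H.subtype (Q ℤ G)) (zc H), ?_, ?_, ?_⟩⟩
  · intro x
    obtain ⟨n, hn⟩ := exists_smul_eq H (isZero_R G h H 1 one_pos) x
    exact ⟨n, hn.trans (int_smul_eq_zsmul _ n _)⟩
  · exact (int_smul_eq_zsmul _ _ _).symm.trans (card_smul_zc (k := ℤ) H)
  · rw [← hφu]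
    exact delta_zc H φ hφ1

end Fermat.Agent.S55.Tate.Splitting
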