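/-
S55 / TATE block (helper35): the two exports of the block, CLOSED (unconditional).

* `nakayamaH3 : Blocks.NakayamaH3`
* `tateH3 : Blocks.TateH3`
-/
import Mathlib
import Fermat.Agent.S55.Tate.Blocks
import Fermat.Agent.S55.Tate.Final
import Fermat.Agent.S55.Tate.Splitting
import Fermat.Agent.S55.Tate.CoindAcyclic

set_option autoImplicit false

namespace Fermat.Agent.S55.Tate.Closed

open Fermat.Agent.S55.Tate Fermat.Agent.S55.Tate.Blocks

/-- Row (T.split), closed (helper40's `Splitting.lean`; helper92's `SplittingModCoind.lean` is an
independent second proof). -/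
theorem splittingModule : SplittingModule :=
  Splitting.splittingModule CoindAcyclic.coindAcyclic

/-- **Nakayama's criterion in degree 3.** -/
theorem nakayamaH3 : NakayamaH3 := Final.nakayamaH3

/-- **Tate's theorem in degree 3**: a `G`-module with a fundamental class has `H³ = 0`. -/
theorem tateH3 : TateH3 := Final.tateH3_of_split splittingModule

end Fermat.Agent.S55.Tate.Closed
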