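/-
S55 / Tate block, hedge route to `Blocks.TateH3` through degrees ≤ 2 (helper86), part 1:
DIMENSION SHIFT.  `Fun(G, A)` (coinduced from the trivial subgroup), the embedding
`A → Fun(G, A)`, the quotient `up A`, the short exact sequence, and
`H²(G, up A) = 0 → H³(G, A) = 0` (Mathlib long exact sequence + Shapiro).
-/
import Mathlib

set_option autoImplicit false

namespace Fermat.Agent.S55.Tate.H3VanishShift

universe u

open CategoryTheory CategoryTheory.Limits groupCohomology Rep

variable {k G : Type u} [CommRing k] [Group G] (A : Rep.{u} k G)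

/-- The representation of `G` on all functions `G → A`, `(g • f) x = f (x * g)`. -/
def funρ : Representation k G (G → A.V) where
  toFun g := LinearMap.funLeft k A.V (· * g)
  map_one' := by ext f x; simp [LinearMap.funLeft]
  map_mul' g h := by ext f x; simp [LinearMap.funLeft, mul_assoc]

@[simp] lemma funρ_apply (g : G) (f : G → A.V) (x : G) : funρ A g f x = f (x * g) := rfl

/-- `Fun(G, A)` as an object of `Rep k G`. -/
noncomputable abbrev funRep : Rep.{u} k G := Rep.of (funρ A)

/-- the linear equivalence underlying `funRepIsoCoind`. -/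
def funEquivCoindV :
    (G → A.V) ≃ₗ[k] Representation.coindV (⊥ : Subgroup G).subtype
      (res (⊥ : Subgroup G).subtype A).ρ where
  toFun f := ⟨f, by
    rintro ⟨g, hg⟩ h
    obtain rfl := Subgroup.mem_bot.1 hg
    simp⟩
  map_add' _ _ := rfl
  map_smul' _ _ := rfl
  invFun f := f.1
  left_inv _ := rfl
  right_inv _ := rfl

/-- `funRep A` is the representation coinduced from the trivial subgroup. -/
noncomputable def funRepIsoCoind :
    funRep A ≅ coind (⊥ : Subgroup G).subtype (res (⊥ : Subgroup G).subtype A) :=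
  Rep.mkIso (.mk (funEquivCoindV A) fun g => by ext f x; rfl)

lemma isZero_groupCohomology_funRep (n : ℕ) : IsZero (groupCohomology (funRep A) (n + 1)) := by
  have h1 : IsZero (groupCohomology (res (⊥ : Subgroup G).subtype A) (n + 1)) :=
    isZero_groupCohomology_succ_of_subsingleton _ n
  have h2 := h1.of_iso (coindIso (res (⊥ : Subgroup G).subtype A) (n + 1))
  exact h2.of_iso ((functor k G (n + 1)).mapIso (funRepIsoCoind A))

/-- the embedding `A → Fun(G, A)`, `a ↦ (x ↦ x • a)`. -/
noncomputable def ι : A ⟶ funRep A :=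
  Rep.ofHom ⟨LinearMap.pi fun x => A.ρ x, fun g => by
    ext a x
    simp⟩

@[simp] lemma ι_apply (a : A.V) (x : G) : (ι A).hom a x = A.ρ x a := rfl

lemma ι_injective : Function.Injective (ι A).hom := by
  intro a b h
  have := congr_fun h 1
  rw [ι_apply, ι_apply, map_one] at this
  exact this

/-- the image of `A` in `Fun(G, A)`. -/
noncomputable def ιRange : Submodule k (G → A.V) := LinearMap.range (ι A).hom.toLinearMap

lemma mem_ιRange (f : G → A.V) : f ∈ ιRange A ↔ ∃ a : A.V, ∀ x, f x = A.ρ x a := by
  constructor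
  · rintro ⟨a, rfl⟩
    exact ⟨a, fun x => rfl⟩
  · rintro ⟨a, ha⟩
    exact ⟨a, funext fun x => (ha x).symm⟩

lemma ιRange_le_comap (g : G) : ιRange A ≤ (ιRange A).comap ((funRep A).ρ g) := by
  intro f hf
  obtain ⟨a, ha⟩ := (mem_ιRange A f).1 hf
  refine (mem_ιRange A _).2 ⟨A.ρ g a, fun x => ?_⟩
  show f (x * g) = _
  rw [ha, map_mul]; rfl

/-- the dimension shift `A' = Fun(G, A) / A`. -/
noncomputable abbrev up : Rep.{u} k G := Rep.quotient (funRep A) (ιRange A) (ιRange_le_comap A)

/-- the projection `Fun(G, A) → A'`. -/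
noncomputable abbrev π : funRep A ⟶ up A := Rep.mkQ (funRep A) (ιRange A) (ιRange_le_comap A)

/-- the dimension shifting short exact sequence `0 → A → Fun(G, A) → A' → 0`. -/
noncomputable def shiftSC : ShortComplex (Rep.{u} k G) where
  X₁ := A
  X₂ := funRep A
  X₃ := up A
  f := ι A
  g := π A
  zero := by
    ext a
    exact (Submodule.Quotient.mk_eq_zero _).2 ⟨a, rfl⟩

lemma shiftSC_shortExact : (shiftSC A).ShortExact where
  exact := (forget₂ (Rep.{u} k G) (ModuleCat k)).reflects_exact_of_faithful _ <|
    (ShortComplex.moduleCat_exact_iff _).2 fun x hx => by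
      obtain ⟨a, ha⟩ := (Submodule.Quotient.mk_eq_zero _).1 hx
      exact ⟨a, ha⟩
  mono_f := (Rep.mono_iff_injective _).2 (ι_injective A)
  epi_g := (Rep.epi_iff_surjective _).2 <| Submodule.mkQ_surjective _

/-- `H²(G, A') = 0 → H³(G, A) = 0`. -/
lemma isZero_H3_of_isZero_H2_up (h : IsZero (groupCohomology (up A) 2)) :
    IsZero (groupCohomology A 3) := by
  have := isIso_δ_of_isZero (shiftSC_shortExact A) 2 (isZero_groupCohomology_funRep A 1)
    (isZero_groupCohomology_funRep A 2)
  exact h.of_iso (asIso (δ (shiftSC_shortExact A) 2 3 rfl)).symm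

end Fermat.Agent.S55.Tate.H3VanishShift
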