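/-
S55 / TATE block (helper35): the splitting module of a 2-cocycle, MODEL-INDEPENDENT core.

Data: `C Q : Rep k G`, a 2-cocycle `φ : G × G → C`, a map `dd : G → Q` with
`g • dd s = dd (g s) - dd g` whose values span `Q` (think `Q = I_G`, `dd s = [s] - [1]`), and
linear maps `Ψ g : Q → C` with `Ψ g (dd s) = φ (g, s) - φ (g, 1)`.

Output: the twisted representation `M` on `C × Q`, `g • (c, x) = (g c + Ψ g x, g x)`, the short
exact sequence `0 → C → M → Q → 0`, and for every subgroup `H ≤ G` the formula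
`δ [h ↦ dd h] = res_H [φ]`.
-/
import Mathlib

set_option autoImplicit false

namespace Fermat.Agent.S55.Tate.SplittingAbstract

open CategoryTheory CategoryTheory.Limits groupCohomology Rep

variable {k G : Type} [CommRing k] [Group G] {C Q : Rep.{0} k G}
  (φ : G × G → C) (hφ : φ ∈ cocycles₂ C)
  (dd : G → Q) (hdd : ∀ g s : G, Q.ρ g (dd s) = dd (g * s) - dd g)
  (hspan : Submodule.span k (Set.range dd) = ⊤)
  (Ψ : G → (Q.V →ₗ[k] C.V)) (hΨ : ∀ g s : G, Ψ g (dd s) = φ (g, s) - φ (g, 1))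

include hφ in
theorem phi_one_left (s : G) : φ (1, s) = φ (1, 1) := by
  have h := (mem_cocycles₂_iff φ).1 hφ 1 1 s
  simp only [mul_one, one_mul, map_one, Module.End.one_apply] at h
  exact (add_left_cancel h).symm

include hφ in
theorem phi_one_right (g h : G) : C.ρ g (φ (h, 1)) = φ (g * h, 1) := by
  have h' := (mem_cocycles₂_iff φ).1 hφ g h 1
  simp only [mul_one] at h'
  exact (add_right_cancel h').symm

include hφ hspan hΨ in
theorem Psi_one : Ψ 1 = 0 := by
  apply LinearMap.ext_on_range hspan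
  intro s
  rw [hΨ, phi_one_left φ hφ s, sub_self, LinearMap.zero_apply]

include hφ hdd hspan hΨ in
theorem Psi_mul (g h : G) (x : Q) : Ψ (g * h) x = C.ρ g (Ψ h x) + Ψ g (Q.ρ h x) := by
  have key : Ψ (g * h) = (C.ρ g) ∘ₗ (Ψ h) + (Ψ g) ∘ₗ (Q.ρ h) := by
    apply LinearMap.ext_on_range hspan
    intro s
    simp only [LinearMap.add_apply, LinearMap.coe_comp, Function.comp_apply]
    rw [hΨ, hΨ, hdd, map_sub, map_sub, hΨ, hΨ, phi_one_right φ hφ g h]
    have h1 := (mem_cocycles₂_iff φ).1 hφ g h s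
    -- φ (g * h, s) + φ (g, h) = C.ρ g (φ (h, s)) + φ (g, h * s)
    have e : C.ρ g (φ (h, s)) = φ (g * h, s) + φ (g, h) - φ (g, h * s) := by
      rw [h1]; abel
    rw [e]; abel
  rw [key]
  rfl

/-- One step of the twisted action, as a linear map. -/
noncomputable def twistedLin (g : G) : (C.V × Q.V) →ₗ[k] (C.V × Q.V) where
  toFun p := (C.ρ g p.1 + Ψ g p.2, Q.ρ g p.2)
  map_add' p q := by
    ext
    · simp only [Prod.fst_add, Prod.snd_add, map_add]; abel
    · simp only [Prod.snd_add, map_add]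
  map_smul' r p := by
    ext
    · simp only [Prod.smul_fst, Prod.smul_snd, map_smul, RingHom.id_apply, smul_add]
    · simp only [Prod.smul_snd, map_smul, RingHom.id_apply]

@[simp] theorem twistedLin_apply (g : G) (c : C) (x : Q) :
    twistedLin (C := C) (Q := Q) Ψ g (c, x) = (C.ρ g c + Ψ g x, Q.ρ g x) := rfl

/-- The twisted action on `C × Q`. -/
noncomputable def twistedRho : Representation k G (C.V × Q.V) where
  toFun g := twistedLin (C := C) (Q := Q) Ψ g
  map_one' := by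
    apply LinearMap.ext
    rintro ⟨c, x⟩
    rw [twistedLin_apply, Psi_one φ hφ dd hspan Ψ hΨ]
    simp
  map_mul' g h := by
    apply LinearMap.ext
    rintro ⟨c, x⟩
    rw [Module.End.mul_apply, twistedLin_apply, twistedLin_apply, twistedLin_apply,
      Psi_mul φ hφ dd hdd hspan Ψ hΨ g h x]
    simp only [map_mul, Module.End.mul_apply, map_add]
    ext
    · simp only; abel
    · rfl

@[simp] theorem twistedRho_apply (g : G) (c : C) (x : Q) :
    twistedRho φ hφ dd hdd hspan Ψ hΨ g (c, x) = (C.ρ g c + Ψ g x, Q.ρ g x) := rfl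

/-- The splitting module. -/
noncomputable abbrev M : Rep k G := Rep.of (twistedRho φ hφ dd hdd hspan Ψ hΨ)

/-- `C ⟶ M`, `c ↦ (c, 0)`. -/
noncomputable def inl : C ⟶ M φ hφ dd hdd hspan Ψ hΨ :=
  Rep.ofHom ⟨LinearMap.inl k C.V Q.V, fun g => by
    apply LinearMap.ext
    intro c
    simp⟩

/-- `M ⟶ Q`, `(c, x) ↦ x`. -/
noncomputable def snd : M φ hφ dd hdd hspan Ψ hΨ ⟶ Q :=
  Rep.ofHom ⟨LinearMap.snd k C.V Q.V, fun g => by
    apply LinearMap.ext
    rintro ⟨c, x⟩
    simp⟩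

@[simp] theorem inl_apply (c : C) : (inl φ hφ dd hdd hspan Ψ hΨ).hom c = (c, 0) := rfl

@[simp] theorem snd_apply (m : C.V × Q.V) : (snd φ hφ dd hdd hspan Ψ hΨ).hom m = m.2 := rfl

theorem inl_snd : inl φ hφ dd hdd hspan Ψ hΨ ≫ snd φ hφ dd hdd hspan Ψ hΨ = 0 := by
  ext c
  rfl

/-- The short complex `0 → C → M → Q → 0`. -/
noncomputable abbrev SC : ShortComplex (Rep k G) :=
  ShortComplex.mk (inl φ hφ dd hdd hspan Ψ hΨ) (snd φ hφ dd hdd hspan Ψ hΨ)
    (inl_snd φ hφ dd hdd hspan Ψ hΨ)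

theorem SC_shortExact : (SC φ hφ dd hdd hspan Ψ hΨ).ShortExact := by
  refine ShortComplex.ShortExact.mk' ?_ ?_ ?_
  · rw [← ShortComplex.exact_map_iff_of_faithful _ (forget₂ (Rep k G) (ModuleCat k)),
      ShortComplex.moduleCat_exact_iff]
    rintro ⟨c, x⟩ hx
    have hx0 : x = 0 := hx
    exact ⟨c, by rw [hx0]; rfl⟩
  · rw [Rep.mono_iff_injective]
    intro a b hab
    exact congrArg Prod.fst hab
  · rw [Rep.epi_iff_surjective]
    intro x
    exact ⟨((0 : C.V), x), rfl⟩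

section Delta

variable (H : Subgroup G)

/-- The canonical `1`-cocycle `h ↦ dd h` of `H ≤ G` with values in `Q`. -/
noncomputable def gammaCoc (hdd : ∀ g s : G, Q.ρ g (dd s) = dd (g * s) - dd g) :
    cocycles₁ (Rep.res H.subtype Q) :=
  ⟨fun h => dd (h : G), by
    rw [mem_cocycles₁_iff]
    intro g h
    show dd ((g * h : H) : G) = Q.ρ (g : G) (dd (h : G)) + dd (g : G)
    rw [hdd]
    simp⟩

/-- The short exact sequence restricted to `H`. -/
theorem SC_res_shortExact :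
    ((SC φ hφ dd hdd hspan Ψ hΨ).map (Rep.resFunctor H.subtype)).ShortExact :=
  (Rep.shortExact_res H.subtype).2 (SC_shortExact φ hφ dd hdd hspan Ψ hΨ)

/-- **The connecting homomorphism sends `[h ↦ dd h]` to `res_H [φ]`.** -/
theorem δ_gamma :
    groupCohomology.δ (SC_res_shortExact φ hφ dd hdd hspan Ψ hΨ H) 1 2 rfl
        (H1π (Rep.res H.subtype Q) (gammaCoc dd H hdd)) =
      groupCohomology.map H.subtype (𝟙 (Rep.res H.subtype C)) 2 (H2π C ⟨φ, hφ⟩) := by
  -- the lift `y h = (0, dd h)` and the 2-cochain `x (h₁, h₂) = φ (h₁, h₂) - φ (h₁, 1)`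
  let y : H → ((SC φ hφ dd hdd hspan Ψ hΨ).map (Rep.resFunctor H.subtype)).X₂ :=
    fun h => ((0 : C.V), dd (h : G))
  let x : H × H → ((SC φ hφ dd hdd hspan Ψ hΨ).map (Rep.resFunctor H.subtype)).X₁ :=
    fun p => φ ((p.1 : G), (p.2 : G)) - φ ((p.1 : G), 1)
  have hy : ((SC φ hφ dd hdd hspan Ψ hΨ).map (Rep.resFunctor H.subtype)).g.hom ∘ y =
      (gammaCoc dd H hdd : H → Q) := rfl
  have hx : ((SC φ hφ dd hdd hspan Ψ hΨ).map (Rep.resFunctor H.subtype)).f.hom ∘ x =
      d₁₂ ((SC φ hφ dd hdd hspan Ψ hΨ).map (Rep.resFunctor H.subtype)).X₂ y := by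
    funext p
    obtain ⟨g, h⟩ := p
    rw [d₁₂_hom_apply]
    show ((φ ((g : G), (h : G)) - φ ((g : G), 1) : C.V), (0 : Q.V)) =
      twistedRho φ hφ dd hdd hspan Ψ hΨ (g : G) ((0 : C.V), dd (h : G))
        - ((0 : C.V), dd ((g * h : H) : G)) + ((0 : C.V), dd (g : G))
    rw [twistedRho_apply, hΨ, hdd]
    ext
    · simp
    · simp
  have key := δ₁_apply (SC_res_shortExact φ hφ dd hdd hspan Ψ hΨ H) (gammaCoc dd H hdd) y hy x hx
  refine key.trans ?_
  have hmap : groupCohomology.map H.subtype (𝟙 (Rep.res H.subtype C)) 2 (H2π C ⟨φ, hφ⟩) =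
      H2π (Rep.res H.subtype C) (mapCocycles₂ H.subtype (𝟙 (Rep.res H.subtype C)) ⟨φ, hφ⟩) :=
    H2π_comp_map_apply H.subtype (𝟙 (Rep.res H.subtype C)) ⟨φ, hφ⟩
  refine Eq.trans ?_ hmap.symm
  refine (H2π_eq_iff (A := Rep.res H.subtype C) _ _).2 ?_
  refine ⟨fun _ => -φ (1, 1), ?_⟩
  funext p
  obtain ⟨g, h⟩ := p
  rw [d₁₂_hom_apply]
  show (Rep.res H.subtype C).ρ g (-φ (1, 1)) - (-φ (1, 1)) + (-φ (1, 1)) =
    (φ ((g : G), (h : G)) - φ ((g : G), 1)) - φ ((g : G), (h : G))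
  have h1 : (Rep.res H.subtype C).ρ g (φ (1, 1)) = φ ((g : G), 1) := by
    have := phi_one_right φ hφ (g : G) 1
    rw [mul_one] at this
    exact this
  rw [map_neg, h1]
  abel

end Delta

end Fermat.Agent.S55.Tate.SplittingAbstract
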