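/-
S55 / TATE block, row 143 (splitting module), AUGMENTATION-IDEAL half: definitions.
(helper91; the module half `SplittingMod.lean` is helper40's.)

`regRep G` is the left regular representation of `G` on the plain finitely supported functions
`G →₀ ℤ` (no `MonoidAlgebra` wrapper), `augRep G` is the augmentation ideal `I_G = ker ε` as a
subrepresentation, `dd g = [g] - [1] ∈ I_G`, and `gammaCocycle H : h ↦ dd h` is the canonical
`1`-cocycle of a subgroup `H ≤ G` with values in `I_G`.
-/
import Mathlib
import Fermat.Agent.S55.Tate.Blocks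

set_option autoImplicit false
set_option linter.unusedSectionVars false

namespace Fermat.Agent.S55.Tate.SplittingAugDefs

open CategoryTheory groupCohomology Rep Fermat.Agent.S55.Tate.Blocks

variable (G : Type) [Group G]

/-- The left regular representation on `G →₀ ℤ`: `g • [s] = [g * s]`. -/
noncomputable def regRho : Representation ℤ G (G →₀ ℤ) where
  toFun g := Finsupp.lmapDomain ℤ ℤ (g * ·)
  map_one' := by
    ext s
    simp
  map_mul' g h := by
    ext s
    simp [mul_assoc]

variable {G}

@[simp] lemma regRho_single (g s : G) (n : ℤ) :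
    regRho G g (Finsupp.single s n) = Finsupp.single (g * s) n := by
  simp [regRho]

lemma regRho_apply (g : G) (x : G →₀ ℤ) : regRho G g x = Finsupp.mapDomain (g * ·) x := rfl

variable (G)

/-- `ℤ[G]` as an object of `Rep ℤ G` (plain `Finsupp` model). -/
noncomputable abbrev regRep : Rep ℤ G := Rep.of (regRho G)

/-- The augmentation `ε : ℤ[G] → ℤ`, sum of the coefficients. -/
noncomputable def eps : (G →₀ ℤ) →ₗ[ℤ] ℤ := Finsupp.linearCombination ℤ (fun _ : G => (1 : ℤ))

variable {G}

@[simp] lemma eps_single (s : G) (n : ℤ) : eps G (Finsupp.single s n) = n := by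
  simp [eps]

@[simp] lemma eps_regRho (g : G) (x : G →₀ ℤ) : eps G (regRho G g x) = eps G x := by
  induction x using Finsupp.induction_linear with
  | zero => simp
  | add x y hx hy => simp [map_add, hx, hy]
  | single s n => simp

variable (G)

/-- The augmentation ideal `I_G = ker ε`. -/
noncomputable def augSub : Submodule ℤ (G →₀ ℤ) := LinearMap.ker (eps G)

variable {G}

lemma mem_augSub {x : G →₀ ℤ} : x ∈ augSub G ↔ eps G x = 0 := LinearMap.mem_ker

lemma augSub_le_comap (g : G) : augSub G ≤ (augSub G).comap (regRho G g) := by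
  intro x hx
  rw [Submodule.mem_comap, mem_augSub, eps_regRho]
  exact mem_augSub.mp hx

variable (G)

/-- The augmentation ideal as a representation: this is the `Q` of `Blocks.SplittingModule`. -/
noncomputable abbrev augRep : Rep ℤ G :=
  Rep.subrepresentation (regRep G) (augSub G) (fun g => augSub_le_comap g)

/-- The inclusion `I_G ⟶ ℤ[G]`. -/
noncomputable abbrev augIncl : augRep G ⟶ regRep G :=
  Rep.subtype (regRep G) (augSub G) (fun g => augSub_le_comap g)

variable {G}

lemma augRep_ρ_coe (g : G) (x : augSub G) :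
    (((augRep G).ρ g x : augSub G) : G →₀ ℤ) = regRho G g (x : G →₀ ℤ) := rfl

/-- `dd g = [g] - [1]`, an element of the augmentation ideal. -/
noncomputable def dd (g : G) : augSub G :=
  ⟨Finsupp.single g 1 - Finsupp.single 1 1, by simp [mem_augSub]⟩

@[simp] lemma dd_coe (g : G) :
    ((dd g : augSub G) : G →₀ ℤ) = Finsupp.single g 1 - Finsupp.single 1 1 := rfl

@[simp] lemma dd_one : dd (1 : G) = 0 := by
  ext1
  simp

/-- `g • dd s = dd (g s) - dd g`. -/
lemma augRep_ρ_dd (g s : G) : (augRep G).ρ g (dd s) = dd (g * s) - dd g := by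
  apply Subtype.ext
  rw [augRep_ρ_coe]
  simp [map_sub]

/-- Every element of `I_G` is `∑ x(s) • dd s`. -/
lemma eq_sum_dd (x : augSub G) :
    (x : G →₀ ℤ) = (x : G →₀ ℤ).sum (fun s n => n • ((dd s : augSub G) : G →₀ ℤ)) := by
  have hx : eps G x = 0 := mem_augSub.mp x.2
  have h1 : (x : G →₀ ℤ).sum (fun s n => n • ((dd s : augSub G) : G →₀ ℤ))
      = (x : G →₀ ℤ).sum (fun s n => Finsupp.single s n)
        - (x : G →₀ ℤ).sum (fun _ n => n • Finsupp.single (1 : G) (1 : ℤ)) := by
    rw [← Finsupp.sum_sub]
    refine Finsupp.sum_congr (fun s _ => ?_)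
    simp [smul_sub]
  rw [h1, Finsupp.sum_single]
  have h2 : (x : G →₀ ℤ).sum (fun _ n => n • Finsupp.single (1 : G) (1 : ℤ))
      = (eps G x) • Finsupp.single (1 : G) (1 : ℤ) := by
    simp only [eps, Finsupp.linearCombination_apply, Finsupp.sum, Finset.sum_smul, smul_eq_mul,
      mul_one]
  rw [h2, hx, zero_smul, sub_zero]

/-- `I_G` is spanned by the `dd g`. -/
lemma span_dd : Submodule.span ℤ (Set.range (fun g : G => (dd g : augSub G))) = ⊤ := by
  rw [eq_top_iff]
  rintro x -
  have hx : x = (x : G →₀ ℤ).sum (fun s n => n • (dd s : augSub G)) := by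
    apply Subtype.ext
    conv_lhs => rw [eq_sum_dd x]
    simp only [Finsupp.sum]
    rw [AddSubmonoidClass.coe_finsetSum]
    rfl
  rw [hx]
  refine Submodule.sum_mem _ (fun s _ => Submodule.smul_mem _ _ (Submodule.subset_span ⟨s, rfl⟩))

/-- The canonical `1`-cocycle `h ↦ [h] - [1]` of `H` with values in `I_G`. -/
noncomputable def gammaCocycle (H : Subgroup G) : cocycles₁ (resSub H (augRep G)) :=
  ⟨fun h => dd (h : G), by
    rw [mem_cocycles₁_iff]
    intro g h
    show dd ((g * h : H) : G) = (augRep G).ρ (g : G) (dd (h : G)) + dd (g : G)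
    rw [augRep_ρ_dd]
    simp⟩

@[simp] lemma gammaCocycle_apply (H : Subgroup G) (h : H) :
    gammaCocycle H h = dd (h : G) := rfl

end Fermat.Agent.S55.Tate.SplittingAugDefs
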