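/-
S55 / TATE block, row 143 (splitting module), AUGMENTATION-IDEAL half: theorems.
(helper91; the module half `SplittingMod.lean` is helper40's.)

From `Blocks.CoindAcyclic` we get, for every finite group `G` and every subgroup `H ≤ G`:
* `H²(H, I_G) = 0`,
* `H¹(H, I_G)` is generated by the class `γ` of `h ↦ [h] - [1]`,
* `|H| • γ = 0`.
-/
import Mathlib
import Fermat.Agent.S55.Tate.Blocks
import Fermat.Agent.S55.Tate.SplittingAugDefs

set_option autoImplicit false
set_option linter.unusedSectionVars false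

namespace Fermat.Agent.S55.Tate.SplittingAugThms

open CategoryTheory CategoryTheory.Limits groupCohomology Rep
open Fermat.Agent.S55.Tate.Blocks Fermat.Agent.S55.Tate.SplittingAugDefs

variable {G : Type} [Group G]

/-! ## `ℤ[G] ≅ Coind_1^G ℤ` for finite `G` -/

/-- The coinduced module `Coind_1^G ℤ` in exactly the shape `Blocks.CoindAcyclic` speaks about. -/
noncomputable abbrev coindZ (G : Type) [Group G] : Rep ℤ G :=
  Rep.coind (⊥ : Subgroup G).subtype (resSub (⊥ : Subgroup G) (Rep.trivial ℤ G ℤ))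

lemma mapDomain_mul_left_apply (g y : G) (x : G →₀ ℤ) :
    (Finsupp.mapDomain (g * ·) x) y = x (g⁻¹ * y) := by
  have h : y = g * (g⁻¹ * y) := by simp
  conv_lhs => rw [h]
  exact Finsupp.mapDomain_apply (mul_right_injective g) x (g⁻¹ * y)

/-- The linear equivalence `ℤ[G] ≃ Fun(G, ℤ)`, `[s] ↦ δ_{s⁻¹}`. -/
noncomputable def regEquivFun [Finite G] :
    (G →₀ ℤ) ≃ₗ[ℤ] (coindZ G).V where
  toFun x := ⟨fun y => x y⁻¹, by
    intro s y
    have hs : ((⊥ : Subgroup G).subtype s : G) = 1 := by
      have := s.2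
      rw [Subgroup.mem_bot] at this
      simpa using this
    simp [hs]⟩
  map_add' x y := by
    apply Subtype.ext
    funext z
    simp
  map_smul' n x := by
    apply Subtype.ext
    funext z
    simp
  invFun F := Finsupp.equivFunOnFinite.symm (fun y => F.1 y⁻¹)
  left_inv x := by
    ext y
    simp
  right_inv F := by
    apply Subtype.ext
    funext y
    simp

lemma regEquivFun_apply [Finite G] (x : G →₀ ℤ) (y : G) :
    (regEquivFun x : (coindZ G).V).1 y = x y⁻¹ := rfl

/-- `ℤ[G] ≅ Coind_1^G ℤ` as representations of the finite group `G`. -/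
noncomputable def regIsoCoind [Finite G] : regRep G ≅ coindZ G :=
  Rep.mkIso (Representation.Equiv.mk regEquivFun (fun g => by
    apply LinearMap.ext
    intro x
    apply Subtype.ext
    funext y
    show (regEquivFun (regRho G g x) : (coindZ G).V).1 y
      = ((coindZ G).ρ g (regEquivFun x)).1 y
    rw [regEquivFun_apply, regRho_apply, mapDomain_mul_left_apply]
    show x (g⁻¹ * y⁻¹) = (regEquivFun x : (coindZ G).V).1 (y * g)
    rw [regEquivFun_apply, mul_inv_rev]))

/-- `ℤ[G]` is acyclic on every subgroup (finite `G`). -/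
theorem isZero_regRep (hC : CoindAcyclic) [Finite G] (H : Subgroup G) (n : ℕ) (hn : 0 < n) :
    IsZero (groupCohomology (resSub H (regRep G)) n) := by
  have e1 : resSub H (regRep G) ≅ resSub H (coindZ G) :=
    (Rep.resFunctor H.subtype).mapIso regIsoCoind
  have e2 : groupCohomology (resSub H (regRep G)) n ≅ groupCohomology (resSub H (coindZ G)) n :=
    (groupCohomology.functor ℤ H n).mapIso e1
  exact IsZero.of_iso (hC G (Rep.trivial ℤ G ℤ) H n hn) e2

/-! ## Cocycle forms of vanishing -/

lemma mem_coboundaries₁_of_isZero {H : Type} [Group H] (A : Rep ℤ H)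
    (h : IsZero (groupCohomology A 1)) (z : cocycles₁ A) : ⇑z ∈ coboundaries₁ A := by
  rw [← H1π_eq_zero_iff]
  have := ModuleCat.subsingleton_of_isZero h
  exact Subsingleton.elim _ _

lemma mem_coboundaries₂_of_isZero {H : Type} [Group H] (A : Rep ℤ H)
    (h : IsZero (groupCohomology A 2)) (z : cocycles₂ A) : ⇑z ∈ coboundaries₂ A := by
  rw [← H2π_eq_zero_iff]
  have := ModuleCat.subsingleton_of_isZero h
  exact Subsingleton.elim _ _

/-- A `1`-cocycle of `H` in `ℤ[G]` is a coboundary: explicit form. -/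
lemma exists_primitive₁ (hC : CoindAcyclic) [Finite G] (H : Subgroup G)
    (z : H → (G →₀ ℤ)) (hz : ∀ g h : H, z (g * h) = regRho G (g : G) (z h) + z g) :
    ∃ r : G →₀ ℤ, ∀ h : H, regRho G (h : G) r - r = z h := by
  have hmem : z ∈ cocycles₁ (resSub H (regRep G)) := by
    rw [mem_cocycles₁_iff]
    intro g h
    exact hz g h
  have := mem_coboundaries₁_of_isZero _ (isZero_regRep hC H 1 one_pos) ⟨z, hmem⟩
  obtain ⟨r, hr⟩ := this
  refine ⟨r, fun h => ?_⟩
  exact congrFun hr h

/-- A `2`-cocycle of `H` in `ℤ[G]` is a coboundary: explicit form. -/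
lemma exists_primitive₂ (hC : CoindAcyclic) [Finite G] (H : Subgroup G)
    (z : H × H → (G →₀ ℤ))
    (hz : ∀ g h j : H, z (g * h, j) + z (g, h) = regRho G (g : G) (z (h, j)) + z (g, h * j)) :
    ∃ y : H → (G →₀ ℤ), ∀ g h : H, regRho G (g : G) (y h) - y (g * h) + y g = z (g, h) := by
  have hmem : z ∈ cocycles₂ (resSub H (regRep G)) := by
    rw [mem_cocycles₂_iff]
    intro g h j
    exact hz g h j
  have := mem_coboundaries₂_of_isZero _ (isZero_regRep hC H 2 two_pos) ⟨z, hmem⟩
  obtain ⟨y, hy⟩ := this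
  refine ⟨y, fun g h => ?_⟩
  exact congrFun hy (g, h)

/-! ## `H¹(H, I_G)` is generated by `γ` -/

/-- Cocycle level: every `1`-cocycle of `H` in `I_G` is `n • γ` plus a coboundary. -/
theorem exists_zsmul_gamma_add_coboundary (hC : CoindAcyclic) [Finite G] (H : Subgroup G)
    (z : cocycles₁ (resSub H (augRep G))) :
    ∃ n : ℤ, ⇑z - ⇑(n • gammaCocycle H) ∈ coboundaries₁ (resSub H (augRep G)) := by
  have hz := (mem_cocycles₁_iff (A := resSub H (augRep G)) z).1 z.2
  obtain ⟨r, hr⟩ := exists_primitive₁ hC H (fun h => ((z h : augSub G) : G →₀ ℤ)) (by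
    intro g h
    have := congrArg (fun x : augSub G => (x : G →₀ ℤ)) (hz g h)
    exact this)
  refine ⟨eps G r, ?_⟩
  have hr0 : r - (eps G r) • Finsupp.single (1 : G) (1 : ℤ) ∈ augSub G := by
    rw [mem_augSub]
    simp
  refine ⟨⟨r - (eps G r) • Finsupp.single (1 : G) (1 : ℤ), hr0⟩, ?_⟩
  funext h
  apply Subtype.ext
  show regRho G (h : G) (r - (eps G r) • Finsupp.single (1 : G) (1 : ℤ))
      - (r - (eps G r) • Finsupp.single (1 : G) (1 : ℤ))
    = ((z h : augSub G) : G →₀ ℤ) - (eps G r) • ((dd (h : G) : augSub G) : G →₀ ℤ)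
  rw [← hr h]
  simp only [map_sub, map_smul, regRho_single, mul_one, dd_coe, smul_sub]
  abel

/-- **`γ` generates `H¹(H, I_G)`.** -/
theorem exists_zsmul_gamma (hC : CoindAcyclic) [Finite G] (H : Subgroup G)
    (x : groupCohomology (resSub H (augRep G)) 1) :
    ∃ n : ℤ, x = n • H1π (resSub H (augRep G)) (gammaCocycle H) := by
  induction x using H1_induction_on with
  | h z =>
    obtain ⟨n, hn⟩ := exists_zsmul_gamma_add_coboundary hC H z
    refine ⟨n, ?_⟩
    rw [← map_zsmul, H1π_eq_iff]
    exact hn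

/-! ## `|H| • γ = 0` -/

theorem card_zsmul_gammaCocycle_mem_coboundaries [Finite G] (H : Subgroup G) :
    ⇑((Nat.card H : ℤ) • gammaCocycle H) ∈ coboundaries₁ (resSub H (augRep G)) := by
  classical
  have : Fintype H := Fintype.ofFinite H
  refine ⟨-∑ h' : H, dd (h' : G), ?_⟩
  funext h
  show (augRep G).ρ (h : G) (-∑ h' : H, dd (h' : G)) - (-∑ h' : H, dd (h' : G))
    = (Nat.card H : ℤ) • dd (h : G)
  have h1 : (augRep G).ρ (h : G) (∑ h' : H, dd (h' : G))
      = ∑ h' : H, dd (h' : G) - (Nat.card H : ℤ) • dd (h : G) := by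
    rw [map_sum]
    have key : ∀ h' : H, (augRep G).ρ (h : G) (dd (h' : G))
        = dd ((h * h' : H) : G) - dd (h : G) := fun h' => by
      rw [augRep_ρ_dd]
      rfl
    rw [Finset.sum_congr rfl (fun h' _ => key h'), Finset.sum_sub_distrib]
    congr 1
    · exact Equiv.sum_comp (Equiv.mulLeft h) (fun h' : H => dd (h' : G))
    · simp [Nat.card_eq_fintype_card]
  rw [map_neg, h1]
  abel

/-- **`|H| • γ = 0` in `H¹(H, I_G)`.** -/
theorem card_zsmul_gamma [Finite G] (H : Subgroup G) :
    (Nat.card H : ℤ) • H1π (resSub H (augRep G)) (gammaCocycle H) = 0 := by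
  rw [← map_zsmul, H1π_eq_zero_iff]
  exact card_zsmul_gammaCocycle_mem_coboundaries H

/-! ## `H²(H, I_G) = 0` -/

/-- An additive character of a finite group with values in `ℤ` vanishes. -/
lemma eq_zero_of_additive_of_finite {H : Type} [Group H] [Finite H] (χ : H → ℤ)
    (hχ : ∀ g h : H, χ (g * h) = χ g + χ h) (h : H) : χ h = 0 := by
  have h1 : χ 1 = 0 := by
    have := hχ 1 1
    rw [mul_one] at this
    linarith
  have hpow : ∀ k : ℕ, χ (h ^ k) = k * χ h := by
    intro k
    induction k with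
    | zero => simp [h1]
    | succ k ih => rw [pow_succ, hχ, ih]; push_cast; ring
  have h2 := hpow (orderOf h)
  rw [pow_orderOf_eq_one, h1] at h2
  have h3 : (orderOf h : ℤ) ≠ 0 := by
    exact_mod_cast (orderOf_pos h).ne'
  rcases mul_eq_zero.mp h2.symm with h4 | h4
  · exact absurd h4 h3
  · exact h4

/-- Cocycle level: every `2`-cocycle of `H` in `I_G` is a coboundary. -/
theorem mem_coboundaries₂_augRep (hC : CoindAcyclic) [Finite G] (H : Subgroup G)
    (z : cocycles₂ (resSub H (augRep G))) : ⇑z ∈ coboundaries₂ (resSub H (augRep G)) := by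
  have hz := (mem_cocycles₂_iff (A := resSub H (augRep G)) z).1 z.2
  obtain ⟨y, hy⟩ := exists_primitive₂ hC H (fun gh => ((z gh : augSub G) : G →₀ ℤ)) (by
    intro g h j
    have := congrArg (fun x : augSub G => (x : G →₀ ℤ)) (hz g h j)
    exact this)
  -- `ε ∘ y` is an additive character of `H`, hence zero
  have hχ : ∀ g h : H, eps G (y (g * h)) = eps G (y g) + eps G (y h) := by
    intro g h
    have h0 : eps G ((z (g, h) : augSub G) : G →₀ ℤ) = 0 := mem_augSub.mp (z (g, h)).2
    have := congrArg (eps G) (hy g h)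
    rw [h0] at this
    simp only [map_add, map_sub, eps_regRho] at this
    linarith
  have hy0 : ∀ h : H, y h ∈ augSub G := fun h =>
    mem_augSub.mpr (eq_zero_of_additive_of_finite (fun h => eps G (y h)) hχ h)
  refine ⟨fun h => ⟨y h, hy0 h⟩, ?_⟩
  funext gh
  obtain ⟨g, h⟩ := gh
  apply Subtype.ext
  exact hy g h

/-- **`H²(H, I_G) = 0`.** -/
theorem isZero_H2_augRep (hC : CoindAcyclic) [Finite G] (H : Subgroup G) :
    IsZero (groupCohomology (resSub H (augRep G)) 2) := by
  rw [ModuleCat.isZero_iff_subsingleton]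
  refine ⟨fun a b => ?_⟩
  have key : ∀ x : groupCohomology (resSub H (augRep G)) 2, x = 0 := by
    intro x
    induction x using H2_induction_on with
    | h z =>
      rw [H2π_eq_zero_iff]
      exact mem_coboundaries₂_augRep hC H z
  rw [key a, key b]

/-! ## Summary in the shape of `Blocks.SplittingModule` -/

/-- The three facts about `Q = I_G` required by `Blocks.SplittingModule`, with the explicit
generator `γ = [h ↦ [h] - [1]]`. -/
theorem aug_summary (hC : CoindAcyclic) [Finite G] (H : Subgroup G) :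
    IsZero (groupCohomology (resSub H (augRep G)) 2) ∧
    (∀ x : groupCohomology (resSub H (augRep G)) 1,
      ∃ n : ℤ, x = n • H1π (resSub H (augRep G)) (gammaCocycle H)) ∧
    (Nat.card H : ℤ) • H1π (resSub H (augRep G)) (gammaCocycle H) = 0 :=
  ⟨isZero_H2_augRep hC H, exists_zsmul_gamma hC H, card_zsmul_gamma H⟩

end Fermat.Agent.S55.Tate.SplittingAugThms
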