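/-
S55 / TATE block, row 143, augmentation-ideal half (Finsupp model of `SplittingAugDefs`):
the extra clause of `Blocks.SplittingModule` (v3): `H²(G, I_G) = 0` for `G` itself.  (helper91)
-/
import Mathlib
import Fermat.Agent.S55.Tate.Blocks
import Fermat.Agent.S55.Tate.SplittingAugDefs
import Fermat.Agent.S55.Tate.SplittingAugThms

set_option autoImplicit false
set_option linter.unusedSectionVars false

namespace Fermat.Agent.S55.Tate.SplittingAugTop

open CategoryTheory CategoryTheory.Limits groupCohomology Rep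
open Fermat.Agent.S55.Tate.Blocks Fermat.Agent.S55.Tate.SplittingAugDefs
open Fermat.Agent.S55.Tate.SplittingAugThms

variable {G : Type} [Group G]

/-- Cocycle level: every `2`-cocycle of `G` in `I_G` is a coboundary. -/
theorem mem_coboundaries₂_augRep_top (hC : CoindAcyclic) [Finite G]
    (z : cocycles₂ (augRep G)) : ⇑z ∈ coboundaries₂ (augRep G) := by
  have hz := (mem_cocycles₂_iff (A := augRep G) z).1 z.2
  obtain ⟨y, hy⟩ := exists_primitive₂ hC (⊤ : Subgroup G)
    (fun gh => ((z ((gh.1 : G), (gh.2 : G)) : augSub G) : G →₀ ℤ)) (by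
    intro g h j
    have := congrArg (fun x : augSub G => (x : G →₀ ℤ)) (hz (g : G) (h : G) (j : G))
    exact this)
  let y' : G → (G →₀ ℤ) := fun g => y ⟨g, Subgroup.mem_top g⟩
  have hy' : ∀ g h : G, regRho G g (y' h) - y' (g * h) + y' g
      = ((z (g, h) : augSub G) : G →₀ ℤ) := fun g h =>
    hy ⟨g, Subgroup.mem_top g⟩ ⟨h, Subgroup.mem_top h⟩
  have hχ : ∀ g h : G, eps G (y' (g * h)) = eps G (y' g) + eps G (y' h) := by
    intro g h
    have h0 : eps G ((z (g, h) : augSub G) : G →₀ ℤ) = 0 := mem_augSub.mp (z (g, h)).2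
    have := congrArg (eps G) (hy' g h)
    rw [h0] at this
    simp only [map_add, map_sub, eps_regRho] at this
    linarith
  have hy0 : ∀ h : G, y' h ∈ augSub G := fun h =>
    mem_augSub.mpr (eq_zero_of_additive_of_finite (fun h => eps G (y' h)) hχ h)
  refine ⟨fun h => ⟨y' h, hy0 h⟩, ?_⟩
  funext gh
  obtain ⟨g, h⟩ := gh
  apply Subtype.ext
  exact hy' g h

/-- **`H²(G, I_G) = 0`.** -/
theorem isZero_H2_augRep_top (hC : CoindAcyclic) [Finite G] :
    IsZero (groupCohomology (augRep G) 2) := by
  rw [ModuleCat.isZero_iff_subsingleton]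
  refine ⟨fun a b => ?_⟩
  have key : ∀ x : groupCohomology (augRep G) 2, x = 0 := by
    intro x
    induction x using H2_induction_on with
    | h z =>
      rw [H2π_eq_zero_iff]
      exact mem_coboundaries₂_augRep_top hC z
  rw [key a, key b]

/-- Everything `Blocks.SplittingModule` (v3) asks about `Q = I_G`, except the `δ γ = res u`
clause (which belongs to the module half). -/
theorem aug_package (hC : CoindAcyclic) [Finite G] :
    IsZero (groupCohomology (augRep G) 2) ∧
    ∀ H : Subgroup G,
      IsZero (groupCohomology (resSub H (augRep G)) 2) ∧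
      (∀ x : groupCohomology (resSub H (augRep G)) 1,
        ∃ n : ℤ, x = n • H1π (resSub H (augRep G)) (gammaCocycle H)) ∧
      (Nat.card H : ℤ) • H1π (resSub H (augRep G)) (gammaCocycle H) = 0 :=
  ⟨isZero_H2_augRep_top hC, fun H => aug_summary hC H⟩

end Fermat.Agent.S55.Tate.SplittingAugTop
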