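/-
S55 / TATE block, row 143 (helper92): the MODULE half of the splitting module, on top of
`Tate/SplittingAug.lean` (coind model), and the final theorem

  `splittingModule : Blocks.CoindAcyclic → Blocks.SplittingModule`.

For a 2-cocycle `φ` of `G` in `C`: `Ψ_g : R G →+ C` is the additive extension of `σ ↦ φ (g, σ)`
(`σ = single G σ⁻¹`), `C(φ) = C × I_G` with `g • (c, x) = (g c + Ψ_g x, g x)`,
`0 → C → C(φ) → I_G → 0`, and for `H ≤ G`: `δ γ_H = res_H [φ]` (lift `h ↦ (0, h - 1)`).
-/
import Mathlib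
import Fermat.Agent.S55.Tate.Blocks
import Fermat.Agent.S55.Tate.SplittingAug

set_option autoImplicit false

namespace Fermat.Agent.S55.Tate.SplittingModCoind

open CategoryTheory CategoryTheory.Limits groupCohomology Rep
open Fermat.Agent.S55.Tate.Blocks Fermat.Agent.S55.Tate.SplittingAug

attribute [local instance 1100] Rep.hV2

variable {G : Type} [Group G] [Finite G]

/-- two additive maps out of `R G` agreeing on all `single x` are equal. -/
theorem addHom_ext_single {C : Type} [AddCommGroup C] (a b : (R G).V →+ C)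
    (h : ∀ x : G, a (single G x) = b (single G x)) : a = b := by
  let _ : Fintype G := Fintype.ofFinite G
  ext f
  rw [eq_sum_single f, map_sum, map_sum]
  refine Finset.sum_congr rfl fun x _ => ?_
  rw [map_zsmul, map_zsmul, h x]

variable (C : Rep ℤ G) (φ : cocycles₂ C)

/-- `Ψ_g`: the additive extension of `σ ↦ φ (g, σ)` (recall `σ = single G σ⁻¹`). -/
noncomputable def Psi (g : G) : (R G).V →+ C.V :=
  (liftR (fun x : G => φ (g, x⁻¹))).toAddMonoidHom

theorem Psi_single (g x : G) : Psi C φ g (single G x) = φ (g, x⁻¹) :=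
  liftR_single _ x

/-- `Ψ_1` kills the augmentation ideal. -/
theorem Psi_one_of_mem (f : R G) (hf : f ∈ LinearMap.ker (augLin G)) : Psi C φ 1 f = 0 := by
  have : (fun x : G => φ (1, x⁻¹)) = fun _ : G => φ (1, 1) := by
    funext x
    exact cocycles₂_map_one_fst φ x⁻¹
  rw [Psi, this]
  exact liftR_const_of_mem_ker _ f hf

/-- the twisted multiplicativity of `Ψ` on the augmentation ideal. -/
theorem Psi_mul_of_mem (g h : G) (f : R G) (hf : f ∈ LinearMap.ker (augLin G)) :
    Psi C φ (g * h) f = C.ρ g (Psi C φ h f) + Psi C φ g ((R G).ρ h f) := by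
  have key : Psi C φ (g * h) - (((C.ρ g).toAddMonoidHom).comp (Psi C φ h) +
      (Psi C φ g).comp ((R G).ρ h).toAddMonoidHom) =
      (liftR (fun _ : G => - φ (g, h))).toAddMonoidHom := by
    apply addHom_ext_single
    intro x
    rw [AddMonoidHom.sub_apply, AddMonoidHom.add_apply, AddMonoidHom.comp_apply,
      AddMonoidHom.comp_apply]
    change Psi C φ (g * h) (single G x) - (C.ρ g (Psi C φ h (single G x)) +
      Psi C φ g ((R G).ρ h (single G x))) = liftR (fun _ : G => - φ (g, h)) (single G x)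
    rw [liftR_single, Psi_single, Psi_single, ρ_single, Psi_single]
    have hc := (mem_cocycles₂_iff φ).1 φ.2 g h x⁻¹
    have hinv : (x * h⁻¹)⁻¹ = h * x⁻¹ := by group
    rw [hinv]
    rw [eq_neg_iff_add_eq_zero, sub_add_eq_add_sub, sub_eq_zero, hc]
  have := congrArg (fun L : (R G).V →+ C.V => L f) key
  simp only [AddMonoidHom.sub_apply, AddMonoidHom.add_apply, AddMonoidHom.comp_apply] at this
  change Psi C φ (g * h) f - (C.ρ g (Psi C φ h f) + Psi C φ g ((R G).ρ h f)) =
    liftR (fun _ : G => - φ (g, h)) f at this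
  rw [liftR_const_of_mem_ker _ f hf, sub_eq_zero] at this
  exact this

/-- an additive map between `ℤ`-modules (arbitrary instances) is `ℤ`-linear. -/
def linOfAdd {M N : Type} [AddCommGroup M] [AddCommGroup N] {mM : Module ℤ M} {mN : Module ℤ N}
    (f : M →+ N) : M →ₗ[ℤ] N :=
  { toFun := f
    map_add' := f.map_add
    map_smul' := fun n x => by simpa using map_intCast_smul f ℤ ℤ n x }

@[simp] theorem linOfAdd_apply {M N : Type} [AddCommGroup M] [AddCommGroup N] {mM : Module ℤ M}
    {mN : Module ℤ N} (f : M →+ N) (x : M) : linOfAdd (mM := mM) (mN := mN) f x = f x := rfl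

/-- the twisted action of `g` on `C × I_G`, as an additive map. -/
noncomputable def rhoMAdd (g : G) : C.V × (augRep G).V →+ C.V × (augRep G).V where
  toFun p := (C.ρ g p.1 + Psi C φ g (p.2 : R G), (augRep G).ρ g p.2)
  map_zero' := by simp
  map_add' p p' := by
    ext
    · simp only [Prod.fst_add, Prod.snd_add, map_add, Submodule.coe_add]
      abel
    · simp only [Prod.snd_add, map_add]

theorem rhoMAdd_apply (g : G) (p : C.V × (augRep G).V) :
    rhoMAdd C φ g p = (C.ρ g p.1 + Psi C φ g (p.2 : R G), (augRep G).ρ g p.2) := rfl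

/-- the splitting module `C(φ) = C × I_G` with the twisted action. -/
noncomputable def rhoM : Representation ℤ G (C.V × (augRep G).V) where
  toFun g := linOfAdd (rhoMAdd C φ g)
  map_one' := by
    refine LinearMap.ext fun p => ?_
    rw [linOfAdd_apply, rhoMAdd_apply, Psi_one_of_mem C φ _ p.2.2, map_one, map_one]
    simp
  map_mul' g h := by
    refine LinearMap.ext fun p => ?_
    rw [Module.End.mul_apply, linOfAdd_apply, linOfAdd_apply, linOfAdd_apply, rhoMAdd_apply,
      rhoMAdd_apply, rhoMAdd_apply]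
    ext
    · dsimp only
      rw [Psi_mul_of_mem C φ g h _ p.2.2, augRep_ρ_val, map_add, map_mul]
      simp only [Module.End.mul_apply]
      abel
    · dsimp only
      rw [map_mul]
      rfl

theorem rhoM_apply (g : G) (p : C.V × (augRep G).V) :
    rhoM C φ g p = (C.ρ g p.1 + Psi C φ g (p.2 : R G), (augRep G).ρ g p.2) := rfl

/-- the splitting module as an object of `Rep ℤ G`. -/
noncomputable abbrev splitRep : Rep ℤ G := Rep.of (rhoM C φ)

/-- `C ⟶ C(φ)`, `c ↦ (c, 0)`, as an intertwining map. -/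
noncomputable def splitInlI : C.ρ.IntertwiningMap (rhoM C φ) :=
  ⟨linOfAdd (AddMonoidHom.inl C.V (augRep G).V), fun g => by
    refine LinearMap.ext fun c => ?_
    simp only [LinearMap.comp_apply, linOfAdd_apply, AddMonoidHom.inl_apply]
    rw [rhoM_apply]
    simp⟩

/-- `C ⟶ C(φ)`, `c ↦ (c, 0)`. -/
noncomputable def splitInl : C ⟶ splitRep C φ :=
  ConcreteCategory.ofHom (C := Rep ℤ G) (X := C) (Y := splitRep C φ) (splitInlI C φ)

/-- `C(φ) ⟶ I_G`, `(c, x) ↦ x`, as an intertwining map. -/
noncomputable def splitSndI : (rhoM C φ).IntertwiningMap (augRep G).ρ :=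
  ⟨linOfAdd (AddMonoidHom.snd C.V (augRep G).V), fun g => by
    refine LinearMap.ext fun p => ?_
    simp only [LinearMap.comp_apply, linOfAdd_apply, AddMonoidHom.coe_snd]
    rw [rhoM_apply]⟩

/-- `C(φ) ⟶ I_G`, `(c, x) ↦ x`. -/
noncomputable def splitSnd : splitRep C φ ⟶ augRep G :=
  ConcreteCategory.ofHom (C := Rep ℤ G) (X := splitRep C φ) (Y := augRep G) (splitSndI C φ)

theorem splitInl_hom_apply (c : C.V) : (splitInl C φ).hom c = (c, 0) := rfl

theorem splitSnd_hom_apply (p : C.V × (augRep G).V) : (splitSnd C φ).hom p = p.2 := rfl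

theorem splitInl_comp_splitSnd : splitInl C φ ≫ splitSnd C φ = 0 := by
  apply Rep.hom_ext
  refine Representation.IntertwiningMap.ext (LinearMap.ext fun c => ?_)
  rfl

/-- the short complex `C ⟶ C(φ) ⟶ I_G`. -/
noncomputable abbrev splitSC : ShortComplex (Rep ℤ G) :=
  ShortComplex.mk (splitInl C φ) (splitSnd C φ) (splitInl_comp_splitSnd C φ)

theorem splitSC_shortExact : (splitSC C φ).ShortExact := by
  apply shortExact_of_elementwise
  · intro c c' h
    exact congrArg Prod.fst h
  · intro x
    exact ⟨(0, x), rfl⟩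
  · rintro ⟨c, x⟩ hx
    refine ⟨c, ?_⟩
    change (c, (0 : (augRep G).V)) = (c, x)
    have : x = 0 := hx
    rw [this]

variable (H : Subgroup G)

/-- the restricted short exact sequence. -/
noncomputable abbrev splitSCres : ShortComplex (Rep ℤ H) :=
  (splitSC C φ).map (Rep.resFunctor H.subtype)

theorem splitSCres_shortExact : (splitSCres C φ H).ShortExact :=
  (Rep.shortExact_res H.subtype).2 (splitSC_shortExact C φ)

/-- the lift `h ↦ (0, h - 1)` of `gammaCocycle H` to `C(φ)`. -/
noncomputable def liftY (h : H) : C.V × (augRep G).V :=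
  ((0 : C.V), (gammaFun H h : (augRep G).V))

/-- the 2-cochain `(h₁, h₂) ↦ φ (h₁, h₂) - φ (h₁, 1)`. -/
noncomputable def cochX (p : H × H) : C.V :=
  φ ((p.1 : G), (p.2 : G)) - φ ((p.1 : G), 1)

theorem Psi_gammaFun (g : G) (h : H) :
    Psi C φ g ((gammaFun H h : augRep G) : R G) = φ (g, (h : G)) - φ (g, 1) := by
  rw [gammaFun_val, e_eq_single, ρ_single, map_sub, Psi_single, Psi_single]
  simp

theorem hy : (splitSCres C φ H).g.hom ∘
    (liftY C H : H → (splitSCres C φ H).X₂) = gammaCocycle H := by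
  funext h
  rfl

theorem hx : (splitSCres C φ H).f.hom ∘ (cochX C φ H : H × H → (splitSCres C φ H).X₁) =
    d₁₂ (splitSCres C φ H).X₂ (liftY C H : H → (splitSCres C φ H).X₂) := by
  funext p
  obtain ⟨h₁, h₂⟩ := p
  change ((cochX C φ H (h₁, h₂) : C.V), (0 : (augRep G).V)) =
    rhoM C φ (h₁ : G) (liftY C H h₂) - liftY C H (h₁ * h₂) + liftY C H h₁
  rw [rhoM_apply]
  ext1
  · simp only [liftY, cochX, Prod.fst_add, Prod.fst_sub, map_zero, zero_add, sub_zero, add_zero]
    rw [Psi_gammaFun]
  · simp only [liftY, Prod.snd_add, Prod.snd_sub]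
    have := (mem_cocycles₁_def (A := resSub H (augRep G)) (gammaFun H)).1 (gammaFun_mem H) h₁ h₂
    exact this.symm

/-- `δ γ_H = res_H [φ]`. -/
theorem delta_gamma :
    groupCohomology.δ (X := splitSCres C φ H) (splitSCres_shortExact C φ H) 1 2 rfl (gamma H) =
      Blocks.resMap H C 2 (H2π C φ) := by
  have h1 := δ₁_apply (splitSCres_shortExact C φ H) (gammaCocycle H)
    (liftY C H : H → (splitSCres C φ H).X₂) (hy C φ H)
    (cochX C φ H : H × H → (splitSCres C φ H).X₁) (hx C φ H)
  rw [gamma]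
  refine h1.trans ?_
  have hmem : (cochX C φ H : H × H → resSub H C) ∈ cocycles₂ (resSub H C) :=
    mem_cocycles₂_of_comp_eq_d₁₂ (splitSCres_shortExact C φ H) (hx C φ H)
  rw [Blocks.resMap, H2π_comp_map_apply]
  change H2π (resSub H C) ⟨cochX C φ H, hmem⟩ = _
  rw [H2π_eq_iff]
  refine ⟨fun _ : H => - (φ ((1 : G), (1 : G)) : C.V), ?_⟩
  funext p
  obtain ⟨h₁, h₂⟩ := p
  rw [d₁₂_hom_apply]
  simp only [map_neg]
  change _ = cochX C φ H (h₁, h₂) - φ ((h₁ : G), (h₂ : G))
  rw [cochX, cocycles₂_map_one_snd φ (h₁ : G)]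
  change - C.ρ (h₁ : G) (φ ((1 : G), (1 : G))) - _ + _ = _
  abel

/-- `H²(G, R G) = 0` (Shapiro for the trivial subgroup). -/
theorem isZero_H2_R_top : IsZero (groupCohomology (R G) 2) :=
  IsZero.of_iso
    (isZero_groupCohomology_succ_of_subsingleton
      (resSub (⊥ : Subgroup G) (Rep.trivial ℤ G ℤ)) 1)
    (groupCohomology.coindIso (resSub (⊥ : Subgroup G) (Rep.trivial ℤ G ℤ)) 2)

/-- `H²(G, I_G) = 0` for `G` itself. -/
theorem isZero_H2_top : IsZero (groupCohomology (augRep G) 2) := by
  have hR := isZero_H2_R_top (G := G)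
  rw [ModuleCat.isZero_iff_subsingleton]
  refine ⟨fun x y => ?_⟩
  suffices h : ∀ x : groupCohomology (augRep G) 2, x = 0 by rw [h x, h y]
  intro x
  induction x using H2_induction_on with
  | h c =>
  have hc : (fun p : G × G => ((c p : augRep G) : R G)) ∈ cocycles₂ (R G) := by
    rw [mem_cocycles₂_iff]
    intro g h j
    have := (mem_cocycles₂_iff (A := augRep G) c).1 c.2 g h j
    exact congrArg (fun x : augRep G => (x : R G)) this
  have h0 : H2π (R G) ⟨_, hc⟩ = 0 :=
    (ModuleCat.subsingleton_of_isZero hR).elim _ _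
  rw [H2π_eq_zero_iff] at h0
  obtain ⟨b, hb⟩ := h0
  have hb' : ∀ g h : G, (R G).ρ g (b h) - b (g * h) + b g = ((c (g, h) : augRep G) : R G) :=
    fun g h => congrFun hb (g, h)
  have hw : ∀ h : G, augLin G (b h) = 0 := by
    refine eq_zero_of_additive (fun h => augLin G (b h)) (fun g h => ?_)
    have := congrArg (augLin G) (hb' g h)
    rw [map_add, map_sub, augLin_ρ] at this
    have hc0 : augLin G ((c (g, h) : augRep G) : R G) = 0 := (c (g, h) : augRep G).2
    rw [hc0] at this
    linarith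
  let b' : G → augRep G := fun h => (⟨b h, hw h⟩ : augRep G)
  rw [H2π_eq_zero_iff]
  refine ⟨b', ?_⟩
  funext p
  obtain ⟨g, h⟩ := p
  apply Subtype.ext
  exact hb' g h

/-- **Row 143**: the splitting module. -/
theorem splittingModule (hC : CoindAcyclic) : SplittingModule := by
  intro G _ _ C u
  induction u using H2_induction_on with
  | h φ =>
  refine ⟨splitRep C φ, augRep G, splitInl C φ, splitSnd C φ, splitInl_comp_splitSnd C φ,
    splitSC_shortExact C φ, isZero_H2_top, fun H => ⟨(aug_package H hC).1, gamma H,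
      (aug_package H hC).2.1, (aug_package H hC).2.2, ?_⟩⟩
  exact delta_gamma C φ H

end Fermat.Agent.S55.Tate.SplittingModCoind
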